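import Mathlib

set_option autoImplicit false

namespace Fermat.Agent.S11

open Finset

/-- The cofactor `(yᵖ + zᵖ)/(y + z)` for odd `p`. -/
def cofactor (p : ℕ) (y z : ℤ) : ℤ := ∑ i ∈ range p, y ^ i * (-z) ^ (p - 1 - i)

theorem cofactor_mul {p : ℕ} (hp : Odd p) (y z : ℤ) :
    cofactor p y z * (y + z) = y ^ p + z ^ p := by
  have h := geom_sum₂_mul y (-z) p
  rw [hp.neg_pow, sub_neg_eq_add, sub_neg_eq_add] at h
  exact h

/-- `cofactor p y z ≡ p * y^(p-1)` modulo `y + z`. -/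
theorem add_dvd_cofactor_sub (p : ℕ) (y z : ℤ) :
    y + z ∣ cofactor p y z - p * y ^ (p - 1) := by
  have h1 : (p : ℤ) * y ^ (p - 1) = ∑ i ∈ range p, y ^ i * y ^ (p - 1 - i) := by
    rw [Finset.sum_congr rfl (g := fun _ => y ^ (p - 1))]
    · simp
    · intro i hi
      rw [← pow_add]
      congr 1
      have := Finset.mem_range.mp hi
      omega
  rw [h1, cofactor, ← Finset.sum_sub_distrib]
  refine Finset.dvd_sum fun i _ => ?_
  rw [← mul_sub]
  refine Dvd.dvd.mul_left ?_ _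
  have h2 : (-z) - y ∣ (-z) ^ (p - 1 - i) - y ^ (p - 1 - i) := sub_dvd_pow_sub_pow _ _ _
  have h3 : y + z ∣ (-z) - y := ⟨-1, by ring⟩
  exact h3.trans h2

/-- `cofactor p z x ≡ z^(p-1)` modulo `x`. -/
theorem dvd_cofactor_sub {p : ℕ} (hp : 0 < p) (z x : ℤ) :
    x ∣ cofactor p z x - z ^ (p - 1) := by
  rw [cofactor, ← Finset.sum_erase_add _ _ (Finset.mem_range.mpr (Nat.sub_lt hp one_pos))]
  have : p - 1 - (p - 1) = 0 := by omega
  rw [this, pow_zero, mul_one, add_sub_cancel_right]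
  refine Finset.dvd_sum fun i hi => ?_
  refine Dvd.dvd.mul_left ?_ _
  have hi' := Finset.mem_erase.mp hi
  have hlt := Finset.mem_range.mp hi'.2
  have hpos : p - 1 - i ≠ 0 := by omega
  exact (dvd_neg.mpr (dvd_refl x)).trans (dvd_pow_self _ hpos)

/-- If `y, z` are coprime, `yᵖ + zᵖ = (-x)ᵖ` and `p ∤ x`, then `y + z` and the cofactor are both
`p`-th powers. -/
theorem exists_pow_of_add_pow {p : ℕ} (hp : p.Prime) (hodd : Odd p) {x y z : ℤ}
    (hyz : IsCoprime y z) (h : y ^ p + z ^ p = (-x) ^ p) (hpx : ¬ (p : ℤ) ∣ x) :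
    ∃ A α : ℤ, y + z = A ^ p ∧ cofactor p y z = α ^ p := by
  have hmul := cofactor_mul hodd y z
  have hcop : IsCoprime (y + z) (cofactor p y z) := by
    rw [Int.isCoprime_iff_gcd_eq_one]
    by_contra hne
    obtain ⟨ℓ, hℓ, hdvd⟩ := Nat.exists_prime_and_dvd hne
    have hℓ1 : (ℓ : ℤ) ∣ y + z := (Int.natCast_dvd_natCast.mpr hdvd).trans (Int.gcd_dvd_left _ _)
    have hℓ2 : (ℓ : ℤ) ∣ cofactor p y z :=
      (Int.natCast_dvd_natCast.mpr hdvd).trans (Int.gcd_dvd_right _ _)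
    have hℓ3 : (ℓ : ℤ) ∣ (p : ℤ) * y ^ (p - 1) := by
      have := (dvd_sub hℓ2 (hℓ1.trans (add_dvd_cofactor_sub p y z)))
      simpa using this
    have hℓp : Prime (ℓ : ℤ) := Nat.prime_iff_prime_int.mp hℓ
    rcases hℓp.dvd_or_dvd hℓ3 with h4 | h4
    · -- ℓ = p, so p ∣ y + z ∣ x^p
      have hℓeq : ℓ = p := (Nat.prime_dvd_prime_iff_eq hℓ hp).mp (Int.natCast_dvd_natCast.mp h4)
      subst hℓeq
      have h5 : (ℓ : ℤ) ∣ (-x) ^ ℓ := by
        rw [← h, ← hmul]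
        exact Dvd.dvd.mul_left hℓ1 _
      have h6 := hℓp.dvd_of_dvd_pow h5
      exact hpx (dvd_neg.mp h6)
    · have h5 : (ℓ : ℤ) ∣ y := hℓp.dvd_of_dvd_pow h4
      have h6 : (ℓ : ℤ) ∣ z := by
        have := dvd_sub hℓ1 h5
        simpa using this
      exact hℓp.not_isUnit (hyz.isUnit_of_dvd' h5 h6)
  have hmul' : (y + z) * cofactor p y z = (-x) ^ p := by rw [mul_comm, hmul, h]
  obtain ⟨A, hA⟩ := Int.eq_pow_of_mul_eq_pow_odd_left hcop hodd hmul'
  obtain ⟨α, hα⟩ := Int.eq_pow_of_mul_eq_pow_odd_right hcop hodd hmul'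
  exact ⟨A, α, hA, hα⟩

/-- Core of Sophie Germain's theorem: the auxiliary prime cannot divide `x`. -/
theorem sophie_core {p q : ℕ} (hp : p.Prime) (hodd : Odd p) (hq : q.Prime)
    (h1 : ∀ u v w : ZMod q, u ^ p + v ^ p + w ^ p = 0 → u = 0 ∨ v = 0 ∨ w = 0)
    (h2 : ∀ u : ZMod q, u ^ p ≠ (p : ZMod q))
    {x y z : ℤ} (hxy : IsCoprime x y) (hyz : IsCoprime y z) (hzx : IsCoprime z x)
    (h : x ^ p + y ^ p + z ^ p = 0)
    (hpx : ¬ (p : ℤ) ∣ x) (hpy : ¬ (p : ℤ) ∣ y) (hpz : ¬ (p : ℤ) ∣ z)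
    (hqx : (q : ℤ) ∣ x) : False := by
  have : Fact q.Prime := ⟨hq⟩
  have hqp : Prime (q : ℤ) := Nat.prime_iff_prime_int.mp hq
  obtain ⟨A, α, hA, hα⟩ := exists_pow_of_add_pow hp hodd hyz
    (show y ^ p + z ^ p = (-x) ^ p by rw [hodd.neg_pow]; linarith) hpx
  obtain ⟨B, β, hB, hβ⟩ := exists_pow_of_add_pow hp hodd hzx
    (show z ^ p + x ^ p = (-y) ^ p by rw [hodd.neg_pow]; linarith) hpy
  obtain ⟨C, γ, hC, -⟩ := exists_pow_of_add_pow hp hodd hxy
    (show x ^ p + y ^ p = (-z) ^ p by rw [hodd.neg_pow]; linarith) hpz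
  -- q does not divide y or z
  have hqy : ¬ (q : ℤ) ∣ y := fun hy => hqp.not_isUnit (hxy.isUnit_of_dvd' hqx hy)
  have hqz : ¬ (q : ℤ) ∣ z := fun hz => hqp.not_isUnit (hzx.isUnit_of_dvd' hz hqx)
  -- B^p + C^p + (-A)^p = 2x ≡ 0 mod q
  have hsum : B ^ p + C ^ p + (-A) ^ p = 2 * x := by
    rw [hodd.neg_pow, ← hA, ← hB, ← hC]; ring
  have hsumq : ((B : ZMod q)) ^ p + (C : ZMod q) ^ p + ((-A : ℤ) : ZMod q) ^ p = 0 := by
    have := congrArg (Int.cast : ℤ → ZMod q) hsum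
    push_cast at this ⊢
    rw [this, (ZMod.intCast_zmod_eq_zero_iff_dvd x q).mpr hqx, mul_zero]
  have hA0 : (q : ℤ) ∣ y + z := by
    rcases h1 _ _ _ hsumq with hB0 | hC0 | hA0
    · exfalso
      have hqB : (q : ℤ) ∣ B := (ZMod.intCast_zmod_eq_zero_iff_dvd B q).mp hB0
      have : (q : ℤ) ∣ z + x := hB ▸ (hqB.trans (dvd_pow_self B hp.ne_zero))
      exact hqz (by simpa using dvd_sub this hqx)
    · exfalso
      have hqC : (q : ℤ) ∣ C := (ZMod.intCast_zmod_eq_zero_iff_dvd C q).mp hC0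
      have : (q : ℤ) ∣ x + y := hC ▸ (hqC.trans (dvd_pow_self C hp.ne_zero))
      exact hqy (by simpa using dvd_sub this hqx)
    · have hqA : (q : ℤ) ∣ -A := (ZMod.intCast_zmod_eq_zero_iff_dvd (-A) q).mp hA0
      exact hA ▸ ((dvd_neg.mp hqA).trans (dvd_pow_self A hp.ne_zero))
  -- α^p ≡ p y^(p-1), β^p ≡ z^(p-1) = y^(p-1)
  have hα' : ((α : ZMod q)) ^ p = (p : ZMod q) * (y : ZMod q) ^ (p - 1) := by
    have hd : (q : ℤ) ∣ cofactor p y z - p * y ^ (p - 1) := hA0.trans (add_dvd_cofactor_sub p y z)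
    have := (ZMod.intCast_zmod_eq_zero_iff_dvd _ q).mpr hd
    rw [hα] at this
    push_cast at this
    exact sub_eq_zero.mp this
  have hyzq : (z : ZMod q) = -(y : ZMod q) := by
    have := (ZMod.intCast_zmod_eq_zero_iff_dvd _ q).mpr hA0
    push_cast at this
    exact eq_neg_of_add_eq_zero_right this
  have hβ' : ((β : ZMod q)) ^ p = (y : ZMod q) ^ (p - 1) := by
    have hd : (q : ℤ) ∣ cofactor p z x - z ^ (p - 1) := hqx.trans (dvd_cofactor_sub hp.pos z x)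
    have := (ZMod.intCast_zmod_eq_zero_iff_dvd _ q).mpr hd
    rw [hβ] at this
    push_cast at this
    rw [sub_eq_zero.mp this, hyzq]
    have heven : Even (p - 1) := by
      obtain ⟨k, hk⟩ := hodd
      exact ⟨k, by omega⟩
    exact heven.neg_pow _
  have hy0 : (y : ZMod q) ≠ 0 := fun h0 => hqy ((ZMod.intCast_zmod_eq_zero_iff_dvd y q).mp h0)
  have hβ0 : (β : ZMod q) ≠ 0 := by
    intro h0
    rw [h0, zero_pow hp.ne_zero] at hβ'
    exact pow_ne_zero _ hy0 hβ'.symm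
  apply h2 ((α : ZMod q) * (β : ZMod q)⁻¹)
  rw [mul_pow, inv_pow, hα', hβ', mul_assoc, mul_inv_cancel₀ (pow_ne_zero _ hy0), mul_one]

/-- **Sophie Germain's theorem** (first case of Fermat's Last Theorem with an auxiliary prime). -/
theorem sophie_germain {p q : ℕ} (hp : p.Prime) (hodd : Odd p) (hq : q.Prime)
    (h1 : ∀ u v w : ZMod q, u ^ p + v ^ p + w ^ p = 0 → u = 0 ∨ v = 0 ∨ w = 0)
    (h2 : ∀ u : ZMod q, u ^ p ≠ (p : ZMod q))
    {a b c : ℤ} (hab : IsCoprime a b) (h : a ^ p + b ^ p = c ^ p) : (p : ℤ) ∣ a * b * c := by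
  have : Fact q.Prime := ⟨hq⟩
  by_contra hcon
  have hpa : ¬ (p : ℤ) ∣ a := fun hd => hcon (Dvd.dvd.mul_right (Dvd.dvd.mul_right hd _) _)
  have hpb : ¬ (p : ℤ) ∣ b := fun hd => hcon (Dvd.dvd.mul_right (Dvd.dvd.mul_left hd _) _)
  have hpc : ¬ (p : ℤ) ∣ -c := fun hd => hcon (Dvd.dvd.mul_left (dvd_neg.mp hd) _)
  -- pairwise coprimality
  have hbc' : IsCoprime b c := by
    have h3 : IsCoprime b (a ^ p + b * b ^ (p - 1)) :=
      (IsCoprime.pow_right hab.symm).add_mul_left_right _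
    have h4 : a ^ p + b * b ^ (p - 1) = c ^ p := by
      rw [← pow_succ', Nat.sub_add_cancel hp.one_le, h]
    rw [h4] at h3
    exact (IsCoprime.pow_right_iff hp.pos).mp h3
  have hac' : IsCoprime a c := by
    have h3 : IsCoprime a (b ^ p + a * a ^ (p - 1)) :=
      (IsCoprime.pow_right hab).add_mul_left_right _
    have h4 : b ^ p + a * a ^ (p - 1) = c ^ p := by
      rw [← pow_succ', Nat.sub_add_cancel hp.one_le, add_comm, h]
    rw [h4] at h3
    exact (IsCoprime.pow_right_iff hp.pos).mp h3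
  have hyz : IsCoprime b (-c) := hbc'.neg_right
  have hzx : IsCoprime (-c) a := hac'.symm.neg_left
  have heq : a ^ p + b ^ p + (-c) ^ p = 0 := by rw [hodd.neg_pow, h]; ring
  have heqq : (a : ZMod q) ^ p + (b : ZMod q) ^ p + ((-c : ℤ) : ZMod q) ^ p = 0 := by
    have := congrArg (Int.cast : ℤ → ZMod q) heq
    push_cast at this ⊢
    exact this
  rcases h1 _ _ _ heqq with ha0 | hb0 | hc0
  · exact sophie_core hp hodd hq h1 h2 hab hyz hzx heq hpa hpb hpc
      ((ZMod.intCast_zmod_eq_zero_iff_dvd a q).mp ha0)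
  · exact sophie_core hp hodd hq h1 h2 hyz hzx hab (by linarith) hpb hpc hpa
      ((ZMod.intCast_zmod_eq_zero_iff_dvd b q).mp hb0)
  · exact sophie_core hp hodd hq h1 h2 hzx hab hyz (by linarith) hpc hpa hpb
      ((ZMod.intCast_zmod_eq_zero_iff_dvd (-c) q).mp hc0)

theorem pow_mem_five : ∀ u : ZMod 11, u ^ 5 = 0 ∨ u ^ 5 = 1 ∨ u ^ 5 = 10 := by decide

theorem aux1_five : ∀ u v w : ZMod 11, u ^ 5 + v ^ 5 + w ^ 5 = 0 → u = 0 ∨ v = 0 ∨ w = 0 := by
  intro u v w h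
  by_contra hcon
  simp only [not_or] at hcon
  obtain ⟨hu0, hv0, hw0⟩ := hcon
  have hz : ∀ t : ZMod 11, t ≠ 0 → t ^ 5 ≠ 0 := by decide
  rcases pow_mem_five u with hu | hu | hu <;> rcases pow_mem_five v with hv | hv | hv <;>
    rcases pow_mem_five w with hw | hw | hw <;>
    first
      | exact hz u hu0 hu
      | exact hz v hv0 hv
      | exact hz w hw0 hw
      | (rw [hu, hv, hw] at h; revert h; decide)

theorem aux2_five : ∀ u : ZMod 11, u ^ 5 ≠ ((5 : ℕ) : ZMod 11) := by decide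

/-- First case of Fermat's Last Theorem for exponent 5. -/
theorem caseI_five {a b c : ℤ} (hab : IsCoprime a b) (h : a ^ 5 + b ^ 5 = c ^ 5) :
    (5 : ℤ) ∣ a * b * c := by
  have := sophie_germain (p := 5) (q := 11) (by norm_num) (by decide) (by norm_num)
    aux1_five aux2_five hab h
  exact_mod_cast this

theorem pow_mem_seven : ∀ u : ZMod 29, u ^ 7 = 0 ∨ u ^ 7 = 1 ∨ u ^ 7 = 12 ∨ u ^ 7 = 17 ∨ u ^ 7 = 28 := by decide

theorem aux1_seven : ∀ u v w : ZMod 29, u ^ 7 + v ^ 7 + w ^ 7 = 0 → u = 0 ∨ v = 0 ∨ w = 0 := by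
  intro u v w h
  by_contra hcon
  simp only [not_or] at hcon
  obtain ⟨hu0, hv0, hw0⟩ := hcon
  have hz : ∀ t : ZMod 29, t ≠ 0 → t ^ 7 ≠ 0 := by decide
  rcases pow_mem_seven u with hu | hu | hu | hu | hu <;> rcases pow_mem_seven v with hv | hv | hv | hv | hv <;>
    rcases pow_mem_seven w with hw | hw | hw | hw | hw <;>
    first
      | exact hz u hu0 hu
      | exact hz v hv0 hv
      | exact hz w hw0 hw
      | (rw [hu, hv, hw] at h; revert h; decide)

theorem aux2_seven : ∀ u : ZMod 29, u ^ 7 ≠ ((7 : ℕ) : ZMod 29) := by decide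

/-- First case of Fermat's Last Theorem for exponent 7. -/
theorem caseI_seven {a b c : ℤ} (hab : IsCoprime a b) (h : a ^ 7 + b ^ 7 = c ^ 7) :
    (7 : ℤ) ∣ a * b * c := by
  have := sophie_germain (p := 7) (q := 29) (by norm_num) (by decide) (by norm_num)
    aux1_seven aux2_seven hab h
  exact_mod_cast this

theorem pow_mem_eleven : ∀ u : ZMod 23, u ^ 11 = 0 ∨ u ^ 11 = 1 ∨ u ^ 11 = 22 := by decide

theorem aux1_eleven : ∀ u v w : ZMod 23, u ^ 11 + v ^ 11 + w ^ 11 = 0 → u = 0 ∨ v = 0 ∨ w = 0 := by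
  intro u v w h
  by_contra hcon
  simp only [not_or] at hcon
  obtain ⟨hu0, hv0, hw0⟩ := hcon
  have hz : ∀ t : ZMod 23, t ≠ 0 → t ^ 11 ≠ 0 := by decide
  rcases pow_mem_eleven u with hu | hu | hu <;> rcases pow_mem_eleven v with hv | hv | hv <;>
    rcases pow_mem_eleven w with hw | hw | hw <;>
    first
      | exact hz u hu0 hu
      | exact hz v hv0 hv
      | exact hz w hw0 hw
      | (rw [hu, hv, hw] at h; revert h; decide)

theorem aux2_eleven : ∀ u : ZMod 23, u ^ 11 ≠ ((11 : ℕ) : ZMod 23) := by decide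

/-- First case of Fermat's Last Theorem for exponent 11. -/
theorem caseI_eleven {a b c : ℤ} (hab : IsCoprime a b) (h : a ^ 11 + b ^ 11 = c ^ 11) :
    (11 : ℤ) ∣ a * b * c := by
  have := sophie_germain (p := 11) (q := 23) (by norm_num) (by decide) (by norm_num)
    aux1_eleven aux2_eleven hab h
  exact_mod_cast this

theorem pow_mem_thirteen : ∀ u : ZMod 53, u ^ 13 = 0 ∨ u ^ 13 = 1 ∨ u ^ 13 = 23 ∨ u ^ 13 = 30 ∨ u ^ 13 = 52 := by decide

theorem aux1_thirteen : ∀ u v w : ZMod 53, u ^ 13 + v ^ 13 + w ^ 13 = 0 → u = 0 ∨ v = 0 ∨ w = 0 := by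
  intro u v w h
  by_contra hcon
  simp only [not_or] at hcon
  obtain ⟨hu0, hv0, hw0⟩ := hcon
  have hz : ∀ t : ZMod 53, t ≠ 0 → t ^ 13 ≠ 0 := by decide
  rcases pow_mem_thirteen u with hu | hu | hu | hu | hu <;> rcases pow_mem_thirteen v with hv | hv | hv | hv | hv <;>
    rcases pow_mem_thirteen w with hw | hw | hw | hw | hw <;>
    first
      | exact hz u hu0 hu
      | exact hz v hv0 hv
      | exact hz w hw0 hw
      | (rw [hu, hv, hw] at h; revert h; decide)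

theorem aux2_thirteen : ∀ u : ZMod 53, u ^ 13 ≠ ((13 : ℕ) : ZMod 53) := by decide

/-- First case of Fermat's Last Theorem for exponent 13. -/
theorem caseI_thirteen {a b c : ℤ} (hab : IsCoprime a b) (h : a ^ 13 + b ^ 13 = c ^ 13) :
    (13 : ℤ) ∣ a * b * c := by
  have := sophie_germain (p := 13) (q := 53) (by norm_num) (by decide) (by norm_num)
    aux1_thirteen aux2_thirteen hab h
  exact_mod_cast this

end Fermat.Agent.S11
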