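import Mathlib

/-!
# Case II of Fermat's Last Theorem for a prime `p` such that `ℤ[ζ_p]` is a PID

Kummer's lemma is taken as a hypothesis.  The descent is carried out in an abstract
"cyclotomic-like" principal ideal domain `R` (see `CaseII.Data`), and then specialised to
`𝓞 K` for `K` a `p`-th cyclotomic extension of `ℚ`.
-/

set_option linter.unusedSectionVars false
set_option linter.style.haveILetI false

namespace Fermat.Agent.S11

open Polynomial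

namespace CaseII

/-- A "cyclotomic-like" ring: `ζ` is a primitive `p`-th root of unity, `ζ - 1` is a prime element
with residue ring of `p` elements, and `p` is associated to `(ζ - 1) ^ (p - 1)`. -/
structure Data (R : Type*) [CommRing R] (p : ℕ) (ζ : R) : Prop where
  prim : IsPrimitiveRoot ζ p
  prime_p : p.Prime
  odd : p ≠ 2
  prime_pi : Prime (ζ - 1)
  card : Nat.card (R ⧸ Ideal.span {ζ - 1}) = p
  assoc : Associated ((ζ - 1) ^ (p - 1)) (p : R)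

variable {R : Type*} [CommRing R] [IsDomain R] {p : ℕ} {ζ : R}

namespace Data

variable (D : Data R p ζ)
include D

lemma pos : 0 < p := D.prime_p.pos

lemma two_le : 2 ≤ p := D.prime_p.two_le

lemma three_le : 3 ≤ p := by
  have := D.two_le
  have := D.odd
  omega

lemma odd' : Odd p := D.prime_p.odd_of_ne_two D.odd

lemma pi_ne_zero : ζ - 1 ≠ 0 := D.prime_pi.ne_zero

lemma one_mem : (1 : R) ∈ nthRootsFinset p (1 : R) := by
  rw [mem_nthRootsFinset D.pos]; exact one_pow _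

lemma zeta_mem : ζ ∈ nthRootsFinset p (1 : R) := by
  rw [mem_nthRootsFinset D.pos]; exact D.prim.pow_eq_one

lemma zeta_pow_mem (i : ℕ) : ζ ^ i ∈ nthRootsFinset p (1 : R) := by
  rw [mem_nthRootsFinset D.pos, ← pow_mul, mul_comm, pow_mul, D.prim.pow_eq_one, one_pow]

lemma assoc_sub {η₁ η₂ : R} (h₁ : η₁ ∈ nthRootsFinset p (1 : R))
    (h₂ : η₂ ∈ nthRootsFinset p (1 : R)) (hne : η₁ ≠ η₂) : Associated (ζ - 1) (η₁ - η₂) :=
  D.prim.nthRootsFinset_pairwise_associated_sub_one_sub_of_prime D.prime_p h₁ h₂ hne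

lemma dvd_sub {η₁ η₂ : R} (h₁ : η₁ ∈ nthRootsFinset p (1 : R))
    (h₂ : η₂ ∈ nthRootsFinset p (1 : R)) : ζ - 1 ∣ η₁ - η₂ :=
  D.prim.sub_one_dvd_sub D.prime_p h₁ h₂

lemma p_dvd_pi_pow : (p : R) ∣ (ζ - 1) ^ (p - 1) := D.assoc.symm.dvd

lemma pi_dvd_p : ζ - 1 ∣ (p : R) :=
  (dvd_pow_self _ (by have := D.two_le; omega)).trans D.assoc.dvd

lemma p_dvd_pi_pow_of_le {k : ℕ} (hk : p - 1 ≤ k) : (p : R) ∣ (ζ - 1) ^ k :=
  D.p_dvd_pi_pow.trans (pow_dvd_pow _ hk)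

/-- `1 + ζ` is a unit. -/
lemma isUnit_one_add : IsUnit (1 + ζ) := by
  have h := D.prim.geom_sum_isUnit D.two_le
    (j := 2) ((Nat.coprime_primes Nat.prime_two D.prime_p).2 (Ne.symm D.odd))
  simpa [Finset.sum_range_succ] using h

/-- an integer divisible by `ζ - 1` is divisible by `p`. -/
lemma int_dvd_of_pi_dvd {n : ℤ} (h : ζ - 1 ∣ (n : R)) : (p : ℤ) ∣ n := by
  by_contra hn
  have hcop : IsCoprime (p : ℤ) n :=
    (Nat.prime_iff_prime_int.1 D.prime_p).coprime_iff_not_dvd.2 hn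
  obtain ⟨a, b, hab⟩ := hcop
  have h1 : ζ - 1 ∣ ((a * p + b * n : ℤ) : R) := by
    push_cast
    exact dvd_add (Dvd.dvd.mul_left D.pi_dvd_p _) (Dvd.dvd.mul_left h _)
  rw [hab] at h1
  exact D.prime_pi.not_isUnit (isUnit_of_dvd_one (by simpa using h1))

lemma pi_dvd_int_iff {n : ℤ} : ζ - 1 ∣ (n : R) ↔ (p : ℤ) ∣ n := by
  refine ⟨D.int_dvd_of_pi_dvd, fun ⟨k, hk⟩ => ?_⟩
  rw [hk]
  push_cast
  exact Dvd.dvd.mul_right D.pi_dvd_p _

/-- every element of `R` is congruent to an integer modulo `ζ - 1`. -/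
lemma exists_int_pi_dvd_sub (x : R) : ∃ n : ℤ, ζ - 1 ∣ x - n := by
  classical
  haveI : Finite (R ⧸ Ideal.span {ζ - 1}) :=
    Nat.finite_of_card_ne_zero (by rw [D.card]; exact D.pos.ne')
  let f : Fin p → R ⧸ Ideal.span {ζ - 1} := fun i => Ideal.Quotient.mk _ ((i : ℕ) : R)
  have hf : Function.Injective f := by
    intro i j hij
    simp only [f] at hij
    rw [Ideal.Quotient.eq, Ideal.mem_span_singleton] at hij
    have h2 : ζ - 1 ∣ (((i : ℕ) - (j : ℕ) : ℤ) : R) := by push_cast; exact hij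
    have h3 := D.int_dvd_of_pi_dvd h2
    have hi := i.2
    have hj := j.2
    have : ((i : ℕ) : ℤ) - (j : ℕ) = 0 := by
      apply Int.eq_zero_of_abs_lt_dvd h3
      rw [abs_lt]; constructor <;> omega
    exact Fin.ext (by omega)
  have hbij := hf.bijective_of_nat_card_le (by rw [D.card]; simp)
  obtain ⟨i, hi⟩ := hbij.2 (Ideal.Quotient.mk _ x)
  refine ⟨((i : ℕ) : ℤ), ?_⟩
  simp only [f] at hi
  rw [Ideal.Quotient.eq, Ideal.mem_span_singleton] at hi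
  have := (dvd_neg (a := ζ - 1)).2 hi
  simpa using this

/-- every `p`-th power is congruent to an integer modulo `p`. -/
lemma exists_int_p_dvd_pow_sub (x : R) : ∃ n : ℤ, (p : R) ∣ x ^ p - n := by
  obtain ⟨n, t, ht⟩ := D.exists_int_pi_dvd_sub x
  obtain ⟨r, hr⟩ := exists_add_pow_prime_eq D.prime_p (n : R) ((ζ - 1) * t)
  refine ⟨n ^ p, ?_⟩
  have hx : x = n + (ζ - 1) * t := by rw [← ht]; ring
  obtain ⟨s, hs⟩ := D.p_dvd_pi_pow_of_le (k := p) (by omega)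
  refine ⟨s * t ^ p + n * ((ζ - 1) * t) * r, ?_⟩
  rw [hx, hr, mul_pow, hs]
  push_cast
  ring

end Data

/-- Solutions of the generalised Fermat equation `x ^ p + y ^ p = ε * ((ζ - 1) ^ m * z) ^ p`. -/
def Sol (R : Type*) [CommRing R] (p : ℕ) (ζ : R) (m : ℕ) : Prop :=
  ∃ (x y z : R) (ε : Rˣ), IsCoprime x y ∧ ¬ ζ - 1 ∣ y ∧ ¬ ζ - 1 ∣ z ∧
    x ^ p + y ^ p = ε * ((ζ - 1) ^ m * z) ^ p

/-- if `ζ - 1` divides all `x + η y` and not `y`, then `(ζ - 1) ^ 2` divides one of them. -/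
lemma exists_sq_dvd (D : Data R p ζ) {x y : R} (hy : ¬ ζ - 1 ∣ y)
    (h : ∀ η ∈ nthRootsFinset p (1 : R), ζ - 1 ∣ x + η * y) :
    ∃ η ∈ nthRootsFinset p (1 : R), (ζ - 1) ^ 2 ∣ x + η * y := by
  classical
  haveI : Finite (R ⧸ Ideal.span {ζ - 1}) :=
    Nat.finite_of_card_ne_zero (by rw [D.card]; exact D.pos.ne')
  choose! c hc using h
  let f : ↥(nthRootsFinset p (1 : R)) → R ⧸ Ideal.span {ζ - 1} :=
    fun η => Ideal.Quotient.mk _ (c η)
  have hf : Function.Injective f := by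
    rintro ⟨η, hη⟩ ⟨η', hη'⟩ hff
    by_contra hne
    have hne' : η ≠ η' := fun h => hne (Subtype.ext h)
    simp only [f] at hff
    rw [Ideal.Quotient.eq, Ideal.mem_span_singleton] at hff
    obtain ⟨t, ht⟩ := hff
    obtain ⟨u, hu⟩ := D.assoc_sub hη hη' hne'
    apply hy
    have h1 : (ζ - 1) * (c η - c η') = (ζ - 1) * (u * y) := by
      rw [mul_sub, ← hc η hη, ← hc η' hη', ← mul_assoc, hu]; ring
    have h2 := mul_left_cancel₀ D.pi_ne_zero h1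
    rw [ht] at h2
    refine ⟨↑u⁻¹ * t, ?_⟩
    have h3 : (↑u⁻¹ : R) * u = 1 := by simp
    calc y = (↑u⁻¹ * u) * y := by rw [h3, one_mul]
      _ = ↑u⁻¹ * (↑u * y) := by ring
      _ = (ζ - 1) * (↑u⁻¹ * t) := by rw [← h2]; ring
  have hcard : Nat.card (R ⧸ Ideal.span {ζ - 1}) ≤ Nat.card ↥(nthRootsFinset p (1 : R)) := by
    rw [D.card, Nat.card_eq_fintype_card, Fintype.card_coe, D.prim.card_nthRootsFinset]
  obtain ⟨⟨η, hη⟩, hη0⟩ := (hf.bijective_of_nat_card_le hcard).2 0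
  refine ⟨η, hη, ?_⟩
  simp only [f] at hη0
  rw [Ideal.Quotient.eq_zero_iff_mem, Ideal.mem_span_singleton] at hη0
  obtain ⟨t, ht⟩ := hη0
  exact ⟨t, by rw [hc η hη, ht]; ring⟩

/-- the quotients `(x + η y) / (ζ - 1)` are pairwise coprime. -/
lemma isCoprime_quot (D : Data R p ζ) {x y a b η η' : R} (hxy : IsCoprime x y)
    (hη : η ∈ nthRootsFinset p (1 : R)) (hη' : η' ∈ nthRootsFinset p (1 : R)) (hne : η ≠ η')
    (ha : x + η * y = (ζ - 1) * a) (hb : x + η' * y = (ζ - 1) * b) : IsCoprime a b := by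
  obtain ⟨u, hu⟩ := D.assoc_sub hη hη' hne
  obtain ⟨r, s, hrs⟩ := hxy
  have h1 : a - b = u * y := by
    apply mul_left_cancel₀ D.pi_ne_zero
    rw [mul_sub, ← ha, ← hb, ← mul_assoc, hu]; ring
  have h2 : η' * a - η * b = -(u * x) := by
    apply mul_left_cancel₀ D.pi_ne_zero
    calc (ζ - 1) * (η' * a - η * b) = η' * ((ζ - 1) * a) - η * ((ζ - 1) * b) := by ring
      _ = η' * (x + η * y) - η * (x + η' * y) := by rw [ha, hb]
      _ = -((η - η') * x) := by ring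
      _ = (ζ - 1) * -(u * x) := by rw [← hu]; ring
  refine ⟨↑u⁻¹ * (s - r * η'), ↑u⁻¹ * (r * η - s), ?_⟩
  have h3 : (↑u⁻¹ : R) * u = 1 := by simp
  calc _ = ↑u⁻¹ * (s * (a - b) - r * (η' * a - η * b)) := by ring
    _ = ↑u⁻¹ * (s * (u * y) + r * (u * x)) := by rw [h1, h2]; ring
    _ = (↑u⁻¹ * u) * (r * x + s * y) := by ring
    _ = 1 := by rw [h3, hrs, mul_one]

/-- The descent step. -/
theorem descent (D : Data R p ζ) [IsPrincipalIdealRing R]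
    (kummer : ∀ u : Rˣ, (∃ n : ℤ, (p : R) ∣ (u : R) - n) → ∃ v : Rˣ, u = v ^ p)
    {m : ℕ} (hm : 1 ≤ m) (hsol : Sol R p ζ m) : 2 ≤ m ∧ Sol R p ζ (m - 1) := by
  classical
  obtain ⟨x, y₀, z, ε, hxy₀, hy₀, hz, heq⟩ := hsol
  have hprod : ∀ y : R, x ^ p + y ^ p = ∏ η ∈ nthRootsFinset p (1 : R), (x + η * y) :=
    fun y => D.prim.pow_add_pow_eq_prod_add_mul x y D.odd'
  -- `ζ - 1` divides some factor, hence all of them
  have h1 : ζ - 1 ∣ ∏ η ∈ nthRootsFinset p (1 : R), (x + η * y₀) := by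
    rw [← hprod, heq, mul_pow, ← pow_mul]
    exact Dvd.dvd.mul_left (Dvd.dvd.mul_right (dvd_pow_self _
      (Nat.mul_ne_zero (by omega) D.pos.ne')) _) _
  obtain ⟨η₀, hη₀, hη₀d⟩ := (D.prime_pi.dvd_finsetProd_iff _).1 h1
  have hall : ∀ η ∈ nthRootsFinset p (1 : R), ζ - 1 ∣ x + η * y₀ := fun η hη => by
    have : x + η * y₀ = (x + η₀ * y₀) + (η - η₀) * y₀ := by ring
    rw [this]; exact dvd_add hη₀d (Dvd.dvd.mul_right (D.dvd_sub hη hη₀) _)
  obtain ⟨η₁, hη₁, hsq⟩ := exists_sq_dvd D hy₀ hall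
  -- replace `y₀` by `y := η₁ * y₀`
  have hη₁p : η₁ ^ p = 1 := (mem_nthRootsFinset D.pos 1).1 hη₁
  have hη₁u : IsUnit η₁ := IsUnit.of_pow_eq_one hη₁p D.pos.ne'
  obtain ⟨y, hy_def⟩ : ∃ y, y = η₁ * y₀ := ⟨_, rfl⟩
  have hxy : IsCoprime x y := by
    rw [hy_def]; exact (isCoprime_mul_unit_left_right hη₁u x y₀).2 hxy₀
  have hy : ¬ ζ - 1 ∣ y := fun hd => hy₀ (by rw [hy_def] at hd; exact (hη₁u.dvd_mul_left).1 hd)
  have heq' : x ^ p + y ^ p = ε * ((ζ - 1) ^ m * z) ^ p := by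
    rw [hy_def, mul_pow, hη₁p, one_mul, heq]
  have hsq' : (ζ - 1) ^ 2 ∣ x + y := by rw [hy_def]; exact hsq
  have hall' : ∀ η ∈ nthRootsFinset p (1 : R), ζ - 1 ∣ x + η * y := by
    intro η hη
    have : x + η * y = (x + y) + (η - 1) * y := by ring
    rw [this]
    exact dvd_add ((dvd_pow_self _ two_ne_zero).trans hsq')
      (Dvd.dvd.mul_right (D.dvd_sub hη D.one_mem) _)
  choose! g hg using hall'
  have hcop : ∀ η ∈ nthRootsFinset p (1 : R), ∀ η' ∈ nthRootsFinset p (1 : R), η ≠ η' →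
      IsCoprime (g η) (g η') := fun η hη η' hη' hne =>
    isCoprime_quot D hxy hη hη' hne (hg η hη) (hg η' hη')
  -- the product of the `g η`
  have hprodg : ∏ η ∈ nthRootsFinset p (1 : R), g η = ε * ((ζ - 1) ^ (m - 1) * z) ^ p := by
    apply mul_left_cancel₀ (pow_ne_zero p D.pi_ne_zero)
    calc (ζ - 1) ^ p * ∏ η ∈ nthRootsFinset p (1 : R), g η
        = ∏ η ∈ nthRootsFinset p (1 : R), ((ζ - 1) * g η) := by
          rw [Finset.prod_mul_distrib, Finset.prod_const, D.prim.card_nthRootsFinset]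
      _ = ∏ η ∈ nthRootsFinset p (1 : R), (x + η * y) :=
          Finset.prod_congr rfl (fun η hη => (hg η hη).symm)
      _ = ε * ((ζ - 1) ^ m * z) ^ p := by rw [← hprod, heq']
      _ = (ζ - 1) ^ p * (ε * ((ζ - 1) ^ (m - 1) * z) ^ p) := by
          obtain ⟨k, rfl⟩ : ∃ k, m = k + 1 := ⟨m - 1, by omega⟩
          simp only [Nat.add_sub_cancel]
          generalize ζ - 1 = π
          ring
  have hπg1 : ζ - 1 ∣ g 1 := by
    obtain ⟨t, ht⟩ := hsq'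
    have h1 := hg 1 D.one_mem
    rw [one_mul, ht, pow_two, mul_assoc] at h1
    exact ⟨t, (mul_left_cancel₀ D.pi_ne_zero h1).symm⟩
  obtain ⟨G, hG⟩ : ∃ G, G = ∏ η ∈ (nthRootsFinset p (1 : R)).erase 1, g η := ⟨_, rfl⟩
  have hgG : g 1 * G = ε * ((ζ - 1) ^ (m - 1) * z) ^ p := by
    rw [hG, Finset.mul_prod_erase _ g D.one_mem, hprodg]
  have hcopG : IsCoprime (g 1) G := by
    rw [hG]
    exact IsCoprime.prod_right (fun η hη => hcop 1 D.one_mem η (Finset.mem_of_mem_erase hη)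
      (Finset.ne_of_mem_erase hη).symm)
  have hπG : ¬ ζ - 1 ∣ G := fun hd => D.prime_pi.not_isUnit (hcopG.isUnit_of_dvd' hπg1 hd)
  have hm2 : 2 ≤ m := by
    by_contra hlt
    have hm1 : m = 1 := by omega
    subst hm1
    have h2 : ζ - 1 ∣ ε * ((ζ - 1) ^ 0 * z) ^ p := by
      rw [← hgG]; exact Dvd.dvd.mul_right hπg1 _
    rw [pow_zero, one_mul] at h2
    exact hz (D.prime_pi.dvd_of_dvd_pow ((ε.isUnit.dvd_mul_left).1 h2))
  refine ⟨hm2, ?_⟩
  have hpowdvd : ((ζ - 1) ^ (m - 1)) ^ p ∣ g 1 := by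
    have hc : IsCoprime (((ζ - 1) ^ (m - 1)) ^ p) G :=
      IsCoprime.pow_left (IsCoprime.pow_left (D.prime_pi.coprime_iff_not_dvd.2 hπG))
    apply hc.dvd_of_dvd_mul_right
    rw [hgG, mul_pow]
    exact Dvd.dvd.mul_left (Dvd.dvd.mul_right dvd_rfl _) _
  obtain ⟨h, hh⟩ := hpowdvd
  have hhG : h * G = ε * z ^ p := by
    apply mul_left_cancel₀ (pow_ne_zero p (pow_ne_zero (m - 1) D.pi_ne_zero))
    rw [← mul_assoc, ← hh, hgG, mul_pow]; ring
  have hcophG : IsCoprime h G := by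
    rw [hh] at hcopG
    exact hcopG.of_mul_left_right
  -- the roots `ζ` and `ζ' = ζ⁻¹`
  obtain ⟨ζ', hζ'⟩ : ∃ ζ', ζ' = ζ ^ (p - 1) := ⟨_, rfl⟩
  have hζ'mem : ζ' ∈ nthRootsFinset p (1 : R) := by rw [hζ']; exact D.zeta_pow_mem _
  have hζζ' : ζ * ζ' = 1 := by
    rw [hζ', ← pow_succ', Nat.sub_add_cancel D.pos, D.prim.pow_eq_one]
  have hζ1 : ζ ≠ 1 := D.prim.ne_one (by have := D.two_le; omega)
  have hζ'1 : ζ' ≠ 1 := by
    intro h; apply hζ1; rw [h, mul_one] at hζζ'; exact hζζ'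
  have hζζ'ne : ζ ≠ ζ' := by
    intro h
    rw [← h] at hζζ'
    have h2 := D.prim.dvd_of_pow_eq_one 2 (by rw [pow_two]; exact hζζ')
    have h3 := Nat.le_of_dvd two_pos h2
    have := D.three_le; omega
  -- each `g η` is associated to a `p`-th power
  have key : ∀ η ∈ nthRootsFinset p (1 : R), ∃ d, Associated (d ^ p) (g η) := by
    intro η hη
    refine exists_associated_pow_of_associated_pow_mul (c := (ζ - 1) ^ (m - 1) * z)
      (b := ∏ η' ∈ (nthRootsFinset p (1 : R)).erase η, g η') ?_ ?_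
    · exact IsCoprime.prod_right (fun η' hη' => hcop η hη η' (Finset.mem_of_mem_erase hη')
        (Finset.ne_of_mem_erase hη').symm)
    · rw [Finset.mul_prod_erase _ g hη, hprodg]
      exact ⟨ε, by rw [mul_comm]⟩
  obtain ⟨X, u₁, hX⟩ := key ζ D.zeta_mem
  obtain ⟨Y, u₂, hY⟩ := key ζ' hζ'mem
  obtain ⟨Z, u₃, hZ⟩ : ∃ d, Associated (d ^ p) h :=
    exists_associated_pow_of_associated_pow_mul hcophG (c := z)
      (by rw [hhG]; exact ⟨ε, by rw [mul_comm]⟩)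
  have hrel : ζ * g ζ' + g ζ = (1 + ζ) * (((ζ - 1) ^ (m - 1)) ^ p * h) := by
    apply mul_left_cancel₀ D.pi_ne_zero
    calc (ζ - 1) * (ζ * g ζ' + g ζ) = ζ * ((ζ - 1) * g ζ') + (ζ - 1) * g ζ := by ring
      _ = ζ * (x + ζ' * y) + (x + ζ * y) := by rw [hg ζ' hζ'mem, hg ζ D.zeta_mem]
      _ = (1 + ζ) * (x + 1 * y) + (ζ * ζ' - 1) * y := by ring
      _ = (1 + ζ) * ((ζ - 1) * g 1) := by
          rw [hζζ', sub_self, zero_mul, add_zero, hg 1 D.one_mem]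
      _ = (ζ - 1) * ((1 + ζ) * (((ζ - 1) ^ (m - 1)) ^ p * h)) := by rw [hh]; ring
  -- the new equation
  have hζu : IsUnit ζ := D.prim.isUnit D.pos.ne'
  obtain ⟨ηu, hηu⟩ : ∃ ηu : Rˣ, ηu = hζu.unit * u₂ * u₁⁻¹ := ⟨_, rfl⟩
  obtain ⟨εu, hεu⟩ : ∃ εu : Rˣ, εu = D.isUnit_one_add.unit * u₃ * u₁⁻¹ := ⟨_, rfl⟩
  have e1 : (u₁ : R) * ↑u₁⁻¹ = 1 := Units.mul_inv u₁
  have hnew : X ^ p + ηu * Y ^ p = εu * ((ζ - 1) ^ (m - 1) * Z) ^ p := by
    rw [hηu, hεu]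
    simp only [Units.val_mul, IsUnit.unit_spec]
    rw [← hX, ← hY, ← hZ] at hrel
    generalize ζ - 1 = π at hrel ⊢
    linear_combination (-X ^ p) * e1 + (↑u₁⁻¹ : R) * hrel
  -- `p` divides `X ^ p + ηu * Y ^ p`
  have hpdvd : (p : R) ∣ X ^ p + ηu * Y ^ p := by
    rw [hnew, mul_pow, ← pow_mul]
    refine Dvd.dvd.mul_left (Dvd.dvd.mul_right (D.p_dvd_pi_pow_of_le ?_) _) _
    calc p - 1 ≤ p := Nat.sub_le _ _
      _ ≤ (m - 1) * p := Nat.le_mul_of_pos_left p (by omega)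
  -- `Y` is prime to `ζ - 1`, hence to `p`
  have hπY : ¬ ζ - 1 ∣ Y := by
    intro hd
    have h2 : ζ - 1 ∣ g ζ' := by
      rw [← hY]; exact Dvd.dvd.mul_right (dvd_pow hd D.pos.ne') _
    exact D.prime_pi.not_isUnit
      ((hcop 1 D.one_mem ζ' hζ'mem (Ne.symm hζ'1)).isUnit_of_dvd' hπg1 h2)
  have hcoppY : IsCoprime (p : R) Y :=
    IsCoprime.of_isCoprime_of_dvd_left
      (IsCoprime.pow_left (D.prime_pi.coprime_iff_not_dvd.2 hπY)) D.p_dvd_pi_pow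
  obtain ⟨a, b, hab⟩ := hcoppY
  obtain ⟨n, hn⟩ := D.exists_int_p_dvd_pow_sub (X * b)
  have hcong : (p : R) ∣ (ηu : R) - ((-n : ℤ) : R) := by
    have h2 : (p : R) ∣ 1 ^ p - (Y * b) ^ p := by
      refine Dvd.dvd.trans ⟨a, ?_⟩ (sub_dvd_pow_sub_pow (1 : R) (Y * b) p)
      rw [← hab]; ring
    rw [one_pow] at h2
    have h3 : (ηu : R) - ((-n : ℤ) : R)
        = ηu * (1 - (Y * b) ^ p) + b ^ p * (X ^ p + ηu * Y ^ p) - ((X * b) ^ p - n) := by
      push_cast; ring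
    rw [h3]
    exact dvd_sub (dvd_add (Dvd.dvd.mul_left h2 _) (Dvd.dvd.mul_left hpdvd _)) hn
  obtain ⟨v, hv⟩ := kummer ηu ⟨-n, hcong⟩
  -- the new solution
  have hπZ : ¬ ζ - 1 ∣ Z := by
    intro hd
    have h2 : ζ - 1 ∣ ε * z ^ p := by
      rw [← hhG, ← hZ]
      exact Dvd.dvd.mul_right (Dvd.dvd.mul_right (dvd_pow hd D.pos.ne') _) _
    exact hz (D.prime_pi.dvd_of_dvd_pow ((ε.isUnit.dvd_mul_left).1 h2))
  have hXY : IsCoprime X Y := by
    have h2 : IsCoprime (X ^ p) (Y ^ p) :=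
      IsCoprime.of_isCoprime_of_dvd_left (IsCoprime.of_isCoprime_of_dvd_right
        (hcop ζ D.zeta_mem ζ' hζ'mem hζζ'ne) ⟨u₂, hY.symm⟩) ⟨u₁, hX.symm⟩
    exact (IsCoprime.pow_iff D.pos D.pos).1 h2
  refine ⟨X, v * Y, Z, εu, (isCoprime_mul_unit_left_right v.isUnit X Y).2 hXY,
    fun hd => hπY ((v.isUnit.dvd_mul_left).1 hd), hπZ, ?_⟩
  rw [mul_pow, ← hnew, hv, Units.val_pow_eq_pow_val]

/-- The generalised Fermat equation has no solution with `m ≥ 1`. -/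
theorem not_sol (D : Data R p ζ) [IsPrincipalIdealRing R]
    (kummer : ∀ u : Rˣ, (∃ n : ℤ, (p : R) ∣ (u : R) - n) → ∃ v : Rˣ, u = v ^ p) :
    ∀ m : ℕ, 1 ≤ m → ¬ Sol R p ζ m := by
  intro m
  induction m with
  | zero => intro h; omega
  | succ k ih =>
    intro _ hs
    obtain ⟨h2, hs'⟩ := descent D kummer (by omega) hs
    exact ih (by omega) (by simpa using hs')

end CaseII

section Cyclotomic

open NumberField

variable {p : ℕ} [hp : Fact p.Prime] {K : Type*} [Field K] [NumberField K]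
  [IsCyclotomicExtension {p} ℚ K]

/-- The ring of integers of the `p`-th cyclotomic field is "cyclotomic-like". -/
theorem CaseII.data_of_isCyclotomicExtension (hodd : p ≠ 2) {ζ : K} (hζ : IsPrimitiveRoot ζ p) :
    CaseII.Data (𝓞 K) p hζ.toInteger where
  prim := hζ.toInteger_isPrimitiveRoot
  prime_p := hp.out
  odd := hodd
  prime_pi := hζ.zeta_sub_one_prime'
  card := by
    rw [hζ.card_quotient_toInteger_sub_one, hζ.norm_toInteger_sub_one_of_prime_ne_two' hodd]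
    simp
  assoc := IsCyclotomicExtension.Rat.associated_zeta_sub_one_pow_prime p hζ

/-- **Case II** of Fermat's Last Theorem when `p ∣ c`, for `p` such that `ℤ[ζ_p]` is a PID,
assuming Kummer's lemma. -/
theorem CaseII.fermat_of_dvd_c (hodd : p ≠ 2) [IsPrincipalIdealRing (𝓞 K)]
    (kummer : ∀ u : (𝓞 K)ˣ, (∃ n : ℤ, (p : 𝓞 K) ∣ (u : 𝓞 K) - n) → ∃ v : (𝓞 K)ˣ, u = v ^ p)
    {a b c : ℤ} (hab : IsCoprime a b) (hc : c ≠ 0) (hpc : (p : ℤ) ∣ c) :
    a ^ p + b ^ p ≠ c ^ p := by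
  intro heq
  have hζ := IsCyclotomicExtension.zeta_spec p ℚ K
  have D := CaseII.data_of_isCyclotomicExtension hodd hζ
  have hpp : Prime (p : ℤ) := Nat.prime_iff_prime_int.1 hp.out
  obtain ⟨k, c₀, hc₀, hck⟩ := WfDvdMonoid.max_power_factor hc hpp.irreducible
  have hk : 1 ≤ k := by
    rcases Nat.eq_zero_or_pos k with h0 | h0
    · exfalso; rw [h0, pow_zero, one_mul] at hck; exact hc₀ (hck ▸ hpc)
    · exact h0
  obtain ⟨u, hu⟩ := D.assoc
  have hpb : ¬ (p : ℤ) ∣ b := by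
    intro hb
    have h1 : (p : ℤ) ∣ a ^ p := by
      have : a ^ p = c ^ p - b ^ p := by rw [← heq]; ring
      rw [this]
      exact dvd_sub (dvd_pow hpc D.pos.ne') (dvd_pow hb D.pos.ne')
    have h2 := hpp.dvd_of_dvd_pow h1
    exact hpp.not_isUnit (hab.isUnit_of_dvd' h2 hb)
  refine CaseII.not_sol D kummer ((p - 1) * k) (Nat.mul_pos (by have := D.two_le; omega) hk)
    ⟨(a : 𝓞 K), (b : 𝓞 K), (c₀ : 𝓞 K), (u ^ k) ^ p, hab.intCast,
      fun h => hpb (D.pi_dvd_int_iff.1 h), fun h => hc₀ (D.pi_dvd_int_iff.1 h), ?_⟩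
  have h1 : ((a ^ p + b ^ p : ℤ) : 𝓞 K) = ((c ^ p : ℤ) : 𝓞 K) := by rw [heq]
  rw [hck] at h1
  push_cast at h1
  rw [h1, ← hu]
  push_cast
  generalize hζ.toInteger - 1 = π
  rw [pow_mul]
  ring

/-- **Case II** of Fermat's Last Theorem for `p` such that `ℤ[ζ_p]` is a PID,
assuming Kummer's lemma. -/
theorem CaseII.fermat (hodd : p ≠ 2) [IsPrincipalIdealRing (𝓞 K)]
    (kummer : ∀ u : (𝓞 K)ˣ, (∃ n : ℤ, (p : 𝓞 K) ∣ (u : 𝓞 K) - n) → ∃ v : (𝓞 K)ˣ, u = v ^ p)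
    {a b c : ℤ} (hab : IsCoprime a b) (habc : a * b * c ≠ 0) (hdvd : (p : ℤ) ∣ a * b * c) :
    a ^ p + b ^ p ≠ c ^ p := by
  intro heq
  have hpp : Prime (p : ℤ) := Nat.prime_iff_prime_int.1 hp.out
  have hodd' : Odd p := hp.out.odd_of_ne_two hodd
  have ha : a ≠ 0 := fun h => habc (by simp [h])
  have hb : b ≠ 0 := fun h => habc (by simp [h])
  have hc : c ≠ 0 := fun h => habc (by simp [h])
  have hp0 : p ≠ 0 := hp.out.ne_zero
  -- coprimality of the other pairs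
  have hcb : IsCoprime c b := by
    have h1 : IsCoprime (a ^ p + b * b ^ (p - 1)) b :=
      (IsCoprime.pow_left hab).add_mul_left_left _
    rw [← pow_succ', Nat.sub_add_cancel hp.out.pos, heq] at h1
    exact (IsCoprime.pow_left_iff hp.out.pos).1 h1
  have hac : IsCoprime a c := by
    have h1 : IsCoprime a (b ^ p + a * a ^ (p - 1)) :=
      (IsCoprime.pow_right hab).add_mul_left_right _
    rw [← pow_succ', Nat.sub_add_cancel hp.out.pos, add_comm, heq] at h1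
    exact (IsCoprime.pow_right_iff hp.out.pos).1 h1
  rcases hpp.dvd_or_dvd hdvd with h | h
  · rcases hpp.dvd_or_dvd h with h | h
    · -- `p ∣ a`: `(-c) ^ p + b ^ p = (-a) ^ p`
      refine CaseII.fermat_of_dvd_c hodd kummer (a := -c) (b := b) (c := -a) hcb.neg_left
        (neg_ne_zero.2 ha) ((dvd_neg).2 h) ?_
      rw [hodd'.neg_pow, hodd'.neg_pow, ← heq]; ring
    · -- `p ∣ b`: `a ^ p + (-c) ^ p = (-b) ^ p`
      refine CaseII.fermat_of_dvd_c hodd kummer (a := a) (b := -c) (c := -b) hac.neg_right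
        (neg_ne_zero.2 hb) ((dvd_neg).2 h) ?_
      rw [hodd'.neg_pow, hodd'.neg_pow, ← heq]; ring
  · exact CaseII.fermat_of_dvd_c hodd kummer hab hc h heq

/-- **Case II descent** (architect's interface): the generalised Fermat equation
`x ^ p + y ^ p = ε * ((ζ - 1) ^ m * z) ^ p` has no solution with `m ≥ 1`, `x`, `y` coprime and
`y`, `z` prime to `ζ - 1`, when `𝓞 K` is a PID satisfying Kummer's lemma. -/
theorem caseII_descent {p : ℕ} [Fact p.Prime] (hp : p ≠ 2) {K : Type} [Field K] [NumberField K]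
    [IsCyclotomicExtension {p} ℚ K] [IsPrincipalIdealRing (𝓞 K)]
    (hK : ∀ u : (𝓞 K)ˣ, (∃ n : ℤ, (p : 𝓞 K) ∣ (u : 𝓞 K) - n) → ∃ v : (𝓞 K)ˣ, u = v ^ p)
    {ζ : K} (hζ : IsPrimitiveRoot ζ p) :
    ¬ ∃ (x y z : 𝓞 K) (ε : (𝓞 K)ˣ) (m : ℕ), 1 ≤ m ∧ IsCoprime x y ∧
      ¬ (hζ.toInteger - 1) ∣ y ∧ ¬ (hζ.toInteger - 1) ∣ z ∧
      x ^ p + y ^ p = ε * ((hζ.toInteger - 1) ^ m * z) ^ p := by
  rintro ⟨x, y, z, ε, m, hm, hxy, hy, hz, h⟩
  exact CaseII.not_sol (CaseII.data_of_isCyclotomicExtension hp hζ) hK m hm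
    ⟨x, y, z, ε, hxy, hy, hz, h⟩

end Cyclotomic

end Fermat.Agent.S11
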