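import Mathlib
import Fermat.Agent.S11.CaseIIDescent

open NumberField

namespace Fermat.Agent.S11

/-- If `p ∣ c`, `a ^ p + b ^ p = c ^ p` and `a`, `b` are coprime, then `p ∤ b`. -/
theorem not_dvd_of_coprime_of_dvd {p : ℕ} (hp : p.Prime) {a b c : ℤ} (hab : IsCoprime a b)
    (hpc : (p : ℤ) ∣ c) (h : a ^ p + b ^ p = c ^ p) : ¬ (p : ℤ) ∣ b := by
  intro hb
  have hpp : Prime (p : ℤ) := Nat.prime_iff_prime_int.mp hp
  have hp0 : p ≠ 0 := hp.ne_zero
  have ha : (p : ℤ) ∣ a := by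
    have h1 : (p : ℤ) ∣ a ^ p := by
      have : a ^ p = c ^ p - b ^ p := by linarith
      rw [this]
      exact dvd_sub (dvd_pow hpc hp0) (dvd_pow hb hp0)
    exact hpp.dvd_of_dvd_pow h1
  exact hpp.not_isUnit (hab.isUnit_of_dvd' ha hb)

theorem caseII {p : ℕ} [Fact p.Prime] (hodd : p ≠ 2) {K : Type} [Field K] [NumberField K]
    [IsCyclotomicExtension {p} ℚ K] [IsPrincipalIdealRing (𝓞 K)]
    (hK : ∀ u : (𝓞 K)ˣ, (∃ n : ℤ, (p : 𝓞 K) ∣ (u : 𝓞 K) - n) → ∃ v : (𝓞 K)ˣ, u = v ^ p)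
    {a b c : ℤ} (hab : IsCoprime a b) (hc : c ≠ 0) (hpc : (p : ℤ) ∣ c)
    (h : a ^ p + b ^ p = c ^ p) : False := by
  have hp : p.Prime := Fact.out
  have hpp : Prime (p : ℤ) := Nat.prime_iff_prime_int.mp hp
  have hζ := IsCyclotomicExtension.zeta_spec p ℚ K
  -- write `c = p ^ k * c0` with `p ∤ c0`
  have hfin : FiniteMultiplicity (p : ℤ) c :=
    Int.finiteMultiplicity_iff.mpr ⟨by simpa using hp.ne_one, hc⟩
  obtain ⟨c0, hc0, hpc0⟩ := hfin.exists_eq_pow_mul_and_not_dvd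
  set k := multiplicity (p : ℤ) c with hk
  have hk1 : 1 ≤ k := by
    rcases Nat.eq_zero_or_pos k with h0 | h0
    · exfalso
      rw [h0, pow_zero, one_mul] at hc0
      exact hpc0 (hc0 ▸ hpc)
    · exact h0
  -- `p = u * λ ^ (p - 1)`
  obtain ⟨u, hu⟩ := IsCyclotomicExtension.Rat.associated_zeta_sub_one_pow_prime p hζ
  have hpb : ¬ (p : ℤ) ∣ b := not_dvd_of_coprime_of_dvd hp hab hpc h
  refine caseII_descent hodd hK hζ
    ⟨(a : 𝓞 K), (b : 𝓞 K), (c0 : 𝓞 K), (u ^ k) ^ p, (p - 1) * k, ?_, ?_, ?_, ?_, ?_⟩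
  · have : 1 ≤ p - 1 := by have := hp.two_le; omega
    exact Nat.one_le_iff_ne_zero.mpr (Nat.mul_ne_zero (by omega) (by omega))
  · exact hab.intCast
  · rwa [IsCyclotomicExtension.Rat.zeta_sub_one_dvd_intCast_iff' p hζ]
  · rwa [IsCyclotomicExtension.Rat.zeta_sub_one_dvd_intCast_iff' p hζ]
  · have h1 : ((a : 𝓞 K)) ^ p + (b : 𝓞 K) ^ p = (c : 𝓞 K) ^ p := by exact_mod_cast congrArg (Int.cast (R := 𝓞 K)) h
    rw [h1, hc0]
    push_cast
    rw [← hu]
    ring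

/-- Fermat's Last Theorem for the exponent `p`, from the first case, principality and Kummer's lemma. -/
theorem flt_of_caseI {p : ℕ} [Fact p.Prime]
    (hcaseI : ∀ {a b c : ℤ}, IsCoprime a b → a ^ p + b ^ p = c ^ p → (p : ℤ) ∣ a * b * c)
    (hodd : p ≠ 2) (K : Type) [Field K] [NumberField K]
    [IsCyclotomicExtension {p} ℚ K] [IsPrincipalIdealRing (𝓞 K)]
    (hK : ∀ u : (𝓞 K)ˣ, (∃ n : ℤ, (p : 𝓞 K) ∣ (u : 𝓞 K) - n) → ∃ v : (𝓞 K)ˣ, u = v ^ p)
    {a b c : ℤ} (hab : IsCoprime a b) (habc : a * b * c ≠ 0)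
    (h : a ^ p + b ^ p = c ^ p) : False := by
  have hp : p.Prime := Fact.out
  have hpp : Prime (p : ℤ) := Nat.prime_iff_prime_int.mp hp
  have hpodd : Odd p := hp.odd_of_ne_two hodd
  have ha0 : a ≠ 0 := fun h0 => habc (by simp [h0])
  have hb0 : b ≠ 0 := fun h0 => habc (by simp [h0])
  have hc0 : c ≠ 0 := fun h0 => habc (by simp [h0])
  have hppos : 0 < p := hp.pos
  -- `b` and `c` are coprime, `a` and `c` are coprime
  have hbc : IsCoprime b c := by
    have h1 : IsCoprime b (a ^ p + b * b ^ (p - 1)) :=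
      (hab.symm.pow_right).add_mul_left_right _
    have h2 : a ^ p + b * b ^ (p - 1) = c ^ p := by
      rw [← pow_succ', Nat.sub_add_cancel hp.one_le, h]
    rw [h2] at h1
    exact (IsCoprime.pow_right_iff hppos).mp h1
  have hac : IsCoprime a c := by
    have h1 : IsCoprime a (b ^ p + a * a ^ (p - 1)) :=
      (hab.pow_right).add_mul_left_right _
    have h2 : b ^ p + a * a ^ (p - 1) = c ^ p := by
      rw [← pow_succ', Nat.sub_add_cancel hp.one_le, ← h, add_comm]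
    rw [h2] at h1
    exact (IsCoprime.pow_right_iff hppos).mp h1
  rcases (hpp.dvd_or_dvd (hcaseI hab h)) with h1 | h1
  · rcases (hpp.dvd_or_dvd h1) with h2 | h2
    · -- `p ∣ a`: use `(b, -c, -a)`
      refine caseII hodd hK (a := b) (b := -c) (c := -a) hbc.neg_right (neg_ne_zero.mpr ha0)
        ((dvd_neg).mpr h2) ?_
      rw [hpodd.neg_pow, hpodd.neg_pow]
      linarith
    · -- `p ∣ b`: use `(a, -c, -b)`
      refine caseII hodd hK (a := a) (b := -c) (c := -b) hac.neg_right (neg_ne_zero.mpr hb0)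
        ((dvd_neg).mpr h2) ?_
      rw [hpodd.neg_pow, hpodd.neg_pow]
      linarith
  · exact caseII hodd hK hab hc0 h1 h

end Fermat.Agent.S11
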