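import Mathlib

set_option autoImplicit false

namespace Fermat.Agent.S11

open NumberField

/-- An element of `L` fixed by a generator of the (cyclic) Galois group lies in `K`. -/
theorem fixedUnits_mem_range_of_fixed {K L : Type*} [Field K] [Field L] [Algebra K L]
    [FiniteDimensional K L] [IsGalois K L] (σ : L ≃ₐ[K] L)
    (hσ : ∀ τ : L ≃ₐ[K] L, τ ∈ Subgroup.zpowers σ) (x : L) (h : σ x = x) :
    ∃ y : K, algebraMap K L y = x := by
  have hfix : ∀ τ : L ≃ₐ[K] L, τ x = x := by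
    intro τ
    obtain ⟨n, rfl⟩ := Subgroup.mem_zpowers_iff.mp (hσ τ)
    have hmem : σ ∈ MulAction.stabilizer (L ≃ₐ[K] L) x := by
      rw [MulAction.mem_stabilizer_iff]; exact h
    have := Subgroup.zpow_mem _ hmem n
    rw [MulAction.mem_stabilizer_iff] at this
    exact this
  have hx : x ∈ (⊥ : IntermediateField K L) := (IsGalois.mem_bot_iff_fixed x).mpr hfix
  obtain ⟨y, hy⟩ := IntermediateField.mem_bot.mp hx
  exact ⟨y, hy⟩

theorem fixedUnits_exists_int {K L : Type*} [Field K] [NumberField K] [Field L] [NumberField L]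
    [Algebra K L] (a : 𝓞 L) (y : K) (hy : algebraMap K L y = (a : L)) :
    ∃ b : 𝓞 K, algebraMap (𝓞 K) (𝓞 L) b = a := by
  have hint : IsIntegral ℤ y := by
    have h1 : IsIntegral ℤ (algebraMap K L y) := by
      rw [hy]; exact a.2
    exact (isIntegral_algebraMap_iff (algebraMap K L).injective).mp h1
  refine ⟨⟨y, hint⟩, ?_⟩
  apply RingOfIntegers.ext
  rw [← hy]
  rfl

/-- H3: units of `𝓞 L` fixed by a generator `σ` of `Gal(L/K)` come from units of `𝓞 K`. -/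
theorem exists_unit_of_fixed {K L : Type*} [Field K] [NumberField K] [Field L] [NumberField L]
    [Algebra K L] [IsGalois K L] (σ : L ≃ₐ[K] L)
    (hσ : ∀ τ : L ≃ₐ[K] L, τ ∈ Subgroup.zpowers σ) (ε : (𝓞 L)ˣ)
    (h : σ ((ε : 𝓞 L) : L) = ((ε : 𝓞 L) : L)) :
    ∃ e : (𝓞 K)ˣ, Units.map (algebraMap (𝓞 K) (𝓞 L) : 𝓞 K →* 𝓞 L) e = ε := by
  have hinj : Function.Injective (algebraMap (𝓞 K) (𝓞 L)) :=
    FaithfulSMul.algebraMap_injective (𝓞 K) (𝓞 L)
  obtain ⟨y, hy⟩ := fixedUnits_mem_range_of_fixed σ hσ _ h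
  have h' : σ (((ε⁻¹ : (𝓞 L)ˣ) : 𝓞 L) : L) = (((ε⁻¹ : (𝓞 L)ˣ) : 𝓞 L) : L) := by
    have hmul : (((ε⁻¹ : (𝓞 L)ˣ) : 𝓞 L) : L) * ((ε : 𝓞 L) : L) = 1 := by
      rw [← map_mul (algebraMap (𝓞 L) L)]
      simp
    have hne : ((ε : 𝓞 L) : L) ≠ 0 := by
      intro h0; rw [h0, mul_zero] at hmul; exact zero_ne_one hmul
    have h2 : σ (((ε⁻¹ : (𝓞 L)ˣ) : 𝓞 L) : L) * ((ε : 𝓞 L) : L) = 1 := by
      rw [← h, ← map_mul, hmul, map_one]
    exact mul_right_cancel₀ hne (h2.trans hmul.symm)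
  obtain ⟨y', hy'⟩ := fixedUnits_mem_range_of_fixed σ hσ _ h'
  obtain ⟨b, hb⟩ := fixedUnits_exists_int (ε : 𝓞 L) y hy
  obtain ⟨b', hb'⟩ := fixedUnits_exists_int ((ε⁻¹ : (𝓞 L)ˣ) : 𝓞 L) y' hy'
  have hbb' : b * b' = 1 := by
    apply hinj
    rw [map_mul, hb, hb', map_one]
    simp
  refine ⟨⟨b, b', hbb', by rw [mul_comm]; exact hbb'⟩, ?_⟩
  apply Units.ext
  simpa using hb

end Fermat.Agent.S11
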