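import Mathlib

set_option autoImplicit false

namespace Fermat.Agent.S11

open Subgroup

section aux

variable {G G' : Type*} [CommGroup G] [CommGroup G']

/-- Images under a homomorphism do not increase relative indices. -/
theorem relIndex_map_map_le (f : G →* G') {A B : Subgroup G} (hAB : A ≤ B)
    (h0 : A.relIndex B ≠ 0) :
    (A.map f).relIndex (B.map f) ≤ A.relIndex B ∧ (A.map f).relIndex (B.map f) ≠ 0 := by
  rw [relIndex_map_map]
  have h1 : B ⊔ f.ker = B ⊔ (A ⊔ f.ker) := by
    rw [← sup_assoc, sup_eq_left.mpr hAB]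
  rw [h1, relIndex_sup_right]
  have h2 : A ≤ A ⊔ f.ker := le_sup_left
  refine ⟨relIndex_le_of_le_left h2 h0, ?_⟩
  intro h3
  have := relIndex_dvd_of_le_left B h2
  rw [h3] at this
  exact h0 (Nat.eq_zero_of_zero_dvd this)

/-- If `z ∈ K`, `z ∉ H` and `z ^ p ∈ H` then `p` divides the relative index of `H` in `K`. -/
theorem prime_dvd_relIndex_of_pow_mem (p : ℕ) [hp : Fact p.Prime] {H K : Subgroup G} {z : G}
    (hzK : z ∈ K) (hzH : z ∉ H) (hzp : z ^ p ∈ H) : p ∣ H.relIndex K := by
  rw [relIndex, index_eq_card]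
  let q : K ⧸ H.subgroupOf K := QuotientGroup.mk ⟨z, hzK⟩
  have hq1 : q ≠ 1 := by
    intro h
    rw [QuotientGroup.eq_one_iff] at h
    exact hzH (mem_subgroupOf.mp h)
  have hqp : q ^ p = 1 := by
    rw [← QuotientGroup.mk_pow, QuotientGroup.eq_one_iff, mem_subgroupOf]
    simpa using hzp
  have hord : orderOf q = p := orderOf_eq_prime hqp hq1
  rw [← hord]
  exact orderOf_dvd_natCard q

end aux

section main

variable {X : Type*} [CommGroup X] (p : ℕ) [hp : Fact p.Prime] (D N : X →* X)

/-- The iterated images `D^i (ker N)`. -/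
def iterImage : ℕ → Subgroup X
  | 0 => N.ker
  | (i + 1) => (iterImage i).map D

theorem mem_iterImage_iff (i : ℕ) (y : X) :
    y ∈ iterImage D N i ↔ ∃ x, N x = 1 ∧ D^[i] x = y := by
  induction i generalizing y with
  | zero => simp [iterImage, MonoidHom.mem_ker]
  | succ i ih =>
    simp only [iterImage, mem_map, ih, Function.iterate_succ', Function.comp_apply]
    constructor
    · rintro ⟨w, ⟨x, hx, rfl⟩, rfl⟩
      exact ⟨x, hx, rfl⟩
    · rintro ⟨x, hx, rfl⟩
      exact ⟨_, ⟨x, hx, rfl⟩, rfl⟩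

/-- Abstract form of Hilbert's Theorem 92 (an index count). -/
theorem exists_norm_one_not_range (ζ : X) (b : ℕ)
    (hND : ∀ x, N (D x) = 1) (hDN : ∀ x, D (N x) = 1)
    (hNF : ∀ x, D x = 1 → N x = x ^ p)
    (hT : ∀ x, x ^ p = 1 → D x = 1)
    (hDM : ∀ x, N x = 1 → ∃ y, N y = 1 ∧ D^[p - 1] x = y ^ p)
    (hζ1 : ζ ≠ 1) (hζp : ζ ^ p = 1)
    (hX : (powMonoidHom p : X →* X).range.index ≠ 0)
    (hXge : p ^ (p * b) ≤ (powMonoidHom p : X →* X).range.index)
    (hF0 : ((D.ker).map (powMonoidHom p)).relIndex D.ker ≠ 0)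
    (hFle : ((D.ker).map (powMonoidHom p)).relIndex D.ker ≤ p ^ b) :
    ∃ η, N η = 1 ∧ ∀ ε, D ε ≠ η := by
  by_contra hcon
  push Not at hcon
  -- notation
  set P : Subgroup X := (powMonoidHom p : X →* X).range with hP
  set F : Subgroup X := D.ker with hF
  set M : Subgroup X := N.ker with hM
  set Fp : Subgroup X := F.map (powMonoidHom p) with hFp
  set Mp : Subgroup X := M.map (powMonoidHom p) with hMp
  set DM : Subgroup X := M.map D with hDMdef
  have hrange : D.range = M := by
    ext y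
    simp only [MonoidHom.mem_range, hM, MonoidHom.mem_ker]
    constructor
    · rintro ⟨x, rfl⟩
      exact hND x
    · intro hy
      exact hcon y hy
  have hDM_le : DM ≤ M := by
    rintro y ⟨x, -, rfl⟩
    exact hND x
  have hFp_le_F : Fp ≤ F := by
    rintro y ⟨x, hx, rfl⟩
    simp only [hF, MonoidHom.mem_ker, powMonoidHom_apply, map_pow] at hx ⊢
    rw [SetLike.mem_coe, MonoidHom.mem_ker] at hx
    rw [hx, one_pow]
  have hFp_le_P : Fp ≤ P := by
    rintro y ⟨x, -, rfl⟩
    exact ⟨x, rfl⟩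
  -- (1) comap of `Mp` under `D`
  have hcomap1 : Mp.comap D = F ⊔ P := by
    apply le_antisymm
    · intro x hx
      rw [mem_comap] at hx
      obtain ⟨y, hy, hyx⟩ := hx
      rw [SetLike.mem_coe, ← hrange] at hy
      obtain ⟨t, rfl⟩ := hy
      have h1 : x * (t ^ p)⁻¹ ∈ F := by
        simp only [hF, MonoidHom.mem_ker, map_mul, map_inv, map_pow]
        simp only [powMonoidHom_apply] at hyx
        rw [← hyx, mul_inv_cancel]
      have h2 : t ^ p ∈ P := ⟨t, rfl⟩
      have : x = x * (t ^ p)⁻¹ * t ^ p := by group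
      rw [this]
      exact mul_mem_sup h1 h2
    · apply sup_le
      · intro x hx
        rw [mem_comap]
        have : D x = 1 := hx
        rw [this]
        exact one_mem _
      · rintro x ⟨t, rfl⟩
        rw [mem_comap]
        refine ⟨D t, hND t, ?_⟩
        simp
  have hidx1 : (F ⊔ P).index = Mp.relIndex M := by
    rw [← hcomap1, index_comap, hrange]
  -- (2) comap of `DM` under `D`
  have hcomap2 : DM.comap D = F ⊔ M := by
    apply le_antisymm
    · intro x hx
      rw [mem_comap] at hx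
      obtain ⟨m, hm, hmx⟩ := hx
      have h1 : x * m⁻¹ ∈ F := by
        simp only [hF, MonoidHom.mem_ker, map_mul, map_inv]
        rw [hmx, mul_inv_cancel]
      have : x = x * m⁻¹ * m := by group
      rw [this]
      exact mul_mem_sup h1 hm
    · apply sup_le
      · intro x hx
        rw [mem_comap]
        have : D x = 1 := hx
        rw [this]
        exact one_mem _
      · intro x hx
        rw [mem_comap]
        exact ⟨x, hx, rfl⟩
  have hidx2 : (F ⊔ M).index = DM.relIndex M := by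
    rw [← hcomap2, index_comap, hrange]
  -- (3) bound via the norm
  have hmapNF : F.map N = Fp := by
    ext y
    simp only [mem_map, hFp]
    constructor
    · rintro ⟨x, hx, rfl⟩
      exact ⟨x, hx, (hNF x hx).symm⟩
    · rintro ⟨x, hx, rfl⟩
      exact ⟨x, hx, hNF x hx⟩
  have hmapNM : M.map N = ⊥ := by
    rw [eq_bot_iff]
    rintro y ⟨x, hx, rfl⟩
    exact hx
  have hNrange_le : N.range ≤ F := by
    rintro y ⟨x, rfl⟩
    exact hDN x
  have hidx3 : (F ⊔ M).index = Fp.relIndex N.range := by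
    have h := relIndex_map_map N (F ⊔ M) ⊤
    rw [Subgroup.map_sup, hmapNF, hmapNM, sup_bot_eq, ← MonoidHom.range_eq_map] at h
    rw [h, ← hM, sup_assoc, sup_idem, top_sup_eq, relIndex_top_right]
  have ha_le : DM.relIndex M ≤ Fp.relIndex F := by
    rw [← hidx2, hidx3]
    exact relIndex_le_of_le_right hNrange_le hF0
  have ha0 : DM.relIndex M ≠ 0 := by
    rw [← hidx2, hidx3]
    intro h
    exact hF0 (relIndex_eq_zero_of_le_right hNrange_le h)
  -- (4) the chain
  have hS_le : ∀ i, iterImage D N (i + 1) ≤ iterImage D N i := by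
    intro i
    induction i with
    | zero => exact hDM_le
    | succ i ih => exact map_mono ih
  have hS_step : ∀ i, (iterImage D N (i + 1)).relIndex (iterImage D N i) ≤ DM.relIndex M ∧
      (iterImage D N (i + 1)).relIndex (iterImage D N i) ≠ 0 := by
    intro i
    induction i with
    | zero => exact ⟨le_rfl, ha0⟩
    | succ i ih =>
      obtain ⟨h1, h2⟩ := relIndex_map_map_le D (hS_le i) ih.2
      exact ⟨h1.trans ih.1, h2⟩
  have hS_le_M : ∀ i, iterImage D N i ≤ M := by
    intro i
    induction i with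
    | zero => exact le_rfl
    | succ i ih => exact (hS_le i).trans ih
  have hS_idx : ∀ i, (iterImage D N i).relIndex M ≤ (DM.relIndex M) ^ i ∧
      (iterImage D N i).relIndex M ≠ 0 := by
    intro i
    induction i with
    | zero =>
      simp only [iterImage, pow_zero]
      rw [← hM, relIndex_self]
      exact ⟨le_rfl, one_ne_zero⟩
    | succ i ih =>
      have h := relIndex_mul_relIndex (iterImage D N (i + 1)) (iterImage D N i) M (hS_le i)
        (hS_le_M i)
      rw [← h]
      refine ⟨?_, mul_ne_zero (hS_step i).2 ih.2⟩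
      rw [pow_succ, mul_comm]
      exact Nat.mul_le_mul ih.1 (hS_step i).1
  have hSp_le : iterImage D N (p - 1) ≤ Mp := by
    intro y hy
    rw [mem_iterImage_iff] at hy
    obtain ⟨x, hx, rfl⟩ := hy
    obtain ⟨y, hy, hxy⟩ := hDM x hx
    exact ⟨y, hy, hxy.symm⟩
  have hm_le : Mp.relIndex M ≤ (DM.relIndex M) ^ (p - 1) :=
    (relIndex_le_of_le_left hSp_le (hS_idx (p - 1)).2).trans (hS_idx (p - 1)).1
  -- (5) the torsion element
  obtain ⟨x0, hx0⟩ := hcon ζ (by rw [hNF ζ (hT ζ hζp), hζp])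
  have hzP : x0 ^ p ∈ P ⊓ F := by
    refine ⟨⟨x0, rfl⟩, ?_⟩
    show x0 ^ p ∈ D.ker
    rw [MonoidHom.mem_ker, map_pow, hx0, hζp]
  have hzFp : x0 ^ p ∉ Fp := by
    rintro ⟨f, hf, hfx⟩
    simp only [powMonoidHom_apply] at hfx
    have h1 : (x0 * f⁻¹) ^ p = 1 := by
      rw [mul_pow, inv_pow, hfx, mul_inv_cancel]
    have h2 := hT _ h1
    rw [map_mul, map_inv, hx0] at h2
    have h3 : D f = 1 := hf
    rw [h3, inv_one, mul_one] at h2
    exact hζ1 h2
  have hzpp : (x0 ^ p) ^ p ∈ Fp := ⟨x0 ^ p, hzP.2, rfl⟩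
  have hp_dvd : p ∣ Fp.relIndex (P ⊓ F) := prime_dvd_relIndex_of_pow_mem p hzP hzFp hzpp
  -- (6) arithmetic
  have hFp_le_PF : Fp ≤ P ⊓ F := le_inf hFp_le_P hFp_le_F
  have hmul := relIndex_mul_relIndex Fp (P ⊓ F) F hFp_le_PF inf_le_right
  have hA : P.relIndex (F ⊔ P) * (F ⊔ P).index = P.index := relIndex_mul_index le_sup_right
  rw [relIndex_sup_right, ← inf_relIndex_right] at hA
  set i1 := (P ⊓ F).relIndex F
  set i2 := Fp.relIndex (P ⊓ F)
  set c := Fp.relIndex F
  set a := DM.relIndex M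
  set m := Mp.relIndex M
  have hi2 : p ≤ i2 := by
    apply Nat.le_of_dvd _ hp_dvd
    rcases Nat.eq_zero_or_pos i2 with h | h
    · rw [h, zero_mul] at hmul
      exact absurd hmul.symm hF0
    · exact h
  have hc : p * i1 ≤ c := by
    rw [← hmul]
    exact Nat.mul_le_mul_right _ hi2
  have hA' : P.index = i1 * m := by
    rw [← hA, hidx1]
  have hm' : m ≤ c ^ (p - 1) := hm_le.trans (Nat.pow_le_pow_left ha_le _)
  have hp1 : 1 ≤ p := hp.out.one_le
  have hfinal : p * P.index ≤ P.index := by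
    calc p * P.index = (p * i1) * m := by rw [hA']; ring
      _ ≤ c * c ^ (p - 1) := Nat.mul_le_mul hc hm'
      _ = c ^ p := by rw [← pow_succ', Nat.sub_add_cancel hp1]
      _ ≤ (p ^ b) ^ p := Nat.pow_le_pow_left hFle _
      _ = p ^ (p * b) := by rw [← pow_mul, mul_comm]
      _ ≤ P.index := hXge
  have hp2 : 2 ≤ p := hp.out.two_le
  have hpos : 0 < P.index := Nat.pos_of_ne_zero hX
  nlinarith

end main

end Fermat.Agent.S11
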