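import Mathlib

open Polynomial

namespace Fermat.Agent.S11

/-- In `ℤ[T]`: `(T - 1) ^ (p - 1) = ∑_{i<p} T ^ i + p * w`. -/
theorem normPoly_exists_w (p : ℕ) [hp : Fact p.Prime] :
    ∃ w : ℤ[X], (X - 1 : ℤ[X]) ^ (p - 1) = (∑ i ∈ Finset.range p, X ^ i) + C (p : ℤ) * w := by
  have key : ((X - 1 : ℤ[X]) ^ (p - 1) - ∑ i ∈ Finset.range p, X ^ i).map
      (Int.castRingHom (ZMod p)) = 0 := by
    have h1 : ((X - 1 : (ZMod p)[X])) * ((X - 1) ^ (p - 1) - ∑ i ∈ Finset.range p, X ^ i) = 0 := by
      rw [mul_sub, ← pow_succ', Nat.sub_add_cancel hp.out.one_le, mul_comm (X - 1) (∑ _ ∈ _, _),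
        geom_sum_mul, sub_pow_char, one_pow, sub_self]
    have h2 : (X - 1 : (ZMod p)[X]) ≠ 0 := by
      have := X_sub_C_ne_zero (1 : ZMod p)
      simpa using this
    simp only [Polynomial.map_sub, Polynomial.map_pow, Polynomial.map_X, Polynomial.map_one,
      Polynomial.map_sum]
    exact (mul_eq_zero.mp h1).resolve_left h2
  have hdvd : C (p : ℤ) ∣ ((X - 1 : ℤ[X]) ^ (p - 1) - ∑ i ∈ Finset.range p, X ^ i) := by
    rw [C_dvd_iff_dvd_coeff]
    intro i
    have := congrArg (fun q => q.coeff i) key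
    simp only [coeff_map, coeff_zero] at this
    exact (ZMod.intCast_zmod_eq_zero_iff_dvd _ p).1 this
  obtain ⟨w, hw⟩ := hdvd
  exact ⟨w, by rw [← hw]; ring⟩

theorem exists_pow_eq_iterate_of_prod_eq_one {X : Type*} [CommGroup X] (p : ℕ) [Fact p.Prime]
    (s : X →* X) (x : X) (hx : ∏ i ∈ Finset.range p, s^[i] x = 1) :
    ∃ y : X, (∏ i ∈ Finset.range p, s^[i] y = 1) ∧ (fun z => s z / z)^[p - 1] x = y ^ p := by
  obtain ⟨w, hw⟩ := normPoly_exists_w p
  -- the endomorphism of the additive group
  let S : Module.End ℤ (Additive X) := (MonoidHom.toAdditive s).toIntLinearMap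
  have hS : ∀ z : X, S (Additive.ofMul z) = Additive.ofMul (s z) := fun z => rfl
  have hSpow : ∀ (k : ℕ) (z : X), (S ^ k) (Additive.ofMul z) = Additive.ofMul (s^[k] z) := by
    intro k
    induction k with
    | zero => intro z; simp
    | succ k ih =>
      intro z
      rw [pow_succ', Module.End.mul_apply, ih, hS, Function.iterate_succ_apply']
  have hN : ∀ z : X, (∑ i ∈ Finset.range p, S ^ i) (Additive.ofMul z) =
      Additive.ofMul (∏ i ∈ Finset.range p, s^[i] z) := by
    intro z
    rw [LinearMap.sum_apply, ofMul_prod]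
    exact Finset.sum_congr rfl fun i _ => hSpow i z
  have hD : ∀ (k : ℕ) (z : X), ((S - 1) ^ k) (Additive.ofMul z) =
      Additive.ofMul ((fun z => s z / z)^[k] z) := by
    intro k
    induction k with
    | zero => intro z; simp
    | succ k ih =>
      intro z
      rw [pow_succ', Module.End.mul_apply, ih, Function.iterate_succ_apply']
      simp only [LinearMap.sub_apply, Module.End.one_apply, hS]
      rfl
  -- evaluate the polynomial identity at `S`
  have hev := congrArg (fun q : Polynomial ℤ => aeval S q) hw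
  simp only [map_pow, map_sub, aeval_X, map_one, map_add, map_sum, map_mul, aeval_C] at hev
  let y : X := Additive.toMul ((aeval S w) (Additive.ofMul x))
  refine ⟨y, ?_, ?_⟩
  · -- `N y = w(S) (N x) = 0`
    have h1 : (∑ i ∈ Finset.range p, S ^ i) (Additive.ofMul y) = 0 := by
      have hcomm : (∑ i ∈ Finset.range p, S ^ i) * aeval S w =
          aeval S w * (∑ i ∈ Finset.range p, S ^ i) := by
        have : (∑ i ∈ Finset.range p, S ^ i) = aeval S (∑ i ∈ Finset.range p, (Polynomial.X : Polynomial ℤ) ^ i) := by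
          simp
        rw [this, ← map_mul, ← map_mul, mul_comm]
      show (∑ i ∈ Finset.range p, S ^ i) ((aeval S w) (Additive.ofMul x)) = 0
      rw [← Module.End.mul_apply, hcomm, Module.End.mul_apply, hN x, hx]
      simp
    rw [hN y] at h1
    exact h1
  · have h2 := congrArg (fun f : Module.End ℤ (Additive X) => f (Additive.ofMul x)) hev
    simp only [LinearMap.add_apply, Module.End.mul_apply] at h2
    rw [hD, hN x, hx] at h2
    have h3 : Additive.ofMul ((fun z => s z / z)^[p - 1] x) = Additive.ofMul (y ^ p) := by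
      rw [h2, ofMul_pow]
      simp [y]
    exact h3

end Fermat.Agent.S11
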