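import Mathlib

set_option autoImplicit false

namespace Fermat.Agent.S11

open NumberField NumberField.Units Subgroup

/-- In a free `ℤ`-module of finite rank `r`, the multiples of `p` have index `p ^ r`. -/
theorem index_nsmul_range (A : Type*) [AddCommGroup A] [Module.Free ℤ A] [Module.Finite ℤ A]
    (p : ℕ) (hp : p ≠ 0) :
    (nsmulAddMonoidHom p : A →+ A).range.index = p ^ Module.finrank ℤ A := by
  let f : A →ₗ[ℤ] A := (p : ℤ) • LinearMap.id
  have hinj : Function.Injective f := by
    intro x y hxy
    simp only [f, LinearMap.smul_apply, LinearMap.id_coe, id_eq] at hxy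
    exact smul_right_injective A (Int.natCast_ne_zero.mpr hp) hxy
  let e : A ≃ₗ[ℤ] LinearMap.range f := LinearEquiv.ofInjective f hinj
  have h1 := Submodule.natAbs_det_equiv (LinearMap.range f) e
  have h2 : (LinearMap.range f).subtype ∘ₗ (e : A →+ LinearMap.range f).toIntLinearMap = f := by
    ext x
    rfl
  rw [h2, LinearMap.det_smul, LinearMap.det_id, mul_one, Int.natAbs_pow, Int.natAbs_natCast] at h1
  rw [h1, ← Submodule.cardQuot_apply, Submodule.cardQuot]
  congr 1
  ext x
  simp only [Submodule.mem_toAddSubgroup, LinearMap.mem_range, AddMonoidHom.mem_range,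
    nsmulAddMonoidHom_apply, f, LinearMap.smul_apply, LinearMap.id_coe, id_eq, natCast_zsmul]

/-- Multiplicative version of `index_nsmul_range`. -/
theorem index_powMonoidHom_range_of_free (Q : Type*) [CommGroup Q] [Module.Free ℤ (Additive Q)]
    [Module.Finite ℤ (Additive Q)] (p : ℕ) (hp : p ≠ 0) :
    (powMonoidHom p : Q →* Q).range.index = p ^ Module.finrank ℤ (Additive Q) := by
  rw [← index_nsmul_range (Additive Q) p hp, ← Subgroup.index_toAddSubgroup]
  congr 1

variable (F : Type*) [Field F] [NumberField F]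

/-- The index of the `p`-th powers in the unit group of a number field containing a primitive
`p`-th root of unity. -/
theorem index_powMonoidHom_range_units (p : ℕ) [hp : Fact p.Prime] {ζ : F}
    (hζ : IsPrimitiveRoot ζ p) :
    (powMonoidHom p : (𝓞 F)ˣ →* (𝓞 F)ˣ).range.index = p ^ (NumberField.Units.rank F + 1) := by
  have hp0 : p ≠ 0 := hp.out.ne_zero
  have : NeZero p := ⟨hp0⟩
  set P : Subgroup (𝓞 F)ˣ := (powMonoidHom p : (𝓞 F)ˣ →* (𝓞 F)ˣ).range with hP
  let mk : (𝓞 F)ˣ →* (𝓞 F)ˣ ⧸ torsion F := QuotientGroup.mk' (torsion F)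
  set Pq : Subgroup ((𝓞 F)ˣ ⧸ torsion F) := MonoidHom.range (powMonoidHom (α := (𝓞 F)ˣ ⧸ torsion F) p) with hPq
  -- (a)
  have hcomap : Pq.comap mk = P ⊔ torsion F := by
    apply le_antisymm
    · intro x hx
      rw [mem_comap] at hx
      obtain ⟨q, hq⟩ := hx
      obtain ⟨y, rfl⟩ := QuotientGroup.mk'_surjective (torsion F) q
      have h1 : x * (y ^ p)⁻¹ ∈ torsion F := by
        rw [← QuotientGroup.eq_one_iff]
        simp only [powMonoidHom_apply] at hq
        have : (QuotientGroup.mk' (torsion F)) x = (QuotientGroup.mk' (torsion F) y) ^ p := hq.symm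
        simp only [QuotientGroup.mk'_apply] at this
        rw [QuotientGroup.mk_mul, QuotientGroup.mk_inv, QuotientGroup.mk_pow, this, mul_inv_cancel]
      have h2 : y ^ p ∈ P := ⟨y, rfl⟩
      have : x = y ^ p * (x * (y ^ p)⁻¹) := by
        rw [mul_comm x, ← mul_assoc, mul_inv_cancel, one_mul]
      rw [this]
      exact mul_mem_sup h2 h1
    · apply sup_le
      · rintro x ⟨y, rfl⟩
        rw [mem_comap]
        exact ⟨mk y, by simp⟩
      · intro x hx
        rw [mem_comap]
        have : mk x = 1 := (QuotientGroup.eq_one_iff x).mpr hx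
        rw [this]
        exact one_mem _
  have hidx_a : (P ⊔ torsion F).index = Pq.index := by
    rw [← hcomap]
    exact index_comap_of_surjective _ (QuotientGroup.mk'_surjective (torsion F))
  -- (b)
  have hidx_b : Pq.index = p ^ NumberField.Units.rank F := by
    rw [hPq, index_powMonoidHom_range_of_free _ p hp0, finrank_modTorsion]
  -- (c)
  have hmul : P.relIndex (P ⊔ torsion F) * (P ⊔ torsion F).index = P.index := relIndex_mul_index le_sup_left
  rw [relIndex_sup_left] at hmul
  have hsub : P.subgroupOf (torsion F) = (powMonoidHom p : torsion F →* torsion F).range := by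
    ext ⟨t, ht⟩
    rw [mem_subgroupOf]
    simp only [hP, MonoidHom.mem_range, powMonoidHom_apply]
    constructor
    · rintro ⟨x, hx⟩
      have hxT : x ∈ torsion F := by
        rw [torsion, CommGroup.mem_torsion] at ht ⊢
        rw [← hx] at ht
        exact IsOfFinOrder.of_pow ht hp0
      exact ⟨⟨x, hxT⟩, Subtype.ext hx⟩
    · rintro ⟨⟨x, hxT⟩, hx⟩
      exact ⟨x, congrArg Subtype.val hx⟩
  have hrel : P.relIndex (torsion F) = p := by
    rw [relIndex, hsub, IsCyclic.index_powMonoidHom_range]
    -- `p` divides the order of the torsion subgroup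
    have hu : IsUnit hζ.toInteger := hζ.toInteger_isPrimitiveRoot.isUnit hp0
    obtain ⟨u, hu⟩ := hu
    have hprim : IsPrimitiveRoot u p := by
      rw [← IsPrimitiveRoot.coe_units_iff, hu]
      exact hζ.toInteger_isPrimitiveRoot
    have huT : u ∈ torsion F := by
      rw [torsion, CommGroup.mem_torsion]
      exact isOfFinOrder_iff_pow_eq_one.mpr ⟨p, hp.out.pos, hprim.pow_eq_one⟩
    have hord : orderOf (⟨u, huT⟩ : torsion F) = p := by
      rw [Subgroup.orderOf_mk u huT]
      exact hprim.eq_orderOf.symm
    have hdvd : p ∣ Nat.card (torsion F) := by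
      rw [← hord]
      exact orderOf_dvd_natCard _
    exact Nat.gcd_eq_right hdvd
  rw [hrel, hidx_a, hidx_b] at hmul
  rw [← hmul, pow_succ, mul_comm]

end Fermat.Agent.S11
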