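import Mathlib

/-!
# S11 / K2b-H2: unit ranks in a degree `p` extension of a field containing `ζ_p`

`rank_add_one_eq_mul`: if `K` contains a primitive `p`-th root of unity (`p` an odd prime) and
`L / K` has degree `p`, then `rank (𝓞 L)ˣ + 1 = p * (rank (𝓞 K)ˣ + 1)`.
-/

set_option autoImplicit false

namespace Fermat.Agent.S11

open NumberField NumberField.InfinitePlace Module

/-- a number field containing a primitive `k`-th root of unity, `2 < k`, has
`rank + 1 = finrank ℚ / 2`, in the form `2 * (rank + 1) = finrank ℚ`. -/
theorem unitsRank_two_mul_rank_add_one {K : Type*} [Field K] [NumberField K] {k : ℕ} (hk : 2 < k)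
    {ζ : K} (hζ : IsPrimitiveRoot ζ k) :
    2 * (NumberField.Units.rank K + 1) = finrank ℚ K := by
  have h0 : nrRealPlaces K = 0 := hζ.nrRealPlaces_eq_zero_of_two_lt hk
  have h1 := card_add_two_mul_card_eq_rank K
  have h2 := card_eq_nrRealPlaces_add_nrComplexPlaces K
  have hpos : 0 < Fintype.card (InfinitePlace K) := Fintype.card_pos
  rw [h0, zero_add] at h1 h2
  rw [NumberField.Units.rank, Nat.sub_add_cancel hpos, h2, h1]

/-- **H2**: unit ranks in a degree `p` extension of a number field containing `ζ_p`. -/
theorem rank_add_one_eq_mul {p : ℕ} [Fact p.Prime] (hp2 : p ≠ 2) {K L : Type*} [Field K]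
    [NumberField K] [Field L] [NumberField L] [Algebra K L] (hdeg : Module.finrank K L = p)
    {ζ : K} (hζ : IsPrimitiveRoot ζ p) :
    NumberField.Units.rank L + 1 = p * (NumberField.Units.rank K + 1) := by
  have hp : p.Prime := Fact.out
  have hk : 2 < p := lt_of_le_of_ne hp.two_le (Ne.symm hp2)
  have hζL : IsPrimitiveRoot (algebraMap K L ζ) p :=
    hζ.map_of_injective (algebraMap K L).injective
  have hK := unitsRank_two_mul_rank_add_one hk hζ
  have hL := unitsRank_two_mul_rank_add_one hk hζL
  have htower : finrank ℚ K * finrank K L = finrank ℚ L := Module.finrank_mul_finrank ℚ K L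
  rw [hdeg, ← hK, ← hL] at htower
  have : 2 * (NumberField.Units.rank L + 1) = 2 * (p * (NumberField.Units.rank K + 1)) := by
    rw [← htower]; ring
  exact Nat.eq_of_mul_eq_mul_left (by norm_num) this

end Fermat.Agent.S11
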