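import Mathlib
import Fermat.Agent.S11.H92Abstract
import Fermat.Agent.S11.UnitsIndex
import Fermat.Agent.S11.UnitsRank
import Fermat.Agent.S11.FixedUnits
import Fermat.Agent.S11.NormPoly

set_option autoImplicit false

namespace Fermat.Agent.S11

open NumberField

section general

variable {X : Type*} [CommGroup X]

/-- The "norm" endomorphism `x ↦ ∏_{i<p} s^i x`. -/
def normHom (p : ℕ) (s : X →* X) : X →* X where
  toFun x := ∏ i ∈ Finset.range p, s^[i] x
  map_one' := by simp [iterate_map_one]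
  map_mul' x y := by simp [iterate_map_mul, Finset.prod_mul_distrib]

/-- The endomorphism `x ↦ s x / x`. -/
def divHom (s : X →* X) : X →* X where
  toFun x := s x / x
  map_one' := by simp
  map_mul' x y := by simp [mul_div_mul_comm]

theorem normHom_apply (p : ℕ) (s : X →* X) (x : X) :
    normHom p s x = ∏ i ∈ Finset.range p, s^[i] x := rfl

theorem divHom_apply (s : X →* X) (x : X) : divHom s x = s x / x := rfl

theorem coe_divHom (s : X →* X) : (divHom s : X → X) = fun z => s z / z := rfl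

theorem normHom_map (p : ℕ) (s : X →* X) (hs : ∀ x, s^[p] x = x) (x : X) :
    normHom p s (s x) = normHom p s x := by
  simp only [normHom_apply]
  have h1 := Finset.prod_range_succ' (fun i => s^[i] x) p
  have h2 := Finset.prod_range_succ (fun i => s^[i] x) p
  rw [h1] at h2
  simp only [Function.iterate_zero, id_eq, hs x] at h2
  have h3 : ∀ i, s^[i] (s x) = s^[i + 1] x := fun i => by
    rw [Function.iterate_succ_apply]
  simp only [h3]
  exact mul_right_cancel h2

theorem map_normHom (p : ℕ) (s : X →* X) (hs : ∀ x, s^[p] x = x) (x : X) :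
    s (normHom p s x) = normHom p s x := by
  calc s (normHom p s x) = normHom p s (s x) := by
        simp only [normHom_apply, map_prod]
        refine Finset.prod_congr rfl fun i _ => ?_
        rw [← Function.iterate_succ_apply' s i x, Function.iterate_succ_apply]
    _ = normHom p s x := normHom_map p s hs x

theorem normHom_of_fixed (p : ℕ) (s : X →* X) (x : X) (hx : s x = x) :
    normHom p s x = x ^ p := by
  simp only [normHom_apply, Function.iterate_fixed hx, Finset.prod_const, Finset.card_range]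

end general

end Fermat.Agent.S11

namespace Fermat.Agent.S11

open NumberField

section numberfield

set_option linter.unusedSectionVars false

variable {K L : Type*} [Field K] [NumberField K] [Field L] [NumberField L] [Algebra K L]

/-- The action of `σ` on the units of `𝓞 L`. -/
noncomputable def unitsAut (σ : L ≃ₐ[K] L) : (𝓞 L)ˣ →* (𝓞 L)ˣ :=
  Units.map (RingOfIntegers.mapRingHom (σ : L →+* L) : 𝓞 L →* 𝓞 L)

theorem coe_unitsAut (σ : L ≃ₐ[K] L) (x : (𝓞 L)ˣ) :
    (((unitsAut σ x : (𝓞 L)ˣ) : 𝓞 L) : L) = σ ((x : 𝓞 L) : L) := rfl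

theorem coe_unitsAut_iterate (σ : L ≃ₐ[K] L) (i : ℕ) (x : (𝓞 L)ˣ) :
    ((((unitsAut σ)^[i] x : (𝓞 L)ˣ) : 𝓞 L) : L) = (σ ^ i) ((x : 𝓞 L) : L) := by
  induction i with
  | zero => simp
  | succ i ih =>
    rw [Function.iterate_succ_apply', coe_unitsAut, ih, pow_succ', AlgEquiv.mul_apply]

theorem units_coe_ext {x y : (𝓞 L)ˣ} (h : ((x : 𝓞 L) : L) = ((y : 𝓞 L) : L)) : x = y :=
  Units.ext (RingOfIntegers.ext h)

/-- The coercion `(𝓞 L)ˣ →* L`. -/
noncomputable def unitsCoeHom (L : Type*) [Field L] [NumberField L] : (𝓞 L)ˣ →* L :=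
  ((algebraMap (𝓞 L) L : 𝓞 L →+* L) : 𝓞 L →* L).comp (Units.coeHom (𝓞 L))

theorem unitsCoeHom_apply (x : (𝓞 L)ˣ) : unitsCoeHom L x = ((x : 𝓞 L) : L) := rfl

theorem prod_aut_eq_prod_range [IsGalois K L] {p : ℕ} (hdeg : Module.finrank K L = p)
    (σ : L ≃ₐ[K] L) (hσ : ∀ τ : L ≃ₐ[K] L, τ ∈ Subgroup.zpowers σ) (f : (L ≃ₐ[K] L) → L) :
    ∏ τ : L ≃ₐ[K] L, f τ = ∏ i ∈ Finset.range p, f (σ ^ i) := by
  classical
  have hcard : Nat.card (L ≃ₐ[K] L) = p := by rw [IsGalois.card_aut_eq_finrank, hdeg]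
  have hord : orderOf σ = p := by rw [orderOf_eq_card_of_forall_mem_zpowers hσ, hcard]
  have himg := IsCyclic.image_range_card hσ
  rw [hcard] at himg
  rw [← himg, Finset.prod_image]
  intro i hi j hj hij
  apply pow_injOn_Iio_orderOf (x := σ)
  · simpa [hord] using hi
  · simpa [hord] using hj
  · exact hij

end numberfield

/-- **Hilbert's Theorem 92** for a cyclic extension `L/K` of odd prime degree `p` of number fields
containing the `p`-th roots of unity: there is a unit of `L` of relative norm `1` which is not of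
the form `σ ε / ε` for a unit `ε`. -/
theorem hilbert92 {p : ℕ} [hp : Fact p.Prime] (hp2 : p ≠ 2) {K L : Type*} [Field K]
    [NumberField K] [Field L] [NumberField L] [Algebra K L] [IsGalois K L]
    (hdeg : Module.finrank K L = p) (σ : L ≃ₐ[K] L)
    (hσ : ∀ τ : L ≃ₐ[K] L, τ ∈ Subgroup.zpowers σ) {ζ : K} (hζ : IsPrimitiveRoot ζ p) :
    ∃ η : (𝓞 L)ˣ, Algebra.norm K ((η : 𝓞 L) : L) = 1 ∧
      ∀ ε : (𝓞 L)ˣ, ((η : 𝓞 L) : L) ≠ σ ((ε : 𝓞 L) : L) / ((ε : 𝓞 L) : L) := by
  have hp0 : p ≠ 0 := hp.out.ne_zero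
  set s := unitsAut σ with hs
  -- `σ ^ p = 1`
  have hcard : Nat.card (L ≃ₐ[K] L) = p := by rw [IsGalois.card_aut_eq_finrank, hdeg]
  have hσp : σ ^ p = 1 := by rw [← hcard]; exact pow_card_eq_one'
  have hsp : ∀ x, s^[p] x = x := by
    intro x
    apply units_coe_ext
    rw [coe_unitsAut_iterate, hσp, AlgEquiv.one_apply]
  -- `ζ` in `L`
  have hζL : IsPrimitiveRoot (algebraMap K L ζ) p :=
    hζ.map_of_injective (algebraMap K L).injective
  -- `p`-th roots of unity of `L` are fixed by `σ`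
  have hfix : ∀ x : L, x ^ p = 1 → σ x = x := by
    intro x hx
    have : NeZero p := ⟨hp0⟩
    obtain ⟨i, -, rfl⟩ := hζL.eq_pow_of_pow_eq_one hx
    rw [map_pow, AlgEquiv.commutes]
  -- the unit `ζ`
  obtain ⟨u, hu⟩ := hζL.toInteger_isPrimitiveRoot.isUnit hp0
  have hprim : IsPrimitiveRoot u p := by
    rw [← IsPrimitiveRoot.coe_units_iff, hu]
    exact hζL.toInteger_isPrimitiveRoot
  -- hypotheses of the abstract lemma
  have hND : ∀ x, normHom p s (divHom s x) = 1 := by
    intro x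
    rw [divHom_apply, map_div, normHom_map p s hsp, div_self']
  have hDN : ∀ x, divHom s (normHom p s x) = 1 := by
    intro x
    rw [divHom_apply, map_normHom p s hsp, div_self']
  have hNF : ∀ x, divHom s x = 1 → normHom p s x = x ^ p := by
    intro x hx
    rw [divHom_apply, div_eq_one] at hx
    exact normHom_of_fixed p s x hx
  have hT : ∀ x, x ^ p = 1 → divHom s x = 1 := by
    intro x hx
    rw [divHom_apply, div_eq_one]
    apply units_coe_ext
    rw [hs, coe_unitsAut]
    apply hfix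
    have := congrArg (unitsCoeHom L) hx
    simpa [unitsCoeHom_apply] using this
  have hDM : ∀ x, normHom p s x = 1 →
      ∃ y, normHom p s y = 1 ∧ (divHom s)^[p - 1] x = y ^ p := by
    intro x hx
    exact exists_pow_eq_iterate_of_prod_eq_one p s x hx
  have hζ1 : u ≠ 1 := hprim.ne_one hp.out.one_lt
  have hζp : u ^ p = 1 := hprim.pow_eq_one
  have hidxL := index_powMonoidHom_range_units L p hζL
  rw [rank_add_one_eq_mul hp2 hdeg hζ] at hidxL
  have hX : (powMonoidHom p : (𝓞 L)ˣ →* (𝓞 L)ˣ).range.index ≠ 0 := by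
    rw [hidxL]
    exact pow_ne_zero _ hp0
  have hXge : p ^ (p * (NumberField.Units.rank K + 1)) ≤
      (powMonoidHom p : (𝓞 L)ˣ →* (𝓞 L)ˣ).range.index := hidxL.ge
  -- the fixed units
  let f : (𝓞 K)ˣ →* (𝓞 L)ˣ := Units.map (algebraMap (𝓞 K) (𝓞 L) : 𝓞 K →* 𝓞 L)
  have hker : (divHom s).ker = Subgroup.map f ⊤ := by
    ext x
    simp only [MonoidHom.mem_ker, divHom_apply, div_eq_one, Subgroup.mem_map, Subgroup.mem_top,
      true_and]
    constructor
    · intro hx
      have hx' : σ ((x : 𝓞 L) : L) = ((x : 𝓞 L) : L) := by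
        rw [← coe_unitsAut, ← hs, hx]
      exact exists_unit_of_fixed σ hσ x hx'
    · rintro ⟨e, rfl⟩
      apply units_coe_ext
      rw [hs, coe_unitsAut]
      exact AlgEquiv.commutes σ ((e : 𝓞 K) : K)
  have hkerp : ((divHom s).ker).map (powMonoidHom p) =
      Subgroup.map f (powMonoidHom p : (𝓞 K)ˣ →* (𝓞 K)ˣ).range := by
    rw [hker, MonoidHom.range_eq_map, Subgroup.map_map, Subgroup.map_map]
    congr 1
    ext x
    simp
  have hidxK := index_powMonoidHom_range_units K p hζ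
  have hF := relIndex_map_map_le f
    (A := (powMonoidHom p : (𝓞 K)ˣ →* (𝓞 K)ˣ).range) (B := ⊤) le_top
    (by rw [Subgroup.relIndex_top_right, hidxK]; exact pow_ne_zero _ hp0)
  rw [Subgroup.relIndex_top_right, hidxK, ← hker, ← hkerp] at hF
  obtain ⟨η, hη1, hη2⟩ := exists_norm_one_not_range p (divHom s) (normHom p s) u
    (NumberField.Units.rank K + 1) hND hDN hNF hT hDM hζ1 hζp hX hXge hF.2 hF.1
  refine ⟨η, ?_, ?_⟩
  · apply (algebraMap K L).injective
    rw [Algebra.norm_eq_prod_automorphisms, map_one, prod_aut_eq_prod_range hdeg σ hσ]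
    have := congrArg (unitsCoeHom L) hη1
    rw [normHom_apply, map_prod, map_one] at this
    rw [← this]
    refine Finset.prod_congr rfl fun i _ => ?_
    rw [unitsCoeHom_apply, hs, coe_unitsAut_iterate]
  · intro ε hε
    apply hη2 ε
    apply units_coe_ext
    rw [hε, divHom_apply]
    have : unitsCoeHom L (s ε / ε) = unitsCoeHom L (s ε) / unitsCoeHom L ε := map_div _ _ _
    rw [unitsCoeHom_apply, unitsCoeHom_apply, unitsCoeHom_apply] at this
    rw [this, hs, coe_unitsAut]

/-- Variant of `hilbert92` with the other orientation `ε / σ ε`. -/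
theorem hilbert92' {p : ℕ} [hp : Fact p.Prime] (hp2 : p ≠ 2) {K L : Type*} [Field K]
    [NumberField K] [Field L] [NumberField L] [Algebra K L] [IsGalois K L]
    (hdeg : Module.finrank K L = p) (σ : L ≃ₐ[K] L)
    (hσ : ∀ τ : L ≃ₐ[K] L, τ ∈ Subgroup.zpowers σ) {ζ : K} (hζ : IsPrimitiveRoot ζ p) :
    ∃ η : (𝓞 L)ˣ, Algebra.norm K ((η : 𝓞 L) : L) = 1 ∧
      ∀ ε : (𝓞 L)ˣ, ((η : 𝓞 L) : L) ≠ ((ε : 𝓞 L) : L) / σ ((ε : 𝓞 L) : L) := by
  obtain ⟨η, hη1, hη2⟩ := hilbert92 hp2 hdeg σ hσ hζ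
  refine ⟨η, hη1, fun ε hε => hη2 ε⁻¹ ?_⟩
  rw [hε]
  simp only [map_units_inv, map_inv₀, div_eq_mul_inv, inv_inv, mul_comm]

end Fermat.Agent.S11
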