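import Mathlib

/-!
# Hilbert 94 (the part we need)

Let `L/K` be a cyclic extension of number fields whose different ideal is trivial (i.e. `L/K` is
unramified at all finite primes), and assume that `𝓞 K` is a PID.  Then every unit `η` of `𝓞 L` of
relative norm `1` is of the form `ε / σ ε` for a unit `ε` of `𝓞 L`.
-/

namespace Fermat.Agent.S11

open NumberField UniqueFactorizationMonoid

attribute [local instance] FractionRing.liftAlgebra FractionRing.isScalarTower_liftAlgebra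

section Hilbert94

variable {K L : Type} [Field K] [NumberField K] [Field L] [NumberField L] [Algebra K L]

/-- If the different is trivial, all ramification indices are `1`. -/
lemma h94_ramificationIdx_eq_one (hunr : differentIdeal (𝓞 K) (𝓞 L) = ⊤)
    (v : Ideal (𝓞 K)) [v.IsMaximal] (hv : v ≠ ⊥) (w : Ideal (𝓞 L)) [hw : w.IsPrime]
    [w.LiesOver v] : v.ramificationIdx' w = 1 := by
  have h0 : v.ramificationIdx' w ≠ 0 :=
    Ideal.IsDedekindDomain.ramificationIdx'_ne_zero_of_liesOver w hv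
  by_contra h1
  have h2 : 1 ≤ v.ramificationIdx' w - 1 := by omega
  have hdvd : w ^ (v.ramificationIdx' w) ∣ Ideal.map (algebraMap (𝓞 K) (𝓞 L)) v :=
    Ideal.dvd_iff_le.mpr Ideal.le_pow_ramificationIdx'
  have h3 := pow_sub_one_dvd_differentIdeal (𝓞 K) w _ hv hdvd
  rw [hunr, Ideal.dvd_iff_le] at h3
  have h4 : w ^ (v.ramificationIdx' w - 1) ≤ w := by
    calc w ^ (v.ramificationIdx' w - 1) ≤ w ^ 1 := Ideal.pow_le_pow_right h2
      _ = w := pow_one w
  exact hw.ne_top (top_le_iff.mp (h3.trans h4))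

/-- In an unramified extension, if `b ∈ 𝓞 K` generates in `𝓞 L` the `n`-th power of a principal
ideal, then all the prime multiplicities of `(b)` are divisible by `n`. -/
lemma h94_dvd_count (hunr : differentIdeal (𝓞 K) (𝓞 L) = ⊤) {n : ℕ} (b : 𝓞 K) (hb : b ≠ 0)
    (β : 𝓞 L) (hβ : β ≠ 0)
    (h : Ideal.span {algebraMap (𝓞 K) (𝓞 L) b} = Ideal.span {β} ^ n)
    (v : Ideal (𝓞 K)) (hv : v.IsPrime) (hv0 : v ≠ ⊥) :
    n ∣ Multiset.count v (normalizedFactors (Ideal.span {b})) := by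
  classical
  have hvmax : v.IsMaximal := hv.isMaximal hv0
  obtain ⟨w, hwmax, hwv⟩ := Ideal.exists_ideal_over_maximal_of_isIntegral (S := 𝓞 L) v
    (by simp [(RingHom.injective_iff_ker_eq_bot _).mp
      (FaithfulSMul.algebraMap_injective (𝓞 K) (𝓞 L))])
  have hwprime : w.IsPrime := hwmax.isPrime
  have hlies : w.LiesOver v := ⟨hwv.symm⟩
  have hw0 : w ≠ ⊥ := by
    rintro rfl
    apply hv0
    rw [← hwv]
    exact Ideal.comap_bot_of_injective _ (FaithfulSMul.algebraMap_injective (𝓞 K) (𝓞 L))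
  have hI : Ideal.span {b} ≠ (⊥ : Ideal (𝓞 K)) := by simpa using hb
  have hvirr : Irreducible v := (Ideal.prime_of_isPrime hv0 hv).irreducible
  have hwpr : Prime w := Ideal.prime_of_isPrime hw0 hwprime
  have h1 := Ideal.IsDedekindDomain.emultiplicity_map_eq_ramificationIdx'_mul hI hvirr
    hwpr.irreducible hw0
  rw [h94_ramificationIdx_eq_one hunr v hv0 w, Nat.cast_one, one_mul, Ideal.map_span,
    Set.image_singleton, h, emultiplicity_pow hwpr,
    emultiplicity_eq_count_normalizedFactors hvirr hI, normalize_eq] at h1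
  have hfin : FiniteMultiplicity w (Ideal.span {β}) :=
    FiniteMultiplicity.of_prime_left hwpr (by simpa using hβ)
  rw [hfin.emultiplicity_eq_multiplicity] at h1
  exact ⟨multiplicity w (Ideal.span {β}), by exact_mod_cast h1.symm⟩

/-- In a PID, an element all of whose prime multiplicities are divisible by `n` is associated to
an `n`-th power. -/
lemma h94_exists_associated_pow {R : Type} [CommRing R] [IsDedekindDomain R]
    [IsPrincipalIdealRing R] {n : ℕ} (b : R) (hb : b ≠ 0)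
    (h : ∀ v : Ideal R, v.IsPrime → v ≠ ⊥ →
      n ∣ Multiset.count v (normalizedFactors (Ideal.span {b}))) :
    ∃ a : R, Associated b (a ^ n) := by
  classical
  have hI : Ideal.span {b} ≠ (⊥ : Ideal R) := by simpa using hb
  obtain ⟨u, hu⟩ := Multiset.exists_smul_of_dvd_count (normalizedFactors (Ideal.span {b}))
    (k := n) (fun v hv => h v (Ideal.isPrime_of_prime (prime_of_normalized_factor v hv))
      (prime_of_normalized_factor v hv).ne_zero)
  have h1 : Ideal.span {b} = u.prod ^ n := by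
    rw [← Multiset.prod_nsmul, ← hu]
    exact (Ideal.prod_normalizedFactors_eq_self hI).symm
  obtain ⟨a, ha⟩ := (IsPrincipalIdealRing.principal u.prod).principal
  refine ⟨a, ?_⟩
  rw [← Ideal.span_singleton_eq_span_singleton, h1, ha, ← Ideal.span_singleton_pow]

/-- Equality of `n`-th powers of ideals in a Dedekind domain. -/
lemma h94_ideal_pow_inj {R : Type} [CommRing R] [IsDedekindDomain R] {n : ℕ} (hn : n ≠ 0)
    {I J : Ideal R} (h : I ^ n = J ^ n) : I = J := by
  apply le_antisymm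
  · rw [← Ideal.dvd_iff_le, ← UniqueFactorizationMonoid.pow_dvd_pow_iff_dvd hn, h]
  · rw [← Ideal.dvd_iff_le, ← UniqueFactorizationMonoid.pow_dvd_pow_iff_dvd hn, h]

/-- If `η * σ β = β` with `η` a unit, then every Galois conjugate of `β` is associated to `β`. -/
lemma h94_associated_conj (σ : L ≃ₐ[K] L) (hσ : ∀ τ : L ≃ₐ[K] L, τ ∈ Subgroup.zpowers σ)
    (η : (𝓞 L)ˣ) (β : 𝓞 L) (h : (η : 𝓞 L) * galRestrict (𝓞 K) K L (𝓞 L) σ β = β)
    (τ : L ≃ₐ[K] L) : Associated (galRestrict (𝓞 K) K L (𝓞 L) τ β) β := by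
  have hσβ : Associated (galRestrict (𝓞 K) K L (𝓞 L) σ β) β :=
    ⟨η, by rw [mul_comm]; exact h⟩
  let S : Subgroup (L ≃ₐ[K] L) :=
    { carrier := {τ | Associated (galRestrict (𝓞 K) K L (𝓞 L) τ β) β}
      one_mem' := by simp
      mul_mem' := by
        intro a b ha hb
        simp only [Set.mem_ofPred_eq, map_mul] at ha hb ⊢
        exact (hb.map (galRestrict (𝓞 K) K L (𝓞 L) a : 𝓞 L →* 𝓞 L)).trans ha
      inv_mem' := by
        intro a ha
        simp only [Set.mem_ofPred_eq, map_inv] at ha ⊢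
        have := ha.map (((galRestrict (𝓞 K) K L (𝓞 L) a)⁻¹ : 𝓞 L ≃ₐ[𝓞 K] 𝓞 L) : 𝓞 L →* 𝓞 L)
        simpa using this.symm }
  have hS : Subgroup.zpowers σ ≤ S := by
    rw [Subgroup.zpowers_le]
    exact hσβ
  exact hS (hσ τ)

/-- **Hilbert 94** (the statement we need): in an unramified cyclic extension `L/K` of number
fields with `𝓞 K` a PID, every unit of relative norm one is of the form `ε / σ ε` with `ε` a
unit. -/
theorem hilbert94_of_norm_one [IsGalois K L] [IsPrincipalIdealRing (𝓞 K)]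
    (hunr : differentIdeal (𝓞 K) (𝓞 L) = ⊤) (σ : L ≃ₐ[K] L)
    (hσ : ∀ τ : L ≃ₐ[K] L, τ ∈ Subgroup.zpowers σ) (η : (𝓞 L)ˣ)
    (hη : Algebra.norm K ((η : 𝓞 L) : L) = 1) :
    ∃ ε : (𝓞 L)ˣ, ((η : 𝓞 L) : L) = ((ε : 𝓞 L) : L) / σ ((ε : 𝓞 L) : L) := by
  classical
  have hcyc : IsCyclic (L ≃ₐ[K] L) := ⟨σ, hσ⟩
  obtain ⟨β, hβ0, hβ⟩ := groupCohomology.exists_mul_galRestrict_of_norm_eq_one
    (A := 𝓞 K) (B := 𝓞 L) hσ hη
  set n := Fintype.card (L ≃ₐ[K] L) with hn
  have hn0 : n ≠ 0 := Fintype.card_ne_zero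
  set b := Algebra.intNorm (𝓞 K) (𝓞 L) β with hb
  have hb0 : b ≠ 0 := by
    rw [hb, Algebra.intNorm_ne_zero]
    exact hβ0
  have hprod : algebraMap (𝓞 K) (𝓞 L) b =
      ∏ τ : L ≃ₐ[K] L, galRestrict (𝓞 K) K L (𝓞 L) τ β := by
    apply FaithfulSMul.algebraMap_injective (𝓞 L) L
    rw [← IsScalarTower.algebraMap_apply, IsScalarTower.algebraMap_apply (𝓞 K) K L,
      Algebra.algebraMap_intNorm (L := L), Algebra.norm_eq_prod_automorphisms, map_prod]
    simp [algebraMap_galRestrict_apply]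
  have hassoc : Associated (algebraMap (𝓞 K) (𝓞 L) b) (β ^ n) := by
    rw [hprod, hn, ← Finset.card_univ, ← Finset.prod_const]
    exact Associated.prod _ _ _ (fun τ _ => h94_associated_conj σ hσ η β hβ τ)
  have hspan : Ideal.span {algebraMap (𝓞 K) (𝓞 L) b} = Ideal.span {β} ^ n := by
    rw [Ideal.span_singleton_pow, Ideal.span_singleton_eq_span_singleton]
    exact hassoc
  obtain ⟨a, ha⟩ := h94_exists_associated_pow (n := n) b hb0
    (fun v hv hv0 => h94_dvd_count hunr b hb0 β hβ0 hspan v hv hv0)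
  have ha0 : a ≠ 0 := by
    rintro rfl
    rw [zero_pow hn0] at ha
    exact hb0 (by simpa using ha)
  have hspan2 : Ideal.span {algebraMap (𝓞 K) (𝓞 L) a} ^ n = Ideal.span {β} ^ n := by
    rw [← hspan, Ideal.span_singleton_pow, Ideal.span_singleton_eq_span_singleton, ← map_pow]
    exact (ha.map (algebraMap (𝓞 K) (𝓞 L) : 𝓞 K →* 𝓞 L)).symm
  have hspan3 := h94_ideal_pow_inj hn0 hspan2
  rw [Ideal.span_singleton_eq_span_singleton] at hspan3
  obtain ⟨ε, hε⟩ := hspan3
  refine ⟨ε, ?_⟩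
  have hσa : galRestrict (𝓞 K) K L (𝓞 L) σ (algebraMap (𝓞 K) (𝓞 L) a) =
      algebraMap (𝓞 K) (𝓞 L) a := AlgEquiv.commutes _ _
  have ha0' : algebraMap (𝓞 K) (𝓞 L) a ≠ 0 := by
    intro h0
    exact ha0 (FaithfulSMul.algebraMap_injective (𝓞 K) (𝓞 L) (by simpa using h0))
  have h1 : (η : 𝓞 L) * galRestrict (𝓞 K) K L (𝓞 L) σ (ε : 𝓞 L) = (ε : 𝓞 L) := by
    rw [← hε, map_mul, hσa] at hβ
    apply mul_left_cancel₀ ha0'
    rw [← hβ]
    ring
  have h2 : ((η : 𝓞 L) : L) * σ ((ε : 𝓞 L) : L) = ((ε : 𝓞 L) : L) := by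
    have := congrArg (algebraMap (𝓞 L) L) h1
    rwa [map_mul, algebraMap_galRestrict_apply] at this
  have h3 : σ ((ε : 𝓞 L) : L) ≠ 0 := by
    rw [Ne, map_eq_zero_iff _ σ.injective]
    exact fun h0 => ε.ne_zero (by exact_mod_cast h0)
  rw [eq_div_iff h3, h2]

end Hilbert94

end Fermat.Agent.S11
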