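import Mathlib

/-!
# S11 / K2a: the Kummer extension `K(u^(1/p))/K` is unramified

`K = ℚ(ζ_p)`, `p` an odd prime, `u` a unit of `𝓞 K` congruent to a rational integer modulo `p`,
`L = K(α)` with `α ^ p = u`.  Then the different ideal of `𝓞 L / 𝓞 K` is `⊤`, hence every prime of
`𝓞 L` is unramified over `𝓞 K`.

Proof: replace `u` by `v = u ^ (p - 1)`, which is `≡ 1 mod (ζ - 1) ^ p` (norm trick), and `α` by
`γ = α ^ (p - 1)`.  Then `β = (γ - 1) / (ζ - 1)` is a root of the monic integral polynomial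
`g = ((1 + (ζ - 1) X) ^ p - v) / (ζ - 1) ^ p`, generates `L`, and `g'(β) = ε γ ^ (p - 1)` is a unit
(`p = ε (ζ - 1) ^ (p - 1)`), and `g'(β)` lies in the different ideal.
-/

open NumberField Polynomial

namespace Fermat.Agent.S11

/-- If `x : 𝓞 L` generates `L` over `K` and is a root of `g ∈ (𝓞 K)[X]`, then `g'(x)` lies in the
different ideal. -/
theorem unramified_aeval_derivative_mem_differentIdeal
    {K L : Type*} [Field K] [NumberField K] [Field L] [NumberField L] [Algebra K L]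
    (x : 𝓞 L) (hx : Algebra.adjoin K {(x : L)} = ⊤) (g : (𝓞 K)[X]) (hg : aeval x g = 0) :
    aeval x (derivative g) ∈ differentIdeal (𝓞 K) (𝓞 L) := by
  have hint : IsIntegral (𝓞 K) x := Algebra.IsIntegral.isIntegral x
  obtain ⟨h, rfl⟩ := minpoly.isIntegrallyClosed_dvd hint hg
  rw [derivative_mul, map_add, map_mul, map_mul, minpoly.aeval, zero_mul, add_zero]
  exact Ideal.mul_mem_right _ _ (aeval_derivative_mem_differentIdeal (𝓞 K) K L x hx)

theorem unramified_coeff_aux {A : Type*} [CommRing A] (p : ℕ) (π v : A) (k : ℕ) :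
    ((1 + C π * X) ^ p - C v).coeff k = (p.choose k : A) * π ^ k - if k = 0 then v else 0 := by
  have h1 : (1 + C π * X) ^ p = ((1 + X) ^ p).comp (C π * X) := by
    simp [Polynomial.pow_comp, Polynomial.add_comp]
  rw [coeff_sub, h1, comp_C_mul_X_coeff, coeff_one_add_X_pow, coeff_C]

/-- Key polynomial: `((1 + π X)^p - v) / π^p` is a monic polynomial with coefficients in `A`. -/
theorem unramified_exists_poly {A : Type*} [CommRing A] [IsDomain A] {p : ℕ} (hp : p.Prime)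
    (π ε v d : A) (hπ : π ≠ 0) (hpe : (p : A) = ε * π ^ (p - 1)) (hv : v - 1 = d * π ^ p) :
    ∃ g : A[X], g.Monic ∧ C (π ^ p) * g = (1 + C π * X) ^ p - C v := by
  have hπp : π ^ p ≠ 0 := pow_ne_zero _ hπ
  have hdvd : C (π ^ p) ∣ (1 + C π * X) ^ p - C v := by
    rw [C_dvd_iff_dvd_coeff]
    intro k
    rw [unramified_coeff_aux]
    rcases Nat.eq_zero_or_pos k with rfl | hk
    · refine ⟨-d, ?_⟩
      simp only [Nat.choose_zero_right, Nat.cast_one, pow_zero, mul_one, if_true]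
      linear_combination -hv
    · rw [if_neg hk.ne', sub_zero]
      rcases lt_trichotomy k p with hlt | rfl | hgt
      · obtain ⟨m, hm⟩ := hp.dvd_choose_self hk.ne' hlt
        refine ⟨(m : A) * ε * π ^ (k - 1), ?_⟩
        rw [hm, Nat.cast_mul, hpe]
        have e1 : π ^ p = π ^ (p - 1) * π := by
          rw [← pow_succ, Nat.sub_add_cancel hp.one_le]
        have e2 : π ^ k = π ^ (k - 1) * π := by
          rw [← pow_succ, Nat.sub_add_cancel hk]
        rw [e1, e2]; ring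
      · simp
      · simp [Nat.choose_eq_zero_of_lt hgt]
  obtain ⟨g, hg⟩ := hdvd
  refine ⟨g, ?_, hg.symm⟩
  have hc : ∀ k, π ^ p * g.coeff k = (p.choose k : A) * π ^ k - if k = 0 then v else 0 := by
    intro k
    rw [← coeff_C_mul, ← hg, unramified_coeff_aux]
  apply monic_of_natDegree_le_of_coeff_eq_one p
  · rw [natDegree_le_iff_coeff_eq_zero]
    intro k hk
    have := hc k
    rw [Nat.choose_eq_zero_of_lt hk, if_neg (by omega)] at this
    simpa [hπp] using this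
  · have := hc p
    rw [Nat.choose_self, if_neg hp.ne_zero, Nat.cast_one, one_mul, sub_zero] at this
    exact mul_left_cancel₀ hπp (this.trans (mul_one _).symm)

theorem unramified_differentIdeal_eq_top_core
    {K L : Type*} [Field K] [NumberField K] [Field L] [NumberField L] [Algebra K L]
    {p : ℕ} (hp : p.Prime) (π : 𝓞 K) (ε v : (𝓞 K)ˣ) (d : 𝓞 K) (hπ : π ≠ 0)
    (hpe : (p : 𝓞 K) = ε * π ^ (p - 1)) (hv : (v : 𝓞 K) - 1 = d * π ^ p)
    (γ : L) (hγ : γ ^ p = algebraMap (𝓞 K) L v) (hγtop : Algebra.adjoin K {γ} = ⊤) :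
    differentIdeal (𝓞 K) (𝓞 L) = ⊤ := by
  obtain ⟨g, hgm, hg⟩ := unramified_exists_poly hp π ε v d hπ hpe hv
  have hinj : Function.Injective (algebraMap (𝓞 K) L) :=
    FaithfulSMul.algebraMap_injective (𝓞 K) L
  have hinjL : Function.Injective (algebraMap (𝓞 L) L) :=
    FaithfulSMul.algebraMap_injective (𝓞 L) L
  set πL : L := algebraMap (𝓞 K) L π with hπL
  have hπL0 : πL ≠ 0 := by
    rw [hπL, Ne, map_eq_zero_iff _ hinj]; exact hπ
  set β : L := (γ - 1) / πL with hβ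
  have hπβ : πL * β = γ - 1 := by rw [hβ]; field_simp
  have hγβ : 1 + πL * β = γ := by rw [hπβ]; ring
  -- β is a root of g
  have hgβ : aeval β g = 0 := by
    have h1 : aeval β (C (π ^ p) * g) = 0 := by
      rw [hg]
      simp only [map_sub, map_pow, map_add, map_one, map_mul, aeval_C, aeval_X]
      rw [← hπL, hγβ, hγ, sub_self]
    rw [map_mul, aeval_C, map_pow] at h1
    exact (mul_eq_zero.mp h1).resolve_left (pow_ne_zero _ hπL0)
  have hβint : IsIntegral (𝓞 K) β := ⟨g, hgm, by rwa [← aeval_def]⟩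
  obtain ⟨x, hx⟩ := (IsIntegralClosure.isIntegral_iff (A := 𝓞 L)).mp hβint
  have hx0 : aeval x g = 0 := by
    apply hinjL
    rw [← aeval_algebraMap_apply, hx, hgβ, map_zero]
  have hxtop : Algebra.adjoin K {(x : L)} = ⊤ := by
    rw [eq_top_iff, ← hγtop]
    apply Algebra.adjoin_le
    rintro _ rfl
    have hxβ : (x : L) = β := hx
    rw [SetLike.mem_coe, ← hγβ, hxβ]
    refine Subalgebra.add_mem _ (Subalgebra.one_mem _) (Subalgebra.mul_mem _ ?_
      (Algebra.self_mem_adjoin_singleton K β))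
    rw [hπL, IsScalarTower.algebraMap_apply (𝓞 K) K L]
    exact Subalgebra.algebraMap_mem _ _
  have hmem := unramified_aeval_derivative_mem_differentIdeal x hxtop g hx0
  -- γ as a unit of 𝓞 L
  set y : 𝓞 L := 1 + algebraMap (𝓞 K) (𝓞 L) π * x with hy
  have hyγ : algebraMap (𝓞 L) L y = γ := by
    rw [hy, map_add, map_one, map_mul, hx, ← IsScalarTower.algebraMap_apply, ← hπL, hγβ]
  have hyp : y ^ p = algebraMap (𝓞 K) (𝓞 L) v := by
    apply hinjL
    rw [map_pow, hyγ, hγ, ← IsScalarTower.algebraMap_apply]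
  have hyu : IsUnit y := by
    rw [← isUnit_pow_iff hp.ne_zero, hyp]
    exact v.isUnit.map _
  -- value of g'(x)
  have hval : aeval x (derivative g) = algebraMap (𝓞 K) (𝓞 L) ε * y ^ (p - 1) := by
    apply hinjL
    have h2 : aeval β (derivative (C (π ^ p) * g)) = πL ^ p *
        (algebraMap (𝓞 K) L ε * γ ^ (p - 1)) := by
      rw [hg]
      simp only [derivative_sub, derivative_C, sub_zero, derivative_pow,
        derivative_one, zero_add, derivative_mul, derivative_X, mul_one, zero_mul,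
        map_mul, map_pow, map_add, map_one, aeval_C, aeval_X, map_natCast]
      rw [← hπL, hγβ]
      have h4 : (p : L) = algebraMap (𝓞 K) L ε * πL ^ (p - 1) := by
        rw [hπL, ← map_pow, ← map_mul, ← hpe, map_natCast]
      rw [h4]
      have e1 : πL ^ p = πL ^ (p - 1) * πL := by
        rw [← pow_succ, Nat.sub_add_cancel hp.one_le]
      rw [e1]; ring
    rw [derivative_mul, derivative_C, zero_mul, zero_add, map_mul, aeval_C, map_pow] at h2
    have h5 := mul_left_cancel₀ (pow_ne_zero p hπL0) h2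
    rw [← aeval_algebraMap_apply, hx, h5, map_mul, map_pow, hyγ,
      ← IsScalarTower.algebraMap_apply]
  rw [hval] at hmem
  exact Ideal.eq_top_of_isUnit_mem _ hmem ((ε.isUnit.map _).mul (hyu.pow _))

attribute [local instance] FractionRing.liftAlgebra FractionRing.isScalarTower_liftAlgebra in
theorem unramified_isUnramifiedAt_of_differentIdeal_eq_top
    {K L : Type*} [Field K] [NumberField K] [Field L] [NumberField L] [Algebra K L]
    (h : differentIdeal (𝓞 K) (𝓞 L) = ⊤) (P : Ideal (𝓞 L)) [P.IsPrime] :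
    Algebra.IsUnramifiedAt (𝓞 K) P := by
  rw [← not_dvd_differentIdeal_iff, h, Ideal.dvd_iff_le, top_le_iff]
  exact Ideal.IsPrime.ne_top'


section Cyclo
variable {p : ℕ} [hp : Fact p.Prime] {K : Type*} [Field K] [NumberField K]
  [IsCyclotomicExtension {p} ℚ K] {ζ : K} (hζ : IsPrimitiveRoot ζ p)

include hζ in
theorem unramified_exists_int_sub_dvd (t : 𝓞 K) :
    ∃ t₀ : ℤ, hζ.toInteger - 1 ∣ t - (t₀ : 𝓞 K) := by
  obtain ⟨f, hf⟩ := hζ.integralPowerBasis.exists_eq_aeval' t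
  rw [hζ.integralPowerBasis_gen] at hf
  refine ⟨f.eval 1, ?_⟩
  have h := Polynomial.sub_dvd_eval_sub hζ.toInteger 1 (f.map (algebraMap ℤ (𝓞 K)))
  rwa [eval_map_algebraMap, ← hf, eval_one_map, eq_intCast] at h

omit [IsCyclotomicExtension {p} ℚ K] in
include hζ in
theorem unramified_dvd_trace_mul (s : 𝓞 K) :
    (p : ℤ) ∣ Algebra.trace ℤ (𝓞 K) ((hζ.toInteger - 1) * s) := by
  have hmax : (Ideal.span {(p : ℤ)}).IsMaximal := Int.ideal_span_isMaximal_of_prime p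
  have h := Algebra.trace_quotient_eq_of_isDedekindDomain (R := ℤ) (S := 𝓞 K)
    (Ideal.span {(p : ℤ)}) ((hζ.toInteger - 1) * s)
  rw [Algebra.intTrace_eq_trace] at h
  have hnil : IsNilpotent (Ideal.Quotient.mk ((Ideal.span {(p : ℤ)}).map (algebraMap ℤ (𝓞 K)))
      ((hζ.toInteger - 1) * s)) := by
    refine ⟨p - 1, ?_⟩
    rw [← map_pow, Ideal.Quotient.eq_zero_iff_mem, mul_pow, Ideal.map_span, Set.image_singleton,
      Ideal.mem_span_singleton]
    refine Dvd.dvd.mul_right ?_ _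
    rw [eq_intCast, Int.cast_natCast]
    exact (IsCyclotomicExtension.Rat.associated_zeta_sub_one_pow_prime p hζ).symm.dvd
  have hnil2 := Algebra.isNilpotent_trace_of_isNilpotent (R := ℤ ⧸ Ideal.span {(p : ℤ)}) hnil
  rw [h] at hnil2
  have := hnil2.eq_zero
  rwa [Ideal.Quotient.eq_zero_iff_mem, Ideal.mem_span_singleton] at this

include hζ in
/-- If `p ∣ Tr(t)` then `ζ - 1 ∣ t`... -/
theorem unramified_dvd_of_dvd_trace (t : 𝓞 K) (ht : (p : ℤ) ∣ Algebra.trace ℤ (𝓞 K) t) :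
    hζ.toInteger - 1 ∣ t := by
  obtain ⟨t₀, s, hs⟩ := unramified_exists_int_sub_dvd hζ t
  have ht' : t = algebraMap ℤ (𝓞 K) t₀ + (hζ.toInteger - 1) * s := by
    rw [← hs, eq_intCast]; ring
  have h1 := unramified_dvd_trace_mul hζ s
  rw [ht', map_add, Algebra.trace_algebraMap, RingOfIntegers.rank,
    IsCyclotomicExtension.Rat.finrank p K, Nat.totient_prime hp.out] at ht
  have h2 : (p : ℤ) ∣ (p - 1) • t₀ := (Int.dvd_add_left h1).mp ht
  have h3 : (p : ℤ) ∣ t₀ := by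
    rw [nsmul_eq_mul, Nat.cast_sub hp.out.one_le, Nat.cast_one] at h2
    have : (p : ℤ) ∣ (p : ℤ) * t₀ - ((p : ℤ) - 1) * t₀ := Dvd.dvd.sub (Dvd.intro _ rfl) h2
    have e : (p : ℤ) * t₀ - ((p : ℤ) - 1) * t₀ = t₀ := by ring
    rwa [e] at this
  rw [ht']
  refine dvd_add ?_ (Dvd.intro _ rfl)
  rw [eq_intCast]
  exact (IsCyclotomicExtension.Rat.zeta_sub_one_dvd_intCast_iff' p hζ).mpr h3

include hζ in
theorem unramified_pow_sub_one_dvd (hp2 : p ≠ 2) (u : (𝓞 K)ˣ) (n : ℤ)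
    (hun : (p : 𝓞 K) ∣ (u : 𝓞 K) - n) :
    (hζ.toInteger - 1) ^ p ∣ ((u ^ (p - 1) : (𝓞 K)ˣ) : 𝓞 K) - 1 := by
  have hπprime : Prime (hζ.toInteger - 1) := hζ.zeta_sub_one_prime'
  have hπp : hζ.toInteger - 1 ∣ (p : 𝓞 K) := hζ.toInteger_sub_one_dvd_prime'
  -- p does not divide n
  have hpn : ¬ (p : ℤ) ∣ n := by
    intro hpn
    have h1 : hζ.toInteger - 1 ∣ (n : 𝓞 K) :=
      (IsCyclotomicExtension.Rat.zeta_sub_one_dvd_intCast_iff' p hζ).mpr hpn
    have h2 : hζ.toInteger - 1 ∣ (u : 𝓞 K) := by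
      have := dvd_add (hπp.trans hun) h1
      rwa [sub_add_cancel] at this
    exact hπprime.not_isUnit (isUnit_of_dvd_unit h2 u.isUnit)
  have hcop : IsCoprime n (p : ℤ) :=
    ((Nat.prime_iff_prime_int.mp hp.out).coprime_iff_not_dvd.mpr hpn).symm
  have hfermat : (p : ℤ) ∣ n ^ (p - 1) - 1 :=
    (Int.modEq_iff_dvd.mp (Int.ModEq.pow_card_sub_one_eq_one hp.out hcop).symm)
  -- u^(p-1) = 1 + p t
  obtain ⟨t, ht⟩ : ∃ t : 𝓞 K, ((u ^ (p - 1) : (𝓞 K)ˣ) : 𝓞 K) = 1 + (p : ℤ) • t := by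
    have h1 : (p : 𝓞 K) ∣ (u : 𝓞 K) ^ (p - 1) - (n : 𝓞 K) ^ (p - 1) :=
      hun.trans (sub_dvd_pow_sub_pow _ _ _)
    have h2 : (p : 𝓞 K) ∣ (n : 𝓞 K) ^ (p - 1) - 1 := by
      have := (Int.castRingHom (𝓞 K)).map_dvd hfermat
      simpa using this
    obtain ⟨t, ht⟩ := dvd_add h1 h2
    refine ⟨t, ?_⟩
    rw [Units.val_pow_eq_pow_val, zsmul_eq_mul, Int.cast_natCast, ← ht]; ring
  -- norm
  have hnorm : Algebra.norm ℤ ((u ^ (p - 1) : (𝓞 K)ˣ) : 𝓞 K) = 1 := by
    rw [Units.val_pow_eq_pow_val, map_pow]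
    have hu : IsUnit (Algebra.norm ℤ (u : 𝓞 K)) := u.isUnit.map (Algebra.norm ℤ)
    rcases Int.isUnit_iff.mp hu with h | h
    · rw [h, one_pow]
    · rw [h, (hp.out.even_sub_one hp2).neg_one_pow]
  obtain ⟨r, hr⟩ := Algebra.norm_one_add_smul (p : ℤ) t
  rw [← ht, hnorm] at hr
  have hp0 : (p : ℤ) ≠ 0 := by exact_mod_cast hp.out.ne_zero
  have htr : (p : ℤ) ∣ Algebra.trace ℤ (𝓞 K) t := by
    refine ⟨-r, ?_⟩
    have : (Algebra.trace ℤ (𝓞 K) t + r * p) * p = 0 := by linear_combination -hr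
    have := (mul_eq_zero.mp this).resolve_right hp0
    linear_combination this
  obtain ⟨s, hs⟩ := unramified_dvd_of_dvd_trace hζ t htr
  obtain ⟨w, hw⟩ := IsCyclotomicExtension.Rat.associated_zeta_sub_one_pow_prime p hζ
  refine ⟨w * s, ?_⟩
  rw [ht, zsmul_eq_mul, Int.cast_natCast, ← hw, hs]
  have e1 : (hζ.toInteger - 1) ^ p = (hζ.toInteger - 1) ^ (p - 1) * (hζ.toInteger - 1) := by
    rw [← pow_succ, Nat.sub_add_cancel hp.out.one_le]
  rw [e1]; ring


/-- **K2a, main form.**  `K = ℚ(ζ_p)`, `p` odd, `u` a unit of `𝓞 K` congruent to a rational integer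
modulo `p`, and `L = K(α)` with `α ^ p = u`: the different ideal of `𝓞 L` over `𝓞 K` is trivial. -/
theorem differentIdeal_eq_top_of_kummer (hp2 : p ≠ 2)
    {L : Type*} [Field L] [NumberField L] [Algebra K L]
    (u : (𝓞 K)ˣ) (n : ℤ) (hun : (p : 𝓞 K) ∣ (u : 𝓞 K) - n)
    (α : L) (hα : α ^ p = algebraMap K L ((u : 𝓞 K) : K))
    (hαtop : Algebra.adjoin K {α} = ⊤) :
    differentIdeal (𝓞 K) (𝓞 L) = ⊤ := by
  have hζ := IsCyclotomicExtension.zeta_spec p ℚ K
  obtain ⟨d, hd⟩ := unramified_pow_sub_one_dvd hζ hp2 u n hun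
  obtain ⟨ε, hε⟩ := IsCyclotomicExtension.Rat.associated_zeta_sub_one_pow_prime p hζ
  have hπ : hζ.toInteger - 1 ≠ 0 := hζ.zeta_sub_one_prime'.ne_zero
  have hαL : α ^ p = algebraMap (𝓞 K) L (u : 𝓞 K) := by
    rw [hα, ← IsScalarTower.algebraMap_apply]
  have huL0 : algebraMap (𝓞 K) L (u : 𝓞 K) ≠ 0 :=
    (u.isUnit.map (algebraMap (𝓞 K) L)).ne_zero
  have hα0 : α ≠ 0 := by
    rintro rfl
    rw [zero_pow hp.out.ne_zero] at hαL
    exact huL0 hαL.symm
  have hγ : (α ^ (p - 1)) ^ p = algebraMap (𝓞 K) L ((u ^ (p - 1) : (𝓞 K)ˣ) : 𝓞 K) := by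
    rw [Units.val_pow_eq_pow_val, map_pow, ← hαL, ← pow_mul, ← pow_mul, mul_comm]
  refine unramified_differentIdeal_eq_top_core hp.out (hζ.toInteger - 1) ε (u ^ (p - 1)) d hπ
    (by rw [← hε]; ring) (by rw [hd]; ring) (α ^ (p - 1)) hγ ?_
  -- `α ∈ K[α^(p-1)]`
  rw [eq_top_iff, ← hαtop]
  apply Algebra.adjoin_le
  rintro x (hx : x = α)
  rw [SetLike.mem_coe, hx]
  have hγ0 : α ^ (p - 1) ≠ 0 := pow_ne_zero _ hα0
  have hαγ : α * α ^ (p - 1) = algebraMap K L ((u : 𝓞 K) : K) := by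
    rw [← pow_succ', Nat.sub_add_cancel hp.out.one_le, hα]
  have hvK0 : (((u ^ (p - 1) : (𝓞 K)ˣ) : 𝓞 K) : K) ≠ 0 := by
    have := ((u ^ (p - 1)).isUnit.map (algebraMap (𝓞 K) K)).ne_zero
    exact this
  have hγ' : (α ^ (p - 1)) ^ p = algebraMap K L (((u ^ (p - 1) : (𝓞 K)ˣ) : 𝓞 K) : K) := by
    rw [hγ, ← IsScalarTower.algebraMap_apply]
  have key : α = algebraMap K L (((u : 𝓞 K) : K) * (((u ^ (p - 1) : (𝓞 K)ˣ) : 𝓞 K) : K)⁻¹) *
      (α ^ (p - 1)) ^ (p - 1) := by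
    have h1 : (α ^ (p - 1)) ^ p = (α ^ (p - 1)) ^ (p - 1) * α ^ (p - 1) := by
      rw [← pow_succ, Nat.sub_add_cancel hp.out.one_le]
    have hvL0 : algebraMap K L (((u ^ (p - 1) : (𝓞 K)ˣ) : 𝓞 K) : K) ≠ 0 := by
      rw [Ne, map_eq_zero]; exact hvK0
    apply mul_right_cancel₀ hγ0
    rw [hαγ, mul_assoc, ← h1, hγ', map_mul, map_inv₀, mul_assoc, inv_mul_cancel₀ hvL0, mul_one]
  have hmem : algebraMap K L (((u : 𝓞 K) : K) * (((u ^ (p - 1) : (𝓞 K)ˣ) : 𝓞 K) : K)⁻¹) *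
      (α ^ (p - 1)) ^ (p - 1) ∈ Algebra.adjoin K {α ^ (p - 1)} :=
    Subalgebra.mul_mem _ (Subalgebra.algebraMap_mem _ _)
      (Subalgebra.pow_mem _ (Algebra.self_mem_adjoin_singleton K _) _)
  rwa [← key] at hmem

/-- Variant of `differentIdeal_eq_top_of_kummer` with `K⟮α⟯ = ⊤` (intermediate field). -/
theorem differentIdeal_eq_top_of_kummer' (hp2 : p ≠ 2)
    {L : Type*} [Field L] [NumberField L] [Algebra K L]
    (u : (𝓞 K)ˣ) (n : ℤ) (hun : (p : 𝓞 K) ∣ (u : 𝓞 K) - n)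
    (α : L) (hα : α ^ p = algebraMap K L ((u : 𝓞 K) : K))
    (hαtop : IntermediateField.adjoin K {α} = ⊤) :
    differentIdeal (𝓞 K) (𝓞 L) = ⊤ := by
  refine differentIdeal_eq_top_of_kummer hp2 u n hun α hα ?_
  have halg : IsAlgebraic K α := Algebra.IsAlgebraic.isAlgebraic α
  rw [← IntermediateField.adjoin_simple_toSubalgebra_of_isAlgebraic halg, hαtop,
    IntermediateField.top_toSubalgebra]

/-- **K2a, unramified form.**  Every prime of `𝓞 L` is unramified over `𝓞 K`. -/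
theorem isUnramifiedAt_of_kummer (hp2 : p ≠ 2)
    {L : Type*} [Field L] [NumberField L] [Algebra K L]
    (u : (𝓞 K)ˣ) (n : ℤ) (hun : (p : 𝓞 K) ∣ (u : 𝓞 K) - n)
    (α : L) (hα : α ^ p = algebraMap K L ((u : 𝓞 K) : K))
    (hαtop : IntermediateField.adjoin K {α} = ⊤) (P : Ideal (𝓞 L)) [P.IsPrime] :
    Algebra.IsUnramifiedAt (𝓞 K) P :=
  unramified_isUnramifiedAt_of_differentIdeal_eq_top
    (differentIdeal_eq_top_of_kummer' hp2 u n hun α hα hαtop) P

end Cyclo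

universe u
/-- **K2a, packaged form.** -/
theorem exists_unramified_cyclic_extension_of_kummer {p : ℕ} [hp : Fact p.Prime]
    {K : Type u} [Field K] [NumberField K] [IsCyclotomicExtension {p} ℚ K] (hp2 : p ≠ 2)
    (u : (𝓞 K)ˣ) (n : ℤ) (hun : (p : 𝓞 K) ∣ (u : 𝓞 K) - n) (hu : ∀ v : (𝓞 K)ˣ, u ≠ v ^ p) :
    ∃ (L : Type u) (_ : Field L) (_ : NumberField L) (_ : Algebra K L),
      IsGalois K L ∧ IsCyclic (L ≃ₐ[K] L) ∧ Module.finrank K L = p ∧
      differentIdeal (𝓞 K) (𝓞 L) = ⊤ := by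
  have hζ := IsCyclotomicExtension.zeta_spec p ℚ K
  have hζ' : (primitiveRoots p K).Nonempty :=
    ⟨_, (mem_primitiveRoots hp.out.pos).mpr hζ⟩
  have ha : ∀ b : K, b ^ p ≠ ((u : 𝓞 K) : K) := by
    intro b hb
    have hbint : IsIntegral ℤ b := by
      refine IsIntegral.of_pow hp.out.pos ?_
      rw [hb]
      exact (u : 𝓞 K).2
    set b' : 𝓞 K := ⟨b, hbint⟩ with hb'
    have hb'p : b' ^ p = (u : 𝓞 K) := by
      apply RingOfIntegers.ext
      rw [RingOfIntegers.coe_eq_algebraMap, map_pow]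
      exact hb
    have hunit : IsUnit b' := by
      rw [← isUnit_pow_iff hp.out.ne_zero, hb'p]
      exact u.isUnit
    obtain ⟨v, hv⟩ := hunit
    apply hu v
    apply Units.ext
    rw [Units.val_pow_eq_pow_val, hv, hb'p]
  have H : Irreducible (X ^ p - C ((u : 𝓞 K) : K)) := X_pow_sub_C_irreducible_of_prime hp.out ha
  let L := (X ^ p - C ((u : 𝓞 K) : K)).SplittingField
  have : NumberField L := NumberField.of_module_finite K L
  refine ⟨L, inferInstance, inferInstance, inferInstance,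
    isGalois_of_isSplittingField_X_pow_sub_C hζ' H L,
    isCyclic_of_isSplittingField_X_pow_sub_C hζ' H L,
    finrank_of_isSplittingField_X_pow_sub_C hζ' H L, ?_⟩
  have hα := rootOfSplitsXPowSubC_pow ((u : 𝓞 K) : K) L (n := p)
  exact differentIdeal_eq_top_of_kummer hp2 u n hun _ hα
    (Algebra.adjoin_root_eq_top_of_isSplittingField hζ' H hα)


/-- **K2a, splitting-field form** (interface used by the Kummer-lemma assembly K2d). -/
theorem differentIdeal_eq_top_of_isSplittingField {p : ℕ} [hp : Fact p.Prime]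
    {K : Type*} [Field K] [NumberField K] [IsCyclotomicExtension {p} ℚ K] (hp2 : p ≠ 2)
    {L : Type*} [Field L] [NumberField L] [Algebra K L]
    (u : (𝓞 K)ˣ) (n : ℤ) (hun : (p : 𝓞 K) ∣ (u : 𝓞 K) - n)
    [IsSplittingField K L (X ^ p - C ((u : 𝓞 K) : K))]
    (hu : ∀ b : K, b ^ p ≠ ((u : 𝓞 K) : K)) :
    differentIdeal (𝓞 K) (𝓞 L) = ⊤ := by
  have hζ := IsCyclotomicExtension.zeta_spec p ℚ K
  have hζ' : (primitiveRoots p K).Nonempty :=
    ⟨_, (mem_primitiveRoots hp.out.pos).mpr hζ⟩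
  have H : Irreducible (X ^ p - C ((u : 𝓞 K) : K)) := X_pow_sub_C_irreducible_of_prime hp.out hu
  have hα := rootOfSplitsXPowSubC_pow ((u : 𝓞 K) : K) L (n := p)
  exact differentIdeal_eq_top_of_kummer hp2 u n hun _ hα
    (Algebra.adjoin_root_eq_top_of_isSplittingField hζ' H hα)

/-- K2a-1 (interface name used by K2d): the norm trick. -/
theorem kummer_cong_upgrade {p : ℕ} [Fact p.Prime] (hp2 : p ≠ 2) {K : Type*} [Field K]
    [NumberField K] [IsCyclotomicExtension {p} ℚ K] {ζ : K} (hζ : IsPrimitiveRoot ζ p)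
    (u : (𝓞 K)ˣ) (hcong : ∃ n : ℤ, (p : 𝓞 K) ∣ (u : 𝓞 K) - n) :
    (hζ.toInteger - 1) ^ p ∣ ((u ^ (p - 1) : (𝓞 K)ˣ) : 𝓞 K) - 1 := by
  obtain ⟨n, hn⟩ := hcong
  exact unramified_pow_sub_one_dvd hζ hp2 u n hn

end Fermat.Agent.S11
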