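import Mathlib
import Fermat.Agent.S11.Hilbert94
import Fermat.Agent.S11.Unramified
import Fermat.Agent.S11.Hilbert92

/-!
# Kummer's lemma for cyclotomic fields whose ring of integers is a PID

If `K = ℚ(ζ_p)` (`p` an odd prime), `𝓞 K` is a PID, and `u` is a unit of `𝓞 K` congruent to a
rational integer modulo `p`, then `u` is a `p`-th power of a unit.

Proof: otherwise `L = K(u^(1/p))` is a cyclic extension of degree `p` of `K` with trivial
different (`Unramified.lean`); Hilbert 92 (`Hilbert92.lean`) provides a unit `η` of `L` of relative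
norm one which is not of the form `ε / σ ε`, contradicting `Hilbert94.lean`.
-/

namespace Fermat.Agent.S11

open NumberField Polynomial

/-- **Kummer's lemma** for `p`-th cyclotomic fields with principal ring of integers. -/
theorem kummer_lemma_of_pid {p : ℕ} [hp : Fact p.Prime] (hp2 : p ≠ 2) {K : Type} [Field K]
    [NumberField K] [IsCyclotomicExtension {p} ℚ K] [IsPrincipalIdealRing (𝓞 K)] (u : (𝓞 K)ˣ)
    (hcong : ∃ n : ℤ, (p : 𝓞 K) ∣ (u : 𝓞 K) - n) : ∃ v : (𝓞 K)ˣ, u = v ^ p := by
  by_contra hcon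
  push Not at hcon
  obtain ⟨n, hn⟩ := hcong
  obtain ⟨L, _, _, _, hgal, hcyc, hdeg, hunr⟩ :=
    exists_unramified_cyclic_extension_of_kummer hp2 u n hn hcon
  have hζ : IsPrimitiveRoot (IsCyclotomicExtension.zeta p ℚ K) p :=
    IsCyclotomicExtension.zeta_spec p ℚ K
  obtain ⟨σ, hσ⟩ := hcyc.exists_generator
  obtain ⟨η, hη1, hη2⟩ := hilbert92' hp2 hdeg σ hσ hζ
  obtain ⟨ε, hε⟩ := hilbert94_of_norm_one hunr σ hσ η hη1
  exact hη2 ε hε

end Fermat.Agent.S11
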