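import Mathlib

set_option autoImplicit false

namespace Fermat.Agent.S11

open NumberField Polynomial InfinitePlace Nat Real Ideal Module

universe u

variable (K : Type u) [Field K] [NumberField K]

/-- The Minkowski bound of `K`. -/
noncomputable def pidBound : ℝ :=
  (4 / π) ^ nrComplexPlaces K *
    ((finrank ℚ K)! / (finrank ℚ K) ^ (finrank ℚ K) * √|(discr K : ℝ)|)

theorem pidBound_nonneg : 0 ≤ pidBound K := by
  unfold pidBound; positivity

theorem floor_pidBound_le {B : ℕ} (h : pidBound K < (B : ℝ) + 1) : ⌊pidBound K⌋₊ ≤ B := by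
  apply Nat.le_of_lt_succ
  rw [Nat.floor_lt (pidBound_nonneg K)]
  exact_mod_cast h

theorem pidBound_seven [IsCyclotomicExtension {7} ℚ K] : ⌊pidBound K⌋₊ ≤ 4 := by
  have : Fact (Nat.Prime 7) := ⟨by norm_num⟩
  have hfin : finrank ℚ K = 6 := by
    rw [IsCyclotomicExtension.finrank (n := 7) K (cyclotomic.irreducible_rat (by simp)),
      totient_prime (by norm_num)]
  have hr2 : nrComplexPlaces K = 3 := by
    rw [IsCyclotomicExtension.Rat.nrComplexPlaces_eq_totient_div_two 7,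
      totient_prime (by norm_num)]
  have hd : |(discr K : ℝ)| = 7 ^ 5 := by
    rw [IsCyclotomicExtension.Rat.discr_prime 7 K]
    norm_num
  apply floor_pidBound_le
  unfold pidBound
  rw [hfin, hr2, hd]
  have h1 : (4 / π) ^ 3 < (4 / 3 : ℝ) ^ 3 := by
    gcongr
    exact pi_gt_three
  have h2 : √((7 : ℝ) ^ 5) < 130 := by
    rw [Real.sqrt_lt' (by norm_num)]
    norm_num
  have h3 : (0 : ℝ) < (4 / π) ^ 3 := by positivity
  have h4 : (0 : ℝ) ≤ √((7 : ℝ) ^ 5) := Real.sqrt_nonneg _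
  calc (4 / π) ^ 3 * (((6 : ℕ)! : ℝ) / ((6 : ℕ) : ℝ) ^ 6 * √((7 : ℝ) ^ 5))
      ≤ (4 / 3 : ℝ) ^ 3 * (((6 : ℕ)! : ℝ) / ((6 : ℕ) : ℝ) ^ 6 * 130) := by
        gcongr
    _ < ((4 : ℕ) : ℝ) + 1 := by
        norm_num [Nat.factorial]

/-- The general criterion, restated with `pidBound`. -/
theorem pid_of_forall_prime_le [IsGalois ℚ K] (B : ℕ) (hB : ⌊pidBound K⌋₊ ≤ B)
    (h : ∀ p ∈ Finset.Icc 1 B, p.Prime →
      ∃ P ∈ primesOver (span {(p : ℤ)}) (𝓞 K),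
        B < p ^ P.inertiaDeg ℤ ∨ Submodule.IsPrincipal P) :
    IsPrincipalIdealRing (𝓞 K) := by
  refine RingOfIntegers.isPrincipalIdealRing_of_isPrincipal_of_lt_or_isPrincipal_of_mem_primesOver_of_mem_Icc
    (fun p hp hpp ↦ ?_)
  have hp' : p ∈ Finset.Icc 1 B := by
    rw [Finset.mem_Icc] at hp ⊢
    exact ⟨hp.1, hp.2.trans hB⟩
  obtain ⟨P, hP, hP'⟩ := h p hp' hpp
  refine ⟨P, hP, hP'.imp_left fun h ↦ lt_of_le_of_lt hB h⟩

theorem lt_pow_orderOf_of_forall {m q B k : ℕ} [NeZero m] (hq : 1 < q) (hqm : q.Coprime m)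
    (hk : B < q ^ k) (h : ∀ j < k, 0 < j → q ^ j % m ≠ 1 % m) :
    B < q ^ orderOf (q : ZMod m) := by
  have hfin : IsOfFinOrder (q : ZMod m) := by
    have := isOfFinOrder_of_finite (ZMod.unitOfCoprime q hqm)
    rw [← Units.isOfFinOrder_val] at this
    simpa using this
  have hpos : 0 < orderOf (q : ZMod m) := hfin.orderOf_pos
  have hle : k ≤ orderOf (q : ZMod m) := by
    by_contra hlt
    rw [not_le] at hlt
    apply h _ hlt hpos
    have h1 := pow_orderOf_eq_one (q : ZMod m)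
    rw [← ZMod.natCast_eq_natCast_iff']
    push_cast
    exact h1
  exact lt_of_lt_of_le hk (Nat.pow_le_pow_right hq.le hle)

theorem exists_prime_over_of_order (m : ℕ) [NeZero m] [IsCyclotomicExtension {m} ℚ K]
    (q : ℕ) [hq : Fact q.Prime] (hm : ¬ q ∣ m) (B k : ℕ) (hk : B < q ^ k)
    (h : ∀ j < k, 0 < j → q ^ j % m ≠ 1 % m) :
    ∃ P ∈ primesOver (span {(q : ℤ)}) (𝓞 K),
        B < q ^ P.inertiaDeg ℤ ∨ Submodule.IsPrincipal P := by
  obtain ⟨⟨P, hP1, hP2⟩⟩ := (span {(q : ℤ)}).nonempty_primesOver (S := 𝓞 K)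
  refine ⟨P, ⟨hP1, hP2⟩, Or.inl ?_⟩
  rw [IsCyclotomicExtension.Rat.inertiaDeg_eq_of_not_dvd q K P hm]
  exact lt_pow_orderOf_of_forall hq.out.one_lt (hq.out.coprime_iff_not_dvd.mpr hm) hk h

theorem liesOver_span_zeta_sub_one_prime (p : ℕ) [hp : Fact p.Prime]
    [hK : IsCyclotomicExtension {p} ℚ K] {ζ : K} (hζ : IsPrimitiveRoot ζ p) :
    (span {hζ.toInteger - 1}).LiesOver (span {(p : ℤ)}) := by
  rw [← pow_one p] at hK hζ
  exact IsCyclotomicExtension.Rat.liesOver_span_zeta_sub_one p 0 hζ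

theorem exists_prime_over_self (p : ℕ) [hp : Fact p.Prime] [hK : IsCyclotomicExtension {p} ℚ K]
    (B : ℕ) :
    ∃ P ∈ primesOver (span {(p : ℤ)}) (𝓞 K),
        B < p ^ P.inertiaDeg ℤ ∨ Submodule.IsPrincipal P := by
  have hζ := IsCyclotomicExtension.zeta_spec p ℚ K
  exact ⟨span {hζ.toInteger - 1}, ⟨inferInstance, liesOver_span_zeta_sub_one_prime K p hζ⟩,
    Or.inr ⟨⟨_, rfl⟩⟩⟩

theorem seven_pid [IsCyclotomicExtension {7} ℚ K] : IsPrincipalIdealRing (𝓞 K) := by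
  have : IsGalois ℚ K := IsCyclotomicExtension.isGalois {7} ℚ K
  apply pid_of_forall_prime_le K 4 (pidBound_seven K)
  intro q hq hqp
  have : Fact q.Prime := ⟨hqp⟩
  rw [Finset.mem_Icc] at hq
  obtain ⟨h1, h2⟩ := hq
  interval_cases q
  · exact absurd hqp (by norm_num)
  · exact exists_prime_over_of_order K 7 2 (by norm_num) 4 3 (by norm_num) (by decide)
  · exact exists_prime_over_of_order K 7 3 (by norm_num) 4 2 (by norm_num) (by decide)
  · exact absurd hqp (by norm_num)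

open RingOfIntegers NumberField.Ideal in
theorem exists_isPrincipal_of_factor (p : ℕ) [hp : Fact p.Prime] [IsCyclotomicExtension {p} ℚ K]
    (q : ℕ) [hq : Fact q.Prime] (Q : ℤ[X])
    (hQm : (Q.map (Int.castRingHom (ZMod q))).Monic)
    (hQi : Irreducible (Q.map (Int.castRingHom (ZMod q))))
    (hQd : Q.map (Int.castRingHom (ZMod q)) ∣ cyclotomic p (ZMod q))
    (α : 𝓞 K) (h1 : α ∣ (q : 𝓞 K))
    (h2 : α ∣ aeval (IsCyclotomicExtension.zeta_spec p ℚ K).toInteger Q)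
    (h3 : α ∈ span {(q : 𝓞 K), aeval (IsCyclotomicExtension.zeta_spec p ℚ K).toInteger Q})
    (B : ℕ) :
    ∃ P ∈ primesOver (span {(q : ℤ)}) (𝓞 K),
        B < q ^ P.inertiaDeg ℤ ∨ Submodule.IsPrincipal P := by
  have hζ := IsCyclotomicExtension.zeta_spec p ℚ K
  set ζ := (IsCyclotomicExtension.zeta_spec p ℚ K).toInteger with hζdef
  have h₁ : ¬ q ∣ exponent ζ := by
    rw [exponent_eq_one_iff.mpr <| IsCyclotomicExtension.Rat.adjoin_singleton_eq_top hζ]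
    exact hq.out.not_dvd_one
  have hmin : minpoly ℤ ζ = cyclotomic p ℤ := by
    rw [cyclotomic_eq_minpoly hζ hp.out.pos, ← hζ.coe_toInteger, ← RingOfIntegers.minpoly_coe ζ]
    rfl
  have hQ : Q.map (Int.castRingHom (ZMod q)) ∈ monicFactorsMod ζ q := by
    rw [Multiset.mem_toFinset, Polynomial.mem_normalizedFactors_iff
      (map_monic_ne_zero (minpoly.monic ζ.isIntegral))]
    refine ⟨hQi, hQm, ?_⟩
    rw [hmin, map_cyclotomic_int]
    exact hQd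
  refine ⟨span {(q : 𝓞 K), aeval ζ Q}, ?_, Or.inr ?_⟩
  · rw [← primesOverSpanEquivMonicFactorsMod_symm_apply_eq_span h₁ hQ]
    exact ((primesOverSpanEquivMonicFactorsMod h₁).symm ⟨_, hQ⟩).prop
  · refine ⟨⟨α, ?_⟩⟩
    change _ = Ideal.span {α}
    apply le_antisymm
    · rw [Ideal.span_le]
      intro x hx
      rcases hx with rfl | rfl
      · exact Ideal.mem_span_singleton.mpr h1
      · exact Ideal.mem_span_singleton.mpr h2
    · rw [Ideal.span_le]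
      intro x hx
      rcases hx with rfl
      exact h3

theorem zeta_geom_sum_eq_zero (p : ℕ) [hp : Fact p.Prime] [IsCyclotomicExtension {p} ℚ K] :
    ∑ i ∈ Finset.range p, (IsCyclotomicExtension.zeta_spec p ℚ K).toInteger ^ i = 0 :=
  (IsCyclotomicExtension.zeta_spec p ℚ K).toInteger_isPrimitiveRoot.geom_sum_eq_zero
    hp.out.one_lt

/-- Linear factor version: `r` is a root of `Φ_p` modulo `q`. -/
theorem exists_isPrincipal_of_root (p : ℕ) [hp : Fact p.Prime] [IsCyclotomicExtension {p} ℚ K]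
    (q : ℕ) [hq : Fact q.Prime] (r : ℤ)
    (hr : (q : ℤ) ∣ ∑ i ∈ Finset.range p, r ^ i)
    (α u v : 𝓞 K) (h1 : α ∣ (q : 𝓞 K))
    (h2 : α ∣ (IsCyclotomicExtension.zeta_spec p ℚ K).toInteger - (r : 𝓞 K))
    (h3 : α = (q : 𝓞 K) * u + ((IsCyclotomicExtension.zeta_spec p ℚ K).toInteger - (r : 𝓞 K)) * v)
    (B : ℕ) :
    ∃ P ∈ primesOver (span {(q : ℤ)}) (𝓞 K),
        B < q ^ P.inertiaDeg ℤ ∨ Submodule.IsPrincipal P := by
  have hmap : (X - C r : ℤ[X]).map (Int.castRingHom (ZMod q)) = X - C (r : ZMod q) := by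
    simp
  have haeval : aeval (IsCyclotomicExtension.zeta_spec p ℚ K).toInteger (X - C r : ℤ[X]) =
      (IsCyclotomicExtension.zeta_spec p ℚ K).toInteger - (r : 𝓞 K) := by
    simp
  refine exists_isPrincipal_of_factor K p q (X - C r) ?_ ?_ ?_ α h1 ?_ ?_ B
  · rw [hmap]; exact monic_X_sub_C _
  · rw [hmap]; exact irreducible_X_sub_C _
  · rw [hmap, dvd_iff_isRoot, IsRoot.def, cyclotomic_prime, eval_finsetSum]
    simp only [eval_pow, eval_X]
    have := (ZMod.intCast_zmod_eq_zero_iff_dvd _ q).mpr hr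
    push_cast at this
    exact this
  · rw [haeval]; exact h2
  · rw [haeval, h3]
    exact Ideal.add_mem _ (Ideal.mul_mem_right _ _ (Ideal.subset_span (by simp)))
      (Ideal.mul_mem_right _ _ (Ideal.subset_span (by simp)))

theorem eleven_data {R : Type*} [CommRing R] (z : R) (hz : ∑ i ∈ Finset.range 11, z ^ i = 0) :
    (1 + z + z ^ 3) ∣ (23 : R) ∧ (1 + z + z ^ 3) ∣ (z - 4) ∧
      (1 + z + z ^ 3) = 23 * 3 + (z - 4) * (17 + 4 * z + z ^ 2) := by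
  simp only [Finset.sum_range_succ, Finset.sum_range_zero] at hz
  refine ⟨⟨-2 - 14 * z - 17 * z ^ 2 - 12 * z ^ 3 - 5 * z ^ 4 - 9 * z ^ 5 - 10 * z ^ 6 - 16 * z ^ 7 - 6 * z ^ 8 - 15 * z ^ 9, ?_⟩,
    ⟨1 + 3 * z + 3 * z ^ 2 + 2 * z ^ 3 + z ^ 4 + 2 * z ^ 5 + 2 * z ^ 6 + 3 * z ^ 7 + z ^ 8 + 3 * z ^ 9, ?_⟩, by ring⟩
  · linear_combination (-(-25 + 9 * z - 15 * z ^ 2)) * hz
  · linear_combination (-(5 - 2 * z + 3 * z ^ 2)) * hz

theorem pidBound_eleven [IsCyclotomicExtension {11} ℚ K] : ⌊pidBound K⌋₊ ≤ 59 := by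
  have : Fact (Nat.Prime 11) := ⟨by norm_num⟩
  have hfin : finrank ℚ K = 10 := by
    rw [IsCyclotomicExtension.finrank (n := 11) K (cyclotomic.irreducible_rat (by simp)),
      totient_prime (by norm_num)]
  have hr2 : nrComplexPlaces K = 5 := by
    rw [IsCyclotomicExtension.Rat.nrComplexPlaces_eq_totient_div_two 11,
      totient_prime (by norm_num)]
  have hd : |(discr K : ℝ)| = 11 ^ 9 := by
    rw [IsCyclotomicExtension.Rat.discr_prime 11 K]
    norm_num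
  apply floor_pidBound_le
  unfold pidBound
  rw [hfin, hr2, hd]
  have h1 : (4 / π) ^ 5 < (4 / 3.14 : ℝ) ^ 5 := by
    gcongr
    exact pi_gt_d2
  have h2 : √((11 : ℝ) ^ 9) < 48559 := by
    rw [Real.sqrt_lt' (by norm_num)]
    norm_num
  have h3 : (0 : ℝ) < (4 / π) ^ 5 := by positivity
  have h4 : (0 : ℝ) ≤ √((11 : ℝ) ^ 9) := Real.sqrt_nonneg _
  calc (4 / π) ^ 5 * (((10 : ℕ)! : ℝ) / ((10 : ℕ) : ℝ) ^ 10 * √((11 : ℝ) ^ 9))
      ≤ (4 / 3.14 : ℝ) ^ 5 * (((10 : ℕ)! : ℝ) / ((10 : ℕ) : ℝ) ^ 10 * 48559) := by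
        gcongr
    _ < ((59 : ℕ) : ℝ) + 1 := by
        norm_num [Nat.factorial]

theorem pidBound_thirteen [IsCyclotomicExtension {13} ℚ K] : ⌊pidBound K⌋₊ ≤ 307 := by
  have : Fact (Nat.Prime 13) := ⟨by norm_num⟩
  have hfin : finrank ℚ K = 12 := by
    rw [IsCyclotomicExtension.finrank (n := 13) K (cyclotomic.irreducible_rat (by simp)),
      totient_prime (by norm_num)]
  have hr2 : nrComplexPlaces K = 6 := by
    rw [IsCyclotomicExtension.Rat.nrComplexPlaces_eq_totient_div_two 13,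
      totient_prime (by norm_num)]
  have hd : |(discr K : ℝ)| = 13 ^ 11 := by
    rw [IsCyclotomicExtension.Rat.discr_prime 13 K]
    norm_num
  apply floor_pidBound_le
  unfold pidBound
  rw [hfin, hr2, hd]
  have h1 : (4 / π) ^ 6 < (4 / 3.14 : ℝ) ^ 6 := by
    gcongr
    exact pi_gt_d2
  have h2 : √((13 : ℝ) ^ 11) < 1338717 := by
    rw [Real.sqrt_lt' (by norm_num)]
    norm_num
  have h3 : (0 : ℝ) < (4 / π) ^ 6 := by positivity
  have h4 : (0 : ℝ) ≤ √((13 : ℝ) ^ 11) := Real.sqrt_nonneg _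
  calc (4 / π) ^ 6 * (((12 : ℕ)! : ℝ) / ((12 : ℕ) : ℝ) ^ 12 * √((13 : ℝ) ^ 11))
      ≤ (4 / 3.14 : ℝ) ^ 6 * (((12 : ℕ)! : ℝ) / ((12 : ℕ) : ℝ) ^ 12 * 1338717) := by
        gcongr
    _ < ((307 : ℕ) : ℝ) + 1 := by
        norm_num [Nat.factorial]


/-- A decidable sufficient condition for all primes over `q` in `ℚ(ζ_m)` to have norm `> B`. -/
def GoodPrime (m B q : ℕ) : Prop :=
  m % q ≠ 0 ∧ ∃ k ∈ Finset.range 10, B < q ^ k ∧ ∀ j < k, 0 < j → q ^ j % m ≠ 1 % m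

instance (m B q : ℕ) : Decidable (GoodPrime m B q) := by
  unfold GoodPrime; infer_instance

theorem exists_prime_over_of_goodPrime (m : ℕ) [NeZero m] [IsCyclotomicExtension {m} ℚ K]
    (q : ℕ) [hq : Fact q.Prime] (B : ℕ) (h : GoodPrime m B q) :
    ∃ P ∈ primesOver (span {(q : ℤ)}) (𝓞 K),
        B < q ^ P.inertiaDeg ℤ ∨ Submodule.IsPrincipal P := by
  obtain ⟨h1, k, -, hk, h2⟩ := h
  refine exists_prime_over_of_order K m q ?_ B k hk h2
  intro hdvd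
  exact h1 (Nat.mod_eq_zero_of_dvd hdvd)

theorem not_prime_of_exists_dvd {q : ℕ} (h : ∃ d ∈ Finset.Icc 2 17, d ∣ q ∧ d ≠ q) :
    ¬ q.Prime := by
  obtain ⟨d, hd, hdq, hne⟩ := h
  rw [Finset.mem_Icc] at hd
  intro hq
  rcases (Nat.dvd_prime hq).mp hdq with h | h
  · omega
  · exact hne h

theorem check_eleven : ∀ q ∈ Finset.Icc 1 59, q = 11 ∨ q = 23 ∨ q = 1 ∨
    (∃ d ∈ Finset.Icc 2 17, d ∣ q ∧ d ≠ q) ∨ GoodPrime 11 59 q := by
  decide +kernel

theorem eleven_pid [IsCyclotomicExtension {11} ℚ K] : IsPrincipalIdealRing (𝓞 K) := by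
  have : Fact (Nat.Prime 11) := ⟨by norm_num⟩
  have : IsGalois ℚ K := IsCyclotomicExtension.isGalois {11} ℚ K
  apply pid_of_forall_prime_le K 59 (pidBound_eleven K)
  intro q hq hqp
  have : Fact q.Prime := ⟨hqp⟩
  rcases check_eleven q hq with rfl | rfl | rfl | h | h
  · exact exists_prime_over_self K 11 59
  · obtain ⟨h1, h2, h3⟩ := eleven_data _ (zeta_geom_sum_eq_zero K 11)
    exact exists_isPrincipal_of_root K 11 23 4 (by decide) _ 3 _ (by exact_mod_cast h1)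
      (by exact_mod_cast h2) (by exact_mod_cast h3) 59
  · exact absurd hqp (by norm_num)
  · exact absurd hqp (not_prime_of_exists_dvd h)
  · exact exists_prime_over_of_goodPrime K 11 q 59 h

theorem thirteen_cubic_map :
    (X ^ 3 - X - 1 : ℤ[X]).map (Int.castRingHom (ZMod 3)) = X ^ 3 - X - 1 := by
  simp

theorem thirteen_cubic_natDegree : (X ^ 3 - X - 1 : (ZMod 3)[X]).natDegree = 3 := by
  compute_degree!

theorem thirteen_cubic_monic : (X ^ 3 - X - 1 : (ZMod 3)[X]).Monic := by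
  monicity!

theorem thirteen_cubic_irreducible : Irreducible (X ^ 3 - X - 1 : (ZMod 3)[X]) := by
  apply Polynomial.irreducible_of_degree_le_three_of_not_isRoot
  · rw [thirteen_cubic_natDegree]; decide
  · intro x
    simp only [IsRoot.def, eval_sub, eval_pow, eval_X, eval_one]
    revert x
    decide

theorem thirteen_cubic_dvd : (X ^ 3 - X - 1 : (ZMod 3)[X]) ∣ cyclotomic 13 (ZMod 3) := by
  have : Fact (Nat.Prime 13) := ⟨by norm_num⟩
  have h : cyclotomic 13 ℤ = (X ^ 3 - X - 1) * (-1 - X ^ 2 - X ^ 3 + X ^ 5 - X ^ 7 + X ^ 8 + X ^ 9)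
      + 3 * (X ^ 5 + X ^ 6 + X ^ 9 + X ^ 10) := by
    rw [cyclotomic_prime]
    simp only [Finset.sum_range_succ, Finset.sum_range_zero]
    ring
  have h3 : (3 : (ZMod 3)[X]) = 0 := by
    have : (3 : (ZMod 3)[X]) = C ((3 : ℕ) : ZMod 3) := by
      rw [C_eq_natCast]; rfl
    rw [this, ZMod.natCast_self, C_0]
  rw [← map_cyclotomic_int, h]
  refine ⟨-1 - X ^ 2 - X ^ 3 + X ^ 5 - X ^ 7 + X ^ 8 + X ^ 9, ?_⟩
  simp only [Polynomial.map_add, Polynomial.map_mul, Polynomial.map_sub, Polynomial.map_pow,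
    Polynomial.map_X, Polynomial.map_one, Polynomial.map_neg, Polynomial.map_ofNat, h3]
  ring


theorem thirteen_data_53 {R : Type*} [CommRing R] (z : R)
    (hz : ∑ i ∈ Finset.range 13, z ^ i = 0) :
    (1 + z + z ^ 3) ∣ (53 : R) ∧ (1 + z + z ^ 3) ∣ (z - 36) ∧
      (1 + z + z ^ 3) = 53 * 881 + (z - 36) * (1297 + 36 * z + z ^ 2) := by
  simp only [Finset.sum_range_succ, Finset.sum_range_zero] at hz
  refine ⟨⟨1 - 24 * z - 35 * z ^ 2 - 25 * z ^ 3 - 10 * z ^ 4 - 14 * z ^ 5 - 20 * z ^ 6 - 29 * z ^ 7 - 16 * z ^ 8 - 23 * z ^ 9 - 7 * z ^ 10 - 36 * z ^ 11, ?_⟩,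
    ⟨17 * z + 24 * z ^ 2 + 17 * z ^ 3 + 7 * z ^ 4 + 10 * z ^ 5 + 14 * z ^ 6 + 20 * z ^ 7 + 11 * z ^ 8 + 16 * z ^ 9 + 5 * z ^ 10 + 25 * z ^ 11, ?_⟩, by ring⟩
  · linear_combination (-(-52 + 29 * z - 36 * z ^ 2)) * hz
  · linear_combination (-(36 - 20 * z + 25 * z ^ 2)) * hz

theorem thirteen_data_79 {R : Type*} [CommRing R] (z : R)
    (hz : ∑ i ∈ Finset.range 13, z ^ i = 0) :
    (1 + z - z ^ 4) ∣ (79 : R) ∧ (1 + z - z ^ 4) ∣ (z - 64) ∧
      (1 + z - z ^ 4) = 79 * (-212369) + (z - 64) * (-262143 - 4096 * z - 64 * z ^ 2 - z ^ 3) := by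
  simp only [Finset.sum_range_succ, Finset.sum_range_zero] at hz
  refine ⟨⟨24 - 25 * z - 27 * z ^ 2 + 10 * z ^ 3 - 3 * z ^ 4 - 39 * z ^ 5 - 5 * z ^ 6 - 2 * z ^ 7 - 18 * z ^ 8 - 38 * z ^ 9 + 16 * z ^ 10 - 35 * z ^ 11, ?_⟩,
    ⟨-19 + 21 * z + 22 * z ^ 2 - 8 * z ^ 3 + 3 * z ^ 4 + 32 * z ^ 5 + 4 * z ^ 6 + 2 * z ^ 7 + 15 * z ^ 8 + 31 * z ^ 9 - 13 * z ^ 10 + 29 * z ^ 11, ?_⟩, by ring⟩
  · linear_combination (-(-55 + 54 * z - 51 * z ^ 2 + 35 * z ^ 3)) * hz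
  · linear_combination (-(45 - 44 * z + 42 * z ^ 2 - 29 * z ^ 3)) * hz

theorem thirteen_data_131 {R : Type*} [CommRing R] (z : R)
    (hz : ∑ i ∈ Finset.range 13, z ^ i = 0) :
    (1 - z - z ^ 3) ∣ (131 : R) ∧ (1 - z - z ^ 3) ∣ (z - 80) ∧
      (1 - z - z ^ 3) = 131 * (-3909) + (z - 80) * (-6401 - 80 * z - z ^ 2) := by
  simp only [Finset.sum_range_succ, Finset.sum_range_zero] at hz
  refine ⟨⟨111 + 78 * z + 17 * z ^ 2 + 67 * z ^ 3 + 84 * z ^ 4 + 40 * z ^ 5 + 46 * z ^ 6 + 69 * z ^ 7 + 48 * z ^ 8 + 33 * z ^ 9 + 41 * z ^ 10 + 28 * z ^ 11, ?_⟩,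
    ⟨-68 - 47 * z - 10 * z ^ 2 - 41 * z ^ 3 - 51 * z ^ 4 - 24 * z ^ 5 - 28 * z ^ 6 - 42 * z ^ 7 - 29 * z ^ 8 - 20 * z ^ 9 - 25 * z ^ 10 - 17 * z ^ 11, ?_⟩, by ring⟩
  · linear_combination (-(-20 - 13 * z - 28 * z ^ 2)) * hz
  · linear_combination (-(12 + 8 * z + 17 * z ^ 2)) * hz

theorem thirteen_data_157 {R : Type*} [CommRing R] (z : R)
    (hz : ∑ i ∈ Finset.range 13, z ^ i = 0) :
    (1 - z + z ^ 2 + z ^ 4) ∣ (157 : R) ∧ (1 - z + z ^ 2 + z ^ 4) ∣ (z - 75) ∧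
      (1 - z + z ^ 2 + z ^ 4) = 157 * 201568 + (z - 75) * (421949 + 5626 * z + 75 * z ^ 2 + z ^ 3) := by
  simp only [Finset.sum_range_succ, Finset.sum_range_zero] at hz
  refine ⟨⟨89 + 86 * z + 42 * z ^ 2 + 77 * z ^ 3 + 67 * z ^ 4 + 25 * z ^ 5 + 37 * z ^ 6 + 56 * z ^ 7 + 73 * z ^ 8 + 113 * z ^ 9 + 124 * z ^ 10 + 76 * z ^ 11, ?_⟩,
    ⟨-43 - 41 * z - 20 * z ^ 2 - 37 * z ^ 3 - 32 * z ^ 4 - 12 * z ^ 5 - 18 * z ^ 6 - 27 * z ^ 7 - 35 * z ^ 8 - 54 * z ^ 9 - 59 * z ^ 10 - 36 * z ^ 11, ?_⟩, by ring⟩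
  · linear_combination (-(-68 + 65 * z + 48 * z ^ 2 + 76 * z ^ 3)) * hz
  · linear_combination (-(32 - 31 * z - 23 * z ^ 2 - 36 * z ^ 3)) * hz

theorem thirteen_data_3 {R : Type*} [CommRing R] (z : R)
    (hz : ∑ i ∈ Finset.range 13, z ^ i = 0) :
    (1 + z - z ^ 3) ∣ (3 : R) := by
  simp only [Finset.sum_range_succ, Finset.sum_range_zero] at hz
  refine ⟨-1 - z ^ 2 - z ^ 3 - 2 * z ^ 5 - z ^ 7 - 2 * z ^ 8 + z ^ 9 - 3 * z ^ 10, ?_⟩
  linear_combination (-(-4 + 3 * z)) * hz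

theorem check_thirteen : ∀ q ∈ Finset.Icc 1 307, q = 13 ∨ q = 3 ∨ q = 53 ∨ q = 79 ∨ q = 131 ∨
    q = 157 ∨ q = 1 ∨ (∃ d ∈ Finset.Icc 2 17, d ∣ q ∧ d ≠ q) ∨ GoodPrime 13 307 q := by
  decide +kernel

theorem thirteen_pid [IsCyclotomicExtension {13} ℚ K] : IsPrincipalIdealRing (𝓞 K) := by
  have : Fact (Nat.Prime 13) := ⟨by norm_num⟩
  have : IsGalois ℚ K := IsCyclotomicExtension.isGalois {13} ℚ K
  apply pid_of_forall_prime_le K 307 (pidBound_thirteen K)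
  intro q hq hqp
  have : Fact q.Prime := ⟨hqp⟩
  have hz := zeta_geom_sum_eq_zero K 13
  rcases check_thirteen q hq with rfl | rfl | rfl | rfl | rfl | rfl | rfl | h | h
  · exact exists_prime_over_self K 13 307
  · -- the prime over 3
    have h1 := thirteen_data_3 _ hz
    have hae : aeval (IsCyclotomicExtension.zeta_spec 13 ℚ K).toInteger (X ^ 3 - X - 1 : ℤ[X]) =
        -(1 + (IsCyclotomicExtension.zeta_spec 13 ℚ K).toInteger -
          (IsCyclotomicExtension.zeta_spec 13 ℚ K).toInteger ^ 3) := by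
      simp only [map_sub, map_pow, aeval_X, map_one]
      ring
    refine exists_isPrincipal_of_factor K 13 3 (X ^ 3 - X - 1) ?_ ?_ ?_ _
      (by exact_mod_cast h1) ?_ ?_ 307
    · rw [thirteen_cubic_map]; exact thirteen_cubic_monic
    · rw [thirteen_cubic_map]; exact thirteen_cubic_irreducible
    · rw [thirteen_cubic_map]; exact thirteen_cubic_dvd
    · rw [hae]; exact (dvd_refl _).neg_right
    · rw [hae]
      have : (1 + (IsCyclotomicExtension.zeta_spec 13 ℚ K).toInteger -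
          (IsCyclotomicExtension.zeta_spec 13 ℚ K).toInteger ^ 3) =
          -(-(1 + (IsCyclotomicExtension.zeta_spec 13 ℚ K).toInteger -
          (IsCyclotomicExtension.zeta_spec 13 ℚ K).toInteger ^ 3)) := by ring
      rw [this]
      exact neg_mem (Ideal.subset_span (by simp))
  · obtain ⟨h1, h2, h3⟩ := thirteen_data_53 _ hz
    exact exists_isPrincipal_of_root K 13 53 36 (by decide) _ 881 _ (by exact_mod_cast h1)
      (by exact_mod_cast h2) (by exact_mod_cast h3) 307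
  · obtain ⟨h1, h2, h3⟩ := thirteen_data_79 _ hz
    exact exists_isPrincipal_of_root K 13 79 64 (by decide) _ (-212369) _ (by exact_mod_cast h1)
      (by exact_mod_cast h2) (by exact_mod_cast h3) 307
  · obtain ⟨h1, h2, h3⟩ := thirteen_data_131 _ hz
    exact exists_isPrincipal_of_root K 13 131 80 (by decide) _ (-3909) _ (by exact_mod_cast h1)
      (by exact_mod_cast h2) (by exact_mod_cast h3) 307
  · obtain ⟨h1, h2, h3⟩ := thirteen_data_157 _ hz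
    exact exists_isPrincipal_of_root K 13 157 75 (by decide) _ 201568 _ (by exact_mod_cast h1)
      (by exact_mod_cast h2) (by exact_mod_cast h3) 307
  · exact absurd hqp (by norm_num)
  · exact absurd hqp (not_prime_of_exists_dvd h)
  · exact exists_prime_over_of_goodPrime K 13 q 307 h

end Fermat.Agent.S11
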