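import Mathlib

/-!
# `ℤ[ζ₁₃]` is a principal ideal domain

Minkowski bound `306.4…`; the only primes of norm below the bound are the primes above
`3` (norm `27`), `13` (ramified, generated by `ζ - 1`) and `53, 79, 131, 157` (norm `q`).
Each of them is shown principal through the Kummer–Dedekind description `(q, Q(ζ))` and
explicit cofactors.
-/

namespace Fermat.Agent.S11

open NumberField Polynomial Ideal IsCyclotomicExtension IsCyclotomicExtension.Rat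

/-! ### The arithmetic check -/

/-- The finite arithmetic statement checked by evaluation. -/
def pid13_P (p f : ℕ) : Prop :=
  0 < f → 2 ≤ p → (∀ d ∈ [2, 3, 5, 7, 11, 13, 17], p % d = 0 → d = p) → p ^ f ≤ 307 →
    p ^ f % 13 = 1 → p = 3 ∨ p = 53 ∨ p = 79 ∨ p = 131 ∨ p = 157

instance pid13_P_decidable (p f : ℕ) : Decidable (pid13_P p f) := by
  unfold pid13_P; infer_instance

set_option maxRecDepth 100000 in
theorem pid13_chk_all : ∀ p ∈ List.range 308, ∀ f ∈ List.range 9, pid13_P p f := by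
  decide

theorem pid13_arith {p f : ℕ} (hp : p.Prime) (hp308 : p < 308) (hf : 0 < f)
    (hpf : p ^ f ≤ 307) (h13 : p ^ f % 13 = 1) :
    p = 3 ∨ p = 53 ∨ p = 79 ∨ p = 131 ∨ p = 157 := by
  have hf9 : f < 9 := by
    by_contra hcon
    have hcon' : 9 ≤ f := Nat.le_of_not_lt hcon
    have : 2 ^ 9 ≤ p ^ f :=
      (Nat.pow_le_pow_left hp.two_le 9).trans (Nat.pow_le_pow_right hp.pos hcon')
    omega
  refine pid13_chk_all p (List.mem_range.mpr hp308) f (List.mem_range.mpr hf9) hf hp.two_le ?_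
    hpf h13
  intro d hd hmod
  have hdvd : d ∣ p := Nat.dvd_of_mod_eq_zero hmod
  rcases (Nat.dvd_prime hp).mp hdvd with h1 | h1
  · subst h1; simp at hd
  · exact h1

/-! ### Principal primes via Kummer–Dedekind -/

section KD

variable {n : ℕ} [NeZero n] (K : Type*) [Field K] [NumberField K] [IsCyclotomicExtension {n} ℚ K]

/-- If `Q mod q` is a monic irreducible factor of `Φₙ mod q` and `α` generates `(q, Q(ζ))`,
then there is a principal prime above `q`. -/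
theorem pid13_exists_principal (q : ℕ) [Fact q.Prime] (Q : ℤ[X])
    (hirr : Irreducible (Q.map (Int.castRingHom (ZMod q))))
    (hmonic : (Q.map (Int.castRingHom (ZMod q))).Monic)
    (hdvd : Q.map (Int.castRingHom (ZMod q)) ∣ cyclotomic n (ZMod q))
    (α : 𝓞 K) (hq : α ∣ (q : 𝓞 K)) (hz : α ∣ aeval (zeta_spec n ℚ K).toInteger Q)
    (hα : α ∈ span {(q : 𝓞 K), aeval (zeta_spec n ℚ K).toInteger Q}) :
    ∃ P ∈ primesOver (span {(q : ℤ)}) (𝓞 K), Submodule.IsPrincipal P := by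
  set ζ := (zeta_spec n ℚ K).toInteger with hζdef
  have hexp : ¬ q ∣ RingOfIntegers.exponent ζ := by
    rw [RingOfIntegers.exponent_eq_one_iff.mpr (adjoin_singleton_eq_top (zeta_spec n ℚ K))]
    exact (Fact.out : q.Prime).not_dvd_one
  have hmin : minpoly ℤ ζ = cyclotomic n ℤ := by
    rw [← RingOfIntegers.minpoly_coe ζ]
    exact (cyclotomic_eq_minpoly (zeta_spec n ℚ K) (NeZero.pos _)).symm
  have hQ : Q.map (Int.castRingHom (ZMod q)) ∈ RingOfIntegers.monicFactorsMod ζ q := by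
    rw [Multiset.mem_toFinset,
      Polynomial.mem_normalizedFactors_iff (map_monic_ne_zero (minpoly.monic ζ.isIntegral))]
    refine ⟨hirr, hmonic, ?_⟩
    rw [hmin, map_cyclotomic_int]
    exact hdvd
  refine ⟨((NumberField.Ideal.primesOverSpanEquivMonicFactorsMod hexp).symm ⟨_, hQ⟩ : Ideal (𝓞 K)),
    ((NumberField.Ideal.primesOverSpanEquivMonicFactorsMod hexp).symm ⟨_, hQ⟩).2, ?_⟩
  rw [NumberField.Ideal.primesOverSpanEquivMonicFactorsMod_symm_apply_eq_span hexp hQ]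
  have hspan : span {(q : 𝓞 K), aeval ζ Q} = span {α} := by
    apply le_antisymm
    · rw [span_le]
      rintro x hx
      rcases hx with rfl | hx
      · exact mem_span_singleton.mpr hq
      · rw [Set.mem_singleton_iff] at hx
        subst hx
        exact mem_span_singleton.mpr hz
    · rw [span_singleton_le_iff_mem]
      exact hα
  rw [hspan]
  exact ⟨⟨α, rfl⟩⟩

/-- Linear-factor version: `r` a root of `Φₙ` modulo `q`. -/
theorem pid13_exists_principal_linear (q : ℕ) [Fact q.Prime] (r : ℤ)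
    (hroot : (cyclotomic n (ZMod q)).IsRoot (r : ZMod q))
    (α : 𝓞 K) (hq : α ∣ (q : 𝓞 K)) (hz : α ∣ (zeta_spec n ℚ K).toInteger - (r : 𝓞 K))
    (hα : α ∈ span {(q : 𝓞 K), (zeta_spec n ℚ K).toInteger - (r : 𝓞 K)}) :
    ∃ P ∈ primesOver (span {(q : ℤ)}) (𝓞 K), Submodule.IsPrincipal P := by
  have hmap : (X - C r : ℤ[X]).map (Int.castRingHom (ZMod q)) = X - C (r : ZMod q) := by
    simp
  have hav : aeval (zeta_spec n ℚ K).toInteger (X - C r : ℤ[X]) =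
      (zeta_spec n ℚ K).toInteger - (r : 𝓞 K) := by
    simp
  refine pid13_exists_principal (n := n) K q (X - C r) ?_ ?_ ?_ α hq ?_ ?_
  · rw [hmap]; exact irreducible_X_sub_C _
  · rw [hmap]; exact monic_X_sub_C _
  · rw [hmap]; exact dvd_iff_isRoot.mpr hroot
  · rw [hav]; exact hz
  · rw [hav]; exact hα

end KD

/-! ### The explicit generators for `n = 13` -/

section Thirteen

variable (K : Type*) [Field K] [NumberField K] [IsCyclotomicExtension {13} ℚ K]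

theorem pid13_sum : (1 : 𝓞 K) + (zeta_spec 13 ℚ K).toInteger + (zeta_spec 13 ℚ K).toInteger ^ 2 +
    (zeta_spec 13 ℚ K).toInteger ^ 3 + (zeta_spec 13 ℚ K).toInteger ^ 4 +
    (zeta_spec 13 ℚ K).toInteger ^ 5 + (zeta_spec 13 ℚ K).toInteger ^ 6 +
    (zeta_spec 13 ℚ K).toInteger ^ 7 + (zeta_spec 13 ℚ K).toInteger ^ 8 +
    (zeta_spec 13 ℚ K).toInteger ^ 9 + (zeta_spec 13 ℚ K).toInteger ^ 10 +
    (zeta_spec 13 ℚ K).toInteger ^ 11 + (zeta_spec 13 ℚ K).toInteger ^ 12 = 0 := by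
  have h := (zeta_spec 13 ℚ K).toInteger_isPrimitiveRoot.geom_sum_eq_zero (by norm_num)
  simpa [Finset.sum_range_succ] using h

theorem pid13_principal_53 : ∃ P ∈ primesOver (span {((53 : ℕ) : ℤ)}) (𝓞 K),
    Submodule.IsPrincipal P := by
  have hr : ∑ i ∈ Finset.range 13, (((36 : ℤ) : ZMod 53)) ^ i = 0 := by decide
  have : Fact (Nat.Prime 53) := ⟨by norm_num⟩
  have h13 : Fact (Nat.Prime 13) := ⟨by norm_num⟩
  have hsum := pid13_sum K
  set ζ := (zeta_spec 13 ℚ K).toInteger with hζdef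
  refine pid13_exists_principal_linear (n := 13) K 53 36 ?_ ((1) + (1) * ζ + (1) * ζ ^ 3) ?_ ?_ ?_
  · rw [cyclotomic_prime, IsRoot.def, eval_geom_sum]
    exact hr
  · refine ⟨(1) + (-24) * ζ + (-35) * ζ ^ 2 + (-25) * ζ ^ 3 + (-10) * ζ ^ 4 + (-14) * ζ ^ 5 + (-20) * ζ ^ 6 + (-29) * ζ ^ 7 + (-16) * ζ ^ 8 + (-23) * ζ ^ 9 + (-7) * ζ ^ 10 + (-36) * ζ ^ 11, ?_⟩
    push_cast
    linear_combination ((52) + (-29) * ζ + (36) * ζ ^ 2) * hsum
  · refine ⟨(17) * ζ + (24) * ζ ^ 2 + (17) * ζ ^ 3 + (7) * ζ ^ 4 + (10) * ζ ^ 5 + (14) * ζ ^ 6 + (20) * ζ ^ 7 + (11) * ζ ^ 8 + (16) * ζ ^ 9 + (5) * ζ ^ 10 + (25) * ζ ^ 11, ?_⟩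
    push_cast
    linear_combination ((-36) + (20) * ζ + (-25) * ζ ^ 2) * hsum
  · refine Ideal.mem_span_pair.mpr ⟨(881), (1297) + (36) * ζ + (1) * ζ ^ 2, ?_⟩
    push_cast
    ring


theorem pid13_principal_79 : ∃ P ∈ primesOver (span {((79 : ℕ) : ℤ)}) (𝓞 K),
    Submodule.IsPrincipal P := by
  have hr : ∑ i ∈ Finset.range 13, (((52 : ℤ) : ZMod 79)) ^ i = 0 := by decide
  have : Fact (Nat.Prime 79) := ⟨by norm_num⟩
  have h13 : Fact (Nat.Prime 13) := ⟨by norm_num⟩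
  have hsum := pid13_sum K
  set ζ := (zeta_spec 13 ℚ K).toInteger with hζdef
  refine pid13_exists_principal_linear (n := 13) K 79 52 ?_ ((1) + (1) * ζ + (1) * ζ ^ 2 + (1) * ζ ^ 4) ?_ ?_ ?_
  · rw [cyclotomic_prime, IsRoot.def, eval_geom_sum]
    exact hr
  · refine ⟨(-15) + (-32) * ζ + (-46) * ζ ^ 2 + (-25) * ζ ^ 3 + (-17) * ζ ^ 4 + (-29) * ζ ^ 5 + (-11) * ζ ^ 6 + (-38) * ζ ^ 7 + (-37) * ζ ^ 8 + (1) * ζ ^ 9 + (-56) * ζ ^ 10 + (-10) * ζ ^ 11, ?_⟩
    push_cast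
    linear_combination ((94) + (-47) * ζ + (46) * ζ ^ 2 + (10) * ζ ^ 3) * hsum
  · refine ⟨(10) + (21) * ζ + (30) * ζ ^ 2 + (16) * ζ ^ 3 + (11) * ζ ^ 4 + (19) * ζ ^ 5 + (7) * ζ ^ 6 + (25) * ζ ^ 7 + (24) * ζ ^ 8 + (-1) * ζ ^ 9 + (37) * ζ ^ 10 + (6) * ζ ^ 11, ?_⟩
    push_cast
    linear_combination ((-62) + (32) * ζ + (-31) * ζ ^ 2 + (-6) * ζ ^ 3) * hsum
  · refine Ideal.mem_span_pair.mpr ⟨(92587), (140661) + (2705) * ζ + (52) * ζ ^ 2 + (1) * ζ ^ 3, ?_⟩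
    push_cast
    ring


theorem pid13_principal_131 : ∃ P ∈ primesOver (span {((131 : ℕ) : ℤ)}) (𝓞 K),
    Submodule.IsPrincipal P := by
  have hr : ∑ i ∈ Finset.range 13, (((113 : ℤ) : ZMod 131)) ^ i = 0 := by decide
  have : Fact (Nat.Prime 131) := ⟨by norm_num⟩
  have h13 : Fact (Nat.Prime 13) := ⟨by norm_num⟩
  have hsum := pid13_sum K
  set ζ := (zeta_spec 13 ℚ K).toInteger with hζdef
  refine pid13_exists_principal_linear (n := 13) K 131 113 ?_ ((-1) + (-1) * ζ ^ 2 + (1) * ζ ^ 3) ?_ ?_ ?_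
  · rw [cyclotomic_prime, IsRoot.def, eval_geom_sum]
    exact hr
  · refine ⟨(13) + (5) * ζ + (20) * ζ ^ 2 + (41) * ζ ^ 3 + (18) * ζ ^ 4 + (12) * ζ ^ 5 + (56) * ζ ^ 6 + (39) * ζ ^ 7 + (-11) * ζ ^ 8 + (50) * ζ ^ 9 + (83) * ζ ^ 10 + (-28) * ζ ^ 11, ?_⟩
    push_cast
    linear_combination ((144) + (-139) * ζ + (28) * ζ ^ 2) * hsum
  · refine ⟨(-11) + (-4) * ζ + (-17) * ζ ^ 2 + (-35) * ζ ^ 3 + (-15) * ζ ^ 4 + (-10) * ζ ^ 5 + (-48) * ζ ^ 6 + (-33) * ζ ^ 7 + (10) * ζ ^ 8 + (-43) * ζ ^ 9 + (-71) * ζ ^ 10 + (25) * ζ ^ 11, ?_⟩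
    push_cast
    linear_combination ((-124) + (121) * ζ + (-25) * ζ ^ 2) * hsum
  · refine Ideal.mem_span_pair.mpr ⟨(10917), (12656) + (112) * ζ + (1) * ζ ^ 2, ?_⟩
    push_cast
    ring


theorem pid13_principal_157 : ∃ P ∈ primesOver (span {((157 : ℕ) : ℤ)}) (𝓞 K),
    Submodule.IsPrincipal P := by
  have hr : ∑ i ∈ Finset.range 13, (((67 : ℤ) : ZMod 157)) ^ i = 0 := by decide
  have : Fact (Nat.Prime 157) := ⟨by norm_num⟩
  have h13 : Fact (Nat.Prime 13) := ⟨by norm_num⟩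
  have hsum := pid13_sum K
  set ζ := (zeta_spec 13 ℚ K).toInteger with hζdef
  refine pid13_exists_principal_linear (n := 13) K 157 67 ?_ ((-1) + (-1) * ζ ^ 2 + (1) * ζ ^ 3 + (-1) * ζ ^ 4) ?_ ?_ ?_
  · rw [cyclotomic_prime, IsRoot.def, eval_geom_sum]
    exact hr
  · refine ⟨(11) + (51) * ζ + (68) * ζ ^ 2 + (87) * ζ ^ 3 + (99) * ζ ^ 4 + (57) * ζ ^ 5 + (47) * ζ ^ 6 + (82) * ζ ^ 7 + (38) * ζ ^ 8 + (35) * ζ ^ 9 + (124) * ζ ^ 10 + (48) * ζ ^ 11, ?_⟩
    push_cast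
    linear_combination ((168) + (-117) * ζ + (28) * ζ ^ 2 + (48) * ζ ^ 3) * hsum
  · refine ⟨(-5) + (-22) * ζ + (-29) * ζ ^ 2 + (-37) * ζ ^ 3 + (-42) * ζ ^ 4 + (-24) * ζ ^ 5 + (-20) * ζ ^ 6 + (-35) * ζ ^ 7 + (-16) * ζ ^ 8 + (-15) * ζ ^ 9 + (-53) * ζ ^ 10 + (-20) * ζ ^ 11, ?_⟩
    push_cast
    linear_combination ((-72) + (51) * ζ + (-13) * ζ ^ 2 + (-20) * ζ ^ 3) * hsum
  · refine Ideal.mem_span_pair.mpr ⟨(-126464), (-296341) + (-4423) * ζ + (-66) * ζ ^ 2 + (-1) * ζ ^ 3, ?_⟩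
    push_cast
    ring

theorem pid13_principal_3 : ∃ P ∈ primesOver (span {((3 : ℕ) : ℤ)}) (𝓞 K),
    Submodule.IsPrincipal P := by
  have hroots : ∀ x : ZMod 3, x ^ 3 - x - 1 ≠ 0 := by decide
  have h30' : (3 : ZMod 3) = 0 := by decide
  have h3 : Fact (Nat.Prime 3) := ⟨by norm_num⟩
  have h13 : Fact (Nat.Prime 13) := ⟨by norm_num⟩
  have hsum := pid13_sum K
  set ζ := (zeta_spec 13 ℚ K).toInteger with hζdef
  have hmap : (X ^ 3 - X - 1 : ℤ[X]).map (Int.castRingHom (ZMod 3)) = X ^ 3 - X - 1 := by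
    simp
  have hav : aeval ζ (X ^ 3 - X - 1 : ℤ[X]) = ζ ^ 3 - ζ - 1 := by simp
  have hdeg : (X ^ 3 - X - 1 : (ZMod 3)[X]).natDegree = 3 := by compute_degree!
  have hmonic : (X ^ 3 - X - 1 : (ZMod 3)[X]).Monic := by
    rw [Monic, Polynomial.leadingCoeff, hdeg]
    simp [coeff_X, coeff_one]
  refine pid13_exists_principal (n := 13) K 3 (X ^ 3 - X - 1) ?_ ?_ ?_ (ζ ^ 3 - ζ - 1) ?_ ?_ ?_
  · rw [hmap, hmonic.irreducible_iff_roots_eq_zero_of_degree_le_three (by omega) (by omega),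
      Multiset.eq_zero_iff_forall_notMem]
    intro x hx
    have hx' := (mem_roots hmonic.ne_zero).mp hx
    simp only [IsRoot.def, eval_sub, eval_pow, eval_X, eval_one] at hx'
    exact hroots x hx'
  · rw [hmap]; exact hmonic
  · rw [hmap, cyclotomic_prime]
    refine ⟨X ^ 9 + X ^ 8 + 2 * X ^ 7 + X ^ 5 + 2 * X ^ 3 + 2 * X ^ 2 + 2, ?_⟩
    have h30 : (3 : (ZMod 3)[X]) = 0 := by
      have h' : (3 : (ZMod 3)[X]) = C (3 : ZMod 3) := (C_ofNat 3).symm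
      rw [h', h30', C_0]
    simp only [Finset.sum_range_succ, Finset.sum_range_zero]
    linear_combination (1 + X + X ^ 2 + X ^ 3 + X ^ 4 + X ^ 7 + X ^ 8 + X ^ 9) * h30
  · refine ⟨(1) + (1) * ζ ^ 2 + (1) * ζ ^ 3 + (2) * ζ ^ 5 + (1) * ζ ^ 7 + (2) * ζ ^ 8 +
      (-1) * ζ ^ 9 + (3) * ζ ^ 10, ?_⟩
    push_cast
    linear_combination (4 - 3 * ζ) * hsum
  · rw [hav]
  · rw [hav]
    exact subset_span (by simp)

end Thirteen

/-! ### The Minkowski bound and the main theorem -/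

theorem pid13_minkowski (K : Type*) [Field K] [NumberField K] [IsCyclotomicExtension {13} ℚ K] :
    ⌊(4 / Real.pi) ^ InfinitePlace.nrComplexPlaces K *
      ((Module.finrank ℚ K).factorial / (Module.finrank ℚ K : ℝ) ^ Module.finrank ℚ K *
        √|(NumberField.discr K : ℝ)|)⌋₊ ≤ 307 := by
  have h13 : Fact (Nat.Prime 13) := ⟨by norm_num⟩
  have hfr : Module.finrank ℚ K = 12 := by
    rw [IsCyclotomicExtension.finrank (n := 13) K (cyclotomic.irreducible_rat (by norm_num)),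
      Nat.totient_prime h13.out]
  have hnr : InfinitePlace.nrComplexPlaces K = 6 := by
    rw [nrComplexPlaces_eq_totient_div_two 13, Nat.totient_prime h13.out]
  have hdisc : NumberField.discr K = 13 ^ 11 := by
    rw [discr_prime 13 K]
    norm_num
  rw [hfr, hnr, hdisc]
  refine Nat.lt_succ_iff.mp ((Nat.floor_lt (by positivity)).mpr ?_)
  have hpi : (4 / Real.pi) ^ 6 ≤ (4 / 3.14 : ℝ) ^ 6 := by
    have hpi2 := Real.pi_gt_d2
    gcongr
  have hsq : √|((13 ^ 11 : ℤ) : ℝ)| ≤ 1338717 := by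
    rw [Real.sqrt_le_iff]
    refine ⟨by norm_num, ?_⟩
    push_cast
    rw [abs_of_pos (by positivity)]
    norm_num
  calc (4 / Real.pi) ^ 6 * (((12 : ℕ).factorial : ℝ) / ((12 : ℕ) : ℝ) ^ 12 *
        √|((13 ^ 11 : ℤ) : ℝ)|)
      ≤ (4 / 3.14 : ℝ) ^ 6 * (((12 : ℕ).factorial : ℝ) / ((12 : ℕ) : ℝ) ^ 12 * 1338717) := by
        gcongr
    _ < ((307 + 1 : ℕ) : ℝ) := by
        rw [show (12 : ℕ).factorial = 479001600 by decide]
        norm_num

/-- `ℤ[ζ₁₃]` is a principal ideal domain. -/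
theorem thirteen_pid (K : Type*) [Field K] [NumberField K] [IsCyclotomicExtension {13} ℚ K] :
    IsPrincipalIdealRing (𝓞 K) := by
  have h13 : Fact (Nat.Prime 13) := ⟨by norm_num⟩
  have : IsGalois ℚ K := IsCyclotomicExtension.isGalois {13} ℚ K
  apply RingOfIntegers.isPrincipalIdealRing_of_isPrincipal_of_lt_or_isPrincipal_of_mem_primesOver_of_mem_Icc
  have hM := pid13_minkowski K
  intro p hp hprime
  have hp307 : p ≤ 307 := (Finset.mem_Icc.mp hp).2.trans hM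
  have : Fact p.Prime := ⟨hprime⟩
  have := Int.ideal_span_isMaximal_of_prime p
  by_cases hp13 : p = 13
  · subst hp13
    obtain ⟨⟨P, hP1, hP2⟩⟩ := (span {((13 : ℕ) : ℤ)}).nonempty_primesOver (S := 𝓞 K)
    refine ⟨P, ⟨hP1, hP2⟩, Or.inr ?_⟩
    rw [eq_span_zeta_sub_one_of_liesOver' 13 K (zeta_spec 13 ℚ K) P]
    exact ⟨⟨_, rfl⟩⟩
  · by_cases hsmall : p = 3 ∨ p = 53 ∨ p = 79 ∨ p = 131 ∨ p = 157
    · rcases hsmall with rfl | rfl | rfl | rfl | rfl
      · obtain ⟨P, hP, hprinc⟩ := pid13_principal_3 K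
        exact ⟨P, hP, Or.inr hprinc⟩
      · obtain ⟨P, hP, hprinc⟩ := pid13_principal_53 K
        exact ⟨P, hP, Or.inr hprinc⟩
      · obtain ⟨P, hP, hprinc⟩ := pid13_principal_79 K
        exact ⟨P, hP, Or.inr hprinc⟩
      · obtain ⟨P, hP, hprinc⟩ := pid13_principal_131 K
        exact ⟨P, hP, Or.inr hprinc⟩
      · obtain ⟨P, hP, hprinc⟩ := pid13_principal_157 K
        exact ⟨P, hP, Or.inr hprinc⟩
    · obtain ⟨⟨P, hP1, hP2⟩⟩ := (span {(p : ℤ)}).nonempty_primesOver (S := 𝓞 K)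
      refine ⟨P, ⟨hP1, hP2⟩, Or.inl ?_⟩
      have hnd : ¬ p ∣ 13 := fun h => hp13 ((Nat.prime_dvd_prime_iff_eq hprime h13.out).mp h)
      rw [inertiaDeg_eq_of_not_dvd p K P hnd]
      by_contra hcon
      have hle : p ^ orderOf (p : ZMod 13) ≤ 307 := (not_lt.mp hcon).trans hM
      have hne : (p : ZMod 13) ≠ 0 := by
        rw [Ne, ZMod.natCast_eq_zero_iff]
        exact fun h => hp13 ((Nat.prime_dvd_prime_iff_eq h13.out hprime).mp h).symm
      have hpos : 0 < orderOf (p : ZMod 13) :=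
        orderOf_pos_iff.mpr (isOfFinOrder_iff_pow_eq_one.mpr
          ⟨12, by norm_num, ZMod.pow_card_sub_one_eq_one hne⟩)
      have hone : (p : ZMod 13) ^ orderOf (p : ZMod 13) = 1 := pow_orderOf_eq_one _
      have h13' : p ^ orderOf (p : ZMod 13) % 13 = 1 := by
        have h1 : ((p ^ orderOf (p : ZMod 13) : ℕ) : ZMod 13) = ((1 : ℕ) : ZMod 13) := by
          push_cast
          exact hone
        rw [ZMod.natCast_eq_natCast_iff'] at h1
        simpa using h1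
      exact hsmall (pid13_arith hprime (by omega) hpos hle h13')

end Fermat.Agent.S11
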